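import Fermat.Agent.LevelRaise.EigenvalueOne
import Fermat.Agent.EC.Det.AbsIrreducible
import Fermat.Agent.EC.Det.Transport
import Fermat.Agent.EC.Frob.Trace
import Fermat.Agent.EC.Torsion.Rat
import Fermat.Agent.Density.FrobeniusDensity

/-!
# An irreducible mod `p` representation of an elliptic curve is not Eisenstein

For `p` odd and any modulus `M` there is a good prime `ℓ ≡ 1 (mod M)` outside any given finite set
with `a_ℓ ≢ ℓ + 1 (mod p)`.
-/

set_option autoImplicit false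

noncomputable section

open WeierstrassCurve
open WeierstrassCurve.Affine.Point
open scoped WeierstrassCurve.Affine

namespace Fermat.Agent.LevelRaise

local notation "ℚ̄" => AlgebraicClosure ℚ
local notation "Γℚ" => (AlgebraicClosure ℚ ≃ₐ[ℚ] AlgebraicClosure ℚ)

theorem exists_good_prime_not_eisenstein (E : WeierstrassCurve ℚ) [E.IsElliptic]
    {W : WeierstrassCurve ℤ} (hW : W.IsIntegralModelOf E) {p : ℕ} (hp : p.Prime) (hp2 : p ≠ 2)
    (hirr : GaloisRepIsIrreducible (K := ℚ̄) ℚ E p) (M : ℕ) [NeZero M] :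
    ∃ ℓ : ℕ, ℓ.Prime ∧ W.IsGoodPrimeFor ℓ ∧ ℓ ≠ p ∧ ¬ ℓ ∣ M ∧ (ℓ : ZMod M) = 1 ∧
      (W.apOfModel ℓ : ZMod p) ≠ (ℓ : ZMod p) + 1 := by
  have : Fact p.Prime := ⟨hp⟩
  have : NeZero p := ⟨hp.ne_zero⟩
  obtain ⟨C, hC⟩ := hW
  have hΔ : W.Δ ≠ 0 := EC.IsIntegralModelOf.Δ_ne_zero ⟨C, hC⟩
  have := EC.isElliptic_map_rat hΔ
  set V := W.map (Int.castRingHom ℚ) with hV
  have hirr' : GaloisRepIsIrreducible (K := ℚ̄) ℚ V p :=
    (EC.galoisRepIsIrreducible_iff (K := ℚ̄) (S := ℚ) hC p).1 hirr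
  set ρ := galoisRepModuleEnd (K := ℚ̄) ℚ V p with hρ
  have hrank := EC.finrank_torsion_rat V p
  have h2 : (2 : ZMod p) ≠ 0 := by
    have : ((2 : ℕ) : ZMod p) ≠ 0 := by
      rw [Ne, ZMod.natCast_eq_zero_iff]
      exact fun h => hp2 ((Nat.prime_dvd_prime_iff_eq hp Nat.prime_two).1 h)
    simpa using this
  obtain ⟨g, hg, hgne⟩ := exists_det_sub_one_ne_zero h2 hrank ρ hirr'.2
    complexConjugation_mul_self
    (EC.det_galoisRepModuleEnd_involution hΔ p complexConjugation_mul_self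
      EC.complexConjugation_ne_one)
    (EC.cycloChar M).ker (fun a b => by
      simp only [MonoidHom.mem_ker, map_mul, map_inv]
      rw [mul_comm (EC.cycloChar M a) (EC.cycloChar M b)]
      group)
  -- approximate `g` by a Frobenius element
  obtain ⟨L₁, hL₁, hfix₁⟩ := EC.galoisRepModuleEnd_factorsThroughFiniteLevel V hp.ne_zero
  obtain ⟨L₂, hL₂, hfix₂⟩ := EC.cycloChar_factors M
  obtain ⟨ℓ, hℓ, hℓS, A, σ, hA, hσ, -, a, b, hab, hba⟩ :=
    Density.exists_isFrobeniusAt_map_pow (ρ.prod (EC.cycloChar M))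
      ⟨L₁ ⊔ L₂, IntermediateField.finiteDimensional_sup L₁ L₂, fun τ hτ => Prod.ext
        (hfix₁ τ fun x hx => hτ x (SetLike.le_def.1 le_sup_left hx))
        (hfix₂ τ fun x hx => hτ x (SetLike.le_def.1 le_sup_right hx))⟩
      g (M * p * W.Δ.natAbs).primeFactors
  have hndvd : ¬ ℓ ∣ M * p * W.Δ.natAbs := fun h =>
    hℓS (Nat.mem_primeFactors.2 ⟨hℓ, h, mul_ne_zero (mul_ne_zero (NeZero.ne M) hp.ne_zero)
      (Int.natAbs_ne_zero.2 hΔ)⟩)
  have hgood : W.IsGoodPrimeFor ℓ := fun h =>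
    hndvd (dvd_mul_of_dvd_right (Int.natCast_dvd.1 h) _)
  have hℓp : ℓ ≠ p := fun h => hndvd (dvd_mul_of_dvd_left (h ▸ dvd_mul_left ℓ M) _)
  have hℓM : ¬ ℓ ∣ M := fun h => hndvd (dvd_mul_of_dvd_left (h.mul_right p) _)
  refine ⟨ℓ, hℓ, hgood, hℓp, hℓM, ?_, fun heq => ?_⟩
  · rw [← EC.cycloChar_eq_of_isFrobeniusAt hℓ hℓM hA hσ]
    have : EC.cycloChar M σ = 1 := by
      have := congrArg Prod.snd hab
      simp only [MonoidHom.prod_apply, Prod.pow_snd] at this
      rw [this, MonoidHom.mem_ker.1 hg, one_pow]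
    rw [this, Units.val_one]
  · have hσ1 : LinearMap.det (ρ σ - 1) = 0 := by
      have hndp : ¬ ℓ ∣ p := fun h => hℓp ((Nat.prime_dvd_prime_iff_eq hℓ hp).1 h)
      rw [det_sub_one_of_finrank_two hrank, hρ,
        EC.det_frobenius_torsion W hℓ hA hgood hσ hp.one_lt hndp, ← galoisTrace_def,
        EC.galoisTrace_frobenius W hℓ hA hgood hσ hp.one_lt hndp, heq]
      ring
    have hgσ : ρ g = ρ σ ^ b := by
      simpa [Prod.pow_fst] using congrArg Prod.fst hba
    obtain ⟨x, hx, hx0⟩ := Submodule.exists_mem_ne_zero_of_ne_bot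
      (LinearMap.bot_lt_ker_of_det_eq_zero hσ1).ne'
    rw [LinearMap.mem_ker, LinearMap.sub_apply, Module.End.one_apply, sub_eq_zero] at hx
    have hgx : ρ g x = x := by
      rw [hgσ, Module.End.pow_apply]
      exact Function.iterate_fixed hx b
    have : Module.Finite (ZMod p) (Submodule.torsionBy ℤ (V⁄ℚ̄).Point p) :=
      Module.finite_of_finrank_eq_succ hrank
    refine hgne (LinearMap.det_eq_zero_iff_ker_ne_bot.2 fun hker => hx0 ?_)
    have : x ∈ LinearMap.ker (ρ g - 1) := by simp [hgx]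
    simpa [hker] using this

end Fermat.Agent.LevelRaise
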