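import Fermat.Agent.LevelRaise.Crossing
import Mathlib.LinearAlgebra.Matrix.FixedDetMatrices
import Mathlib.NumberTheory.ModularForms.Cusps
import Mathlib.Algebra.Order.Floor.Ring

/-!
# Closed geodesic chains have no boundary

Near the cusp fixed by a parabolic element `δ` only the translates of the geodesic ending at that
cusp cross a horizontal path; those arriving and those leaving are matched by right multiplication
with `γ`, and each `⟨δ⟩`-orbit of either kind contributes the same amount.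
-/

set_option autoImplicit false

noncomputable section

open CongruenceSubgroup ModularCurve.Period
open Fermat.Agent.Periods
open scoped MatrixGroups ComplexConjugate

namespace Fermat.Agent.LevelRaise

/-! ### Double counting along the orbits of an element -/

theorem finsum_eq_of_orbit_sums {G : Type*} [Group G] (δ : G) (f₁ f₂ c : G → ℤ) (C : ℤ)
    (hC : C ≠ 0) (h₁ : f₁.support.Finite) (h₂ : f₂.support.Finite)
    (hs₁ : ∀ g, (Function.support fun n : ℤ => f₁ (δ ^ n * g)).Finite)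
    (hs₂ : ∀ g, (Function.support fun n : ℤ => f₂ (δ ^ n * g)).Finite)
    (hc₁ : ∀ g, ∑ᶠ n : ℤ, f₁ (δ ^ n * g) = c g) (hc₂ : ∀ g, ∑ᶠ n : ℤ, f₂ (δ ^ n * g) = c g)
    (hC₁ : ∀ g, f₁ g ≠ 0 → c g = C) (hC₂ : ∀ g, f₂ g ≠ 0 → c g = C) :
    ∑ᶠ g, f₁ g = ∑ᶠ g, f₂ g := by
  have step : ∀ a b : G → ℤ, a.support.Finite →
      (∀ g, (Function.support fun n : ℤ => b (δ ^ n * g)).Finite) →
      (∀ g, ∑ᶠ n : ℤ, b (δ ^ n * g) = c g) → (∀ g, a g ≠ 0 → c g = C) →
      ∑ᶠ x : G × ℤ, a x.1 * b (δ ^ x.2 * x.1) = C * ∑ᶠ g, a g := by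
    intro a b ha hb hbc haC
    have hfin : (Function.support fun x : G × ℤ => a x.1 * b (δ ^ x.2 * x.1)).Finite := by
      refine (ha.biUnion fun g _ => (hb g).image fun n => (g, n)).subset ?_
      rintro ⟨g, n⟩ hx
      simp only [Function.mem_support, ne_eq, mul_eq_zero, not_or] at hx
      exact Set.mem_biUnion (show g ∈ a.support from hx.1) ⟨n, hx.2, rfl⟩
    rw [finsum_curry _ hfin, mul_finsum]
    refine finsum_congr fun g => ?_
    dsimp only
    rw [← mul_finsum, hbc g]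
    by_cases hg : a g = 0
    · simp [hg]
    · rw [haC g hg, mul_comm]
  refine mul_left_cancel₀ hC ?_
  rw [← step f₁ f₂ h₁ hs₂ hc₂ hC₁, ← step f₂ f₁ h₂ hs₁ hc₁ hC₂]
  let e : G × ℤ ≃ G × ℤ :=
    { toFun := fun x => (δ ^ x.2 * x.1, -x.2)
      invFun := fun x => (δ ^ x.2 * x.1, -x.2)
      left_inv := fun x => by simp
      right_inv := fun x => by simp }
  refine (finsum_comp_equiv e).symm.trans (finsum_congr fun x => ?_)
  simp [e, mul_comm]

/-! ### The contribution of a vertical geodesic -/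

/-- Twice the number of crossings of the vertical line over `t` with the segment `[0, h]`. -/
def vert (h t : ℝ) : ℤ := (SignType.sign (h - t) : ℤ) + (SignType.sign t : ℤ)

theorem vert_eq_mul {h : ℝ} (hh : h ≠ 0) (t : ℝ) :
    vert h t = (SignType.sign h : ℤ) * vert 1 (t / h) := by
  have e1 : h - t = h * (1 - t / h) := by field_simp
  have e2 : t = h * (t / h) := by field_simp
  conv_lhs => rw [vert, e1]; arg 2; rw [e2]
  simp only [vert, sign_mul, SignType.coe_mul]
  ring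

theorem vert_one_eq_zero {s : ℝ} (h : s < 0 ∨ 1 < s) : vert 1 s = 0 := by
  rcases h with h | h
  · simp [vert, sign_neg h, sign_pos (show 0 < 1 - s by linarith)]
  · simp [vert, sign_pos (show 0 < s by linarith), sign_neg (show 1 - s < 0 by linarith)]

theorem vert_support {h : ℝ} (hh : h ≠ 0) (t : ℝ) :
    (Function.support fun n : ℤ => vert h (t + n * h)) ⊆
      (({⌈-(t / h)⌉, ⌈-(t / h)⌉ + 1} : Finset ℤ) : Set ℤ) := by
  intro n hn
  simp only [Function.mem_support, vert_eq_mul hh, ne_eq, mul_eq_zero, not_or] at hn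
  have e : (t + n * h) / h = t / h + n := by field_simp
  rw [e] at hn
  have hb := mt vert_one_eq_zero hn.2
  push Not at hb
  simp only [Finset.coe_insert, Finset.coe_singleton, Set.mem_insert_iff, Set.mem_singleton_iff]
  have h1 : ⌈-(t / h)⌉ ≤ n := Int.ceil_le.2 (by linarith [hb.1])
  have h2 : ((n - 1 : ℤ) : ℝ) ≤ (⌈-(t / h)⌉ : ℤ) := by
    push_cast
    linarith [hb.2, Int.le_ceil (-(t / h))]
  have h3 : n - 1 ≤ ⌈-(t / h)⌉ := by exact_mod_cast h2
  omega

theorem finsum_vert {h : ℝ} (hh : h ≠ 0) (t : ℝ) :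
    ∑ᶠ n : ℤ, vert h (t + n * h) = 2 * (SignType.sign h : ℤ) := by
  rw [finsum_eq_sum_of_support_subset _ (vert_support hh t),
    Finset.sum_pair (by omega)]
  simp only [vert_eq_mul hh]
  set m := ⌈-(t / h)⌉ with hm
  have e : ∀ n : ℤ, (t + n * h) / h = t / h + n := fun n => by field_simp
  rw [e, e, ← mul_add, mul_comm (2 : ℤ)]
  congr 1
  have h1 : 0 ≤ t / h + m := by linarith [Int.le_ceil (-(t / h))]
  have h2 : t / h + m < 1 := by linarith [Int.ceil_lt_add_one (-(t / h))]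
  have h4 : (0 : ℝ) < 1 - (t / h + m) := by linarith
  have h5 : (0 : ℝ) < t / h + m + 1 := by linarith
  push_cast
  rw [← add_assoc]
  rcases h1.eq_or_lt with h0 | h0
  · simp [vert, ← h0]
  · have h6 : (1 : ℝ) - (t / h + m + 1) < 0 := by linarith
    rw [vert, vert, sign_pos h4, sign_pos h5, sign_pos h0, sign_neg h6]
    decide

/-! ### Sides near the cusp `∞` -/

theorem lineForm_smul (k : SL(2, ℤ)) (v : Vec) (z : UpperHalfPlane) :
    lineForm (slVec k v) (k • z) * ((k.1 1 0 : ℂ) * z + (k.1 1 1 : ℂ)) = lineForm v z := by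
  have hne : ((k.1 1 0 : ℂ) * z + (k.1 1 1 : ℂ)) ≠ 0 := by
    intro h
    have hd : (k.1 0 0 : ℤ) * k.1 1 1 - k.1 0 1 * k.1 1 0 = 1 := by
      rw [← Matrix.det_fin_two]; exact k.2
    have him : (k.1 1 0 : ℝ) * z.im = 0 := by
      simpa using congrArg Complex.im h
    have hc : k.1 1 0 = 0 := by
      exact_mod_cast (mul_eq_zero.1 him).resolve_right z.im_pos.ne'
    rw [hc, mul_zero, sub_zero] at hd
    rw [hc, Int.cast_zero, zero_mul, zero_add, Int.cast_eq_zero] at h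
    rw [h, mul_zero] at hd
    exact zero_ne_one hd
  have hd : (k.1 0 0 : ℂ) * k.1 1 1 - k.1 0 1 * k.1 1 0 = 1 := by
    have : (k.1 0 0 : ℤ) * k.1 1 1 - k.1 0 1 * k.1 1 0 = 1 := by
      rw [← Matrix.det_fin_two]; exact k.2
    exact_mod_cast this
  simp only [lineForm, slVec, Matrix.mulVec, dotProduct, Fin.sum_univ_two,
    UpperHalfPlane.coe_specialLinearGroup_apply]
  push_cast [eq_intCast]
  field_simp
  linear_combination ((v 1 : ℂ) * z - (v 0 : ℂ)) * hd

theorem side_slVec_smul (k : SL(2, ℤ)) (u v : Vec) (z : UpperHalfPlane) :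
    side (slVec k u) (slVec k v) (k • z) = side u v z := by
  have hu := lineForm_smul k u z
  have hv := lineForm_smul k v z
  set d := (k.1 1 0 : ℂ) * z + (k.1 1 1 : ℂ) with hd
  have hd0 : d ≠ 0 := by
    intro h0
    have h1 := lineForm_smul k ![1, 0] z
    have h2 := lineForm_smul k ![0, 1] z
    rw [← hd, h0, mul_zero] at h1
    simp [lineForm] at h1
  have hdet : slVec k u 0 * slVec k v 1 - slVec k u 1 * slVec k v 0 = u 0 * v 1 - u 1 * v 0 := by
    have : (k.1 0 0 : ℤ) * k.1 1 1 - k.1 0 1 * k.1 1 0 = 1 := by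
      rw [← Matrix.det_fin_two]; exact k.2
    simp only [slVec, Matrix.mulVec, dotProduct, Fin.sum_univ_two]
    linear_combination (u 0 * v 1 - u 1 * v 0) * this
  have hprod : (conj (lineForm u z) * lineForm v z).re =
      Complex.normSq d * (conj (lineForm (slVec k u) (k • z)) * lineForm (slVec k v) (k • z)).re := by
    rw [← hu, ← hv, map_mul, ← Complex.re_ofReal_mul, Complex.normSq_eq_conj_mul_self]
    congr 1
    ring
  have hpos : 0 < Complex.normSq d := Complex.normSq_pos.2 hd0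
  rw [side, side, hdet, hprod, sign_mul, sign_mul, sign_mul, sign_pos hpos, one_mul]

/-- The position of a finite cusp. -/
def cuspPos (v : Vec) : ℝ := (v 0 : ℝ) / (v 1 : ℝ)

/-- The crossing of a geodesic with a horizontal segment high in the upper half plane. -/
theorem cross_high {u v : Vec} {D : ℤ} (hD : u 0 * v 1 - u 1 * v 0 = D) (hD0 : D ≠ 0)
    {z z' : UpperHalfPlane} {h : ℝ} (hz : z.re = 0) (hz' : z'.re = h) (him : z'.im = z.im)
    (hY : |(D : ℝ)| < z.im) :
    cross u v z z' = (if v 1 = 0 then vert h (cuspPos u) else 0) -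
      (if u 1 = 0 then vert h (cuspPos v) else 0) := by
  have hform : ∀ w : UpperHalfPlane, side u v w = (SignType.sign ((D : ℝ) *
      (((u 1 : ℝ) * w.re - u 0) * ((v 1 : ℝ) * w.re - v 0) +
        (u 1 : ℝ) * v 1 * w.im ^ 2)) : ℤ) := by
    intro w
    simp only [side, hD, lineForm, UpperHalfPlane.re, UpperHalfPlane.im]
    congr 3
    simp [Complex.mul_re, Complex.mul_im]
    ring
  have hDr : (D : ℝ) = (u 0 : ℝ) * v 1 - (u 1 : ℝ) * v 0 := by rw [← hD]; push_cast; ring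
  by_cases hu : u 1 = 0
  · have hv : v 1 ≠ 0 := fun hv => hD0 (by rw [← hD, hu, hv]; ring)
    have hu0 : u 0 ≠ 0 := fun h0 => hD0 (by rw [← hD, hu, h0]; ring)
    have key : ∀ w : UpperHalfPlane, side u v w = - (SignType.sign (w.re - cuspPos v) : ℤ) := by
      intro w
      have hv' : (v 1 : ℝ) ≠ 0 := by exact_mod_cast hv
      have hu' : (u 0 : ℝ) ≠ 0 := by exact_mod_cast hu0
      have hsq : (0 : ℝ) < ((u 0 : ℝ) * v 1) ^ 2 := by positivity
      rw [hform, hDr, hu]
      have e : (((u 0 : ℝ) * v 1 - ((0 : ℤ) : ℝ) * v 0) *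
          ((((0 : ℤ) : ℝ) * w.re - u 0) * ((v 1 : ℝ) * w.re - v 0) +
            ((0 : ℤ) : ℝ) * v 1 * w.im ^ 2)) =
          ((u 0 : ℝ) * v 1) ^ 2 * (-(w.re - cuspPos v)) := by
        rw [cuspPos]; field_simp; push_cast; ring
      rw [e, sign_mul, sign_pos hsq, one_mul, Left.sign_neg, SignType.coe_neg]
    rw [cross, key, key, hz, hz', if_neg hv, if_pos hu, vert, zero_sub, Left.sign_neg,
      SignType.coe_neg]
    ring
  by_cases hv : v 1 = 0
  · have hv0 : v 0 ≠ 0 := fun h0 => hD0 (by rw [← hD, hv, h0]; ring)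
    have key : ∀ w : UpperHalfPlane, side u v w = (SignType.sign (w.re - cuspPos u) : ℤ) := by
      intro w
      have hu' : (u 1 : ℝ) ≠ 0 := by exact_mod_cast hu
      have hv' : (v 0 : ℝ) ≠ 0 := by exact_mod_cast hv0
      have hsq : (0 : ℝ) < ((u 1 : ℝ) * v 0) ^ 2 := by positivity
      rw [hform, hDr, hv]
      have e : (((u 0 : ℝ) * ((0 : ℤ) : ℝ) - (u 1 : ℝ) * v 0) *
          (((u 1 : ℝ) * w.re - u 0) * (((0 : ℤ) : ℝ) * w.re - v 0) +
            (u 1 : ℝ) * ((0 : ℤ) : ℝ) * w.im ^ 2)) =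
          ((u 1 : ℝ) * v 0) ^ 2 * (w.re - cuspPos u) := by
        rw [cuspPos]; field_simp; push_cast; ring
      rw [e, sign_mul, sign_pos hsq, one_mul]
    rw [cross, key, key, hz, hz', if_pos hv, if_neg hu, vert, zero_sub, Left.sign_neg,
      SignType.coe_neg]
    ring
  have key : ∀ w : UpperHalfPlane, w.im = z.im →
      side u v w = (SignType.sign ((D : ℝ) * ((u 1 : ℝ) * v 1)) : ℤ) := by
    intro w hw
    set X := ((u 1 : ℝ) * w.re - u 0) * ((v 1 : ℝ) * w.re - v 0) + (u 1 : ℝ) * v 1 * w.im ^ 2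
      with hX
    have hP : (1 : ℝ) ≤ ((u 1 : ℝ) * v 1) ^ 2 := by
      have : (1 : ℤ) ≤ (u 1 * v 1) ^ 2 :=
        Int.add_one_le_iff.2 (sq_pos_of_ne_zero (mul_ne_zero hu hv))
      exact_mod_cast this
    have hY2 : (D : ℝ) ^ 2 < w.im ^ 2 := by
      rw [hw]; nlinarith [abs_nonneg (D : ℝ), sq_abs (D : ℝ)]
    have hPX : 0 < ((u 1 : ℝ) * v 1) * X := by
      have e : ((u 1 : ℝ) * v 1) * X =
          ((v 1 : ℝ) * ((u 1 : ℝ) * w.re - u 0)) * ((u 1 : ℝ) * ((v 1 : ℝ) * w.re - v 0)) +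
            ((u 1 : ℝ) * v 1) ^ 2 * w.im ^ 2 := by rw [hX]; ring
      rw [e]
      set A := (v 1 : ℝ) * ((u 1 : ℝ) * w.re - u 0) with hA
      set B := (u 1 : ℝ) * ((v 1 : ℝ) * w.re - v 0) with hB
      have hAB : A - B = -(D : ℝ) := by rw [hA, hB, hDr]; ring
      have hsq : (D : ℝ) ^ 2 = A ^ 2 - 2 * (A * B) + B ^ 2 := by
        rw [← neg_sq (D : ℝ), ← hAB]; ring
      nlinarith [sq_nonneg (A + B), mul_le_mul_of_nonneg_right hP (sq_nonneg w.im), hsq, hY2]
    have hs : SignType.sign X = SignType.sign ((u 1 : ℝ) * v 1) := by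
      rcases pos_and_pos_or_neg_and_neg_of_mul_pos hPX with ⟨a, b⟩ | ⟨a, b⟩
      · rw [sign_pos a, sign_pos b]
      · rw [sign_neg a, sign_neg b]
    rw [hform, sign_mul, hs, ← sign_mul]
  rw [cross, key z rfl, key z' him, if_neg hv, if_neg hu, sub_self, sub_self]

/-! ### The theorem -/

theorem slVec_comp (g h : SL(2, ℤ)) (v : Vec) : slVec (g * h) v = slVec g (slVec h v) := by
  rw [slVec, slVec, slVec, Matrix.SpecialLinearGroup.coe_mul, Matrix.mulVec_mulVec]

/-- A parabolic element is conjugate in `SL(2, ℤ)` to `± T ^ h`. -/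
theorem exists_conj_eq_T_zpow (δ : SL(2, ℤ))
    (h : (δ : Matrix (Fin 2) (Fin 2) ℤ).trace ^ 2 = 4) :
    ∃ (k s : SL(2, ℤ)) (n : ℤ), (s = 1 ∨ s = -1) ∧ δ = k * (s * ModularGroup.T ^ n) * k⁻¹ := by
  set M := (δ : Matrix (Fin 2) (Fin 2) ℤ) with hM
  have hdet : M 0 0 * M 1 1 - M 0 1 * M 1 0 = 1 := by rw [← Matrix.det_fin_two]; exact δ.2
  obtain ⟨ε, hε, htr⟩ : ∃ ε : ℤ, (ε = 1 ∨ ε = -1) ∧ M 0 0 + M 1 1 = 2 * ε := by
    rw [Matrix.trace_fin_two] at h
    rcases sq_eq_sq_iff_eq_or_eq_neg.1 (show (M 0 0 + M 1 1) ^ 2 = (2 : ℤ) ^ 2 by rw [h]; ring)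
      with h2 | h2
    · exact ⟨1, Or.inl rfl, by omega⟩
    · exact ⟨-1, Or.inr rfl, by omega⟩
  have hε2 : ε * ε = 1 := by rcases hε with rfl | rfl <;> rfl
  obtain ⟨a, b, hab, ha, hb⟩ : ∃ a b : ℤ, IsCoprime a b ∧ M 0 0 * a + M 0 1 * b = ε * a ∧
      M 1 0 * a + M 1 1 * b = ε * b := by
    by_cases hz : M 0 1 = 0 ∧ ε - M 0 0 = 0
    · refine ⟨0, 1, isCoprime_one_right, by simp [hz.1], ?_⟩
      rw [mul_zero, zero_add, mul_one, mul_one]
      omega
    · have hg : Int.gcd (M 0 1) (ε - M 0 0) ≠ 0 := fun h0 => hz (Int.gcd_eq_zero_iff.1 h0)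
      obtain ⟨a, ha⟩ := Int.gcd_dvd_left (M 0 1) (ε - M 0 0)
      obtain ⟨b, hb⟩ := Int.gcd_dvd_right (M 0 1) (ε - M 0 0)
      have hbez := Int.gcd_eq_gcd_ab (M 0 1) (ε - M 0 0)
      set g := (Int.gcd (M 0 1) (ε - M 0 0) : ℤ) with hg'
      have hg0 : g ≠ 0 := Int.natCast_ne_zero.2 hg
      refine ⟨a, b, ⟨Int.gcdA (M 0 1) (ε - M 0 0), Int.gcdB (M 0 1) (ε - M 0 0),
        mul_left_cancel₀ hg0 ?_⟩, mul_left_cancel₀ hg0 ?_, mul_left_cancel₀ hg0 ?_⟩
      · linear_combination -hbez - Int.gcdA (M 0 1) (ε - M 0 0) * ha -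
          Int.gcdB (M 0 1) (ε - M 0 0) * hb
      · linear_combination (-M 0 0 + ε) * ha - M 0 1 * hb
      · linear_combination -hdet + (ε - M 1 1) * hb + ε * htr + hε2 - M 1 0 * ha
  obtain ⟨k, hk0, hk1⟩ := hab.exists_SL2_col 0
  set Q := k⁻¹ * δ * k with hQ
  have hQ0 : Q.1 0 0 = ε ∧ Q.1 1 0 = 0 := by
    have hkd : a * k.1 1 1 - k.1 0 1 * b = 1 := by
      rw [← hk0, ← hk1, ← Matrix.det_fin_two]; exact k.2
    constructor <;>
    · simp [hQ, Matrix.SpecialLinearGroup.coe_inv, Matrix.adjugate_fin_two, Matrix.mul_apply,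
        Matrix.vecMul, dotProduct, Fin.sum_univ_two, ← hM, hk0, hk1]
      first
        | linear_combination (k.1 1 1) * ha - (k.1 0 1) * hb + ε * hkd
        | linear_combination -b * ha + a * hb
  have hQ1 : Q.1 1 1 = ε := by
    have hd := Q.2
    rw [Matrix.det_fin_two, hQ0.1, hQ0.2, mul_zero, sub_zero] at hd
    linear_combination ε * hd - Q.1 1 1 * hε2
  refine ⟨k, if ε = 1 then 1 else -1, ε * Q.1 0 1, by split_ifs <;> simp, ?_⟩
  have e : ((if ε = 1 then 1 else -1 : SL(2, ℤ)) * ModularGroup.T ^ (ε * Q.1 0 1)) = Q := by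
    apply Subtype.ext
    rw [Matrix.SpecialLinearGroup.coe_mul, ModularGroup.coe_T_zpow, Matrix.eta_fin_two Q.1,
      hQ0.1, hQ0.2, hQ1]
    rcases hε with rfl | rfl <;> simp [Matrix.one_fin_two]
  rw [e, hQ]
  group

variable (N : ℕ) [NeZero N]

/-- The intersection homomorphism of a geodesic between equivalent cusps is cuspidal. -/
theorem crossHom_slVec_self_mem_cuspidalHoms {r : Vec} (_hr : r ≠ 0) (γ : Gamma0 N) :
    crossHom N r (slVec γ r) ∈ cuspidalHoms ℤ (Gamma0 N) ℤ := by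
  intro δ hδ
  rcases hδ.lt_or_eq with hlt | heq
  · exact crossHom_apply_eq_zero_of_trace_sq_lt N _ _ δ hlt
  set D : ℤ := r 0 * slVec γ r 1 - r 1 * slVec γ r 0 with hD
  have hdet : ∀ (g : SL(2, ℤ)) (u v : Vec),
      slVec g u 0 * slVec g v 1 - slVec g u 1 * slVec g v 0 = u 0 * v 1 - u 1 * v 0 := by
    intro g u v
    have : (g.1 0 0 : ℤ) * g.1 1 1 - g.1 0 1 * g.1 1 0 = 1 := by
      rw [← Matrix.det_fin_two]; exact g.2
    simp only [slVec, Matrix.mulVec, dotProduct, Fin.sum_univ_two]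
    linear_combination (u 0 * v 1 - u 1 * v 0) * this
  rcases eq_or_ne D 0 with hD0 | hD0
  · rw [crossHom_apply N _ _ δ UpperHalfPlane.I, crossSum]
    refine finsum_eq_zero_of_forall_eq_zero fun g => ?_
    simp only [cross, side, hdet, ← hD, hD0, Int.cast_zero, zero_mul, sub_self]
  obtain ⟨k, s, n, hs, hδk⟩ := exists_conj_eq_T_zpow δ heq
  have hsz : ∀ w : UpperHalfPlane, s • w = w := by
    rcases hs with rfl | rfl
    · exact fun w => one_smul _ w
    · intro w
      ext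
      rw [UpperHalfPlane.coe_specialLinearGroup_apply]
      simp
  have hscomm : ∀ g : SL(2, ℤ), Commute s g := by
    rcases hs with rfl | rfl
    · exact Commute.one_left
    · exact Commute.neg_one_left
  rcases eq_or_ne n 0 with rfl | hn
  · rw [crossHom_apply N _ _ δ UpperHalfPlane.I, crossSum]
    refine finsum_eq_zero_of_forall_eq_zero fun g => ?_
    have hfix : (δ : SL(2, ℤ)) • UpperHalfPlane.I = UpperHalfPlane.I := by
      rw [hδk, zpow_zero, mul_one, mul_smul, mul_smul, hsz, smul_inv_smul]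
    simp [cross, hfix]
  let z : UpperHalfPlane := ⟨⟨0, |(D : ℝ)| + 1⟩, by positivity⟩
  set z' : UpperHalfPlane := (n : ℝ) +ᵥ z with hz'
  let u : Gamma0 N → Vec := fun g => slVec k⁻¹ (slVec g r)
  let v : Gamma0 N → Vec := fun g => slVec k⁻¹ (slVec g (slVec γ r))
  have hh : (n : ℝ) ≠ 0 := by exact_mod_cast hn
  have hterm : ∀ g : Gamma0 N, cross (slVec g r) (slVec g (slVec γ r)) (k • z) (k • z') =
      (if v g 1 = 0 then vert n (cuspPos (u g)) else 0) -
        (if u g 1 = 0 then vert n (cuspPos (v g)) else 0) := by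
    intro g
    have e : cross (slVec g r) (slVec g (slVec γ r)) (k • z) (k • z') = cross (u g) (v g) z z' := by
      have e1 : ∀ x : Vec, slVec k (slVec k⁻¹ x) = x := fun x => by
        rw [← slVec_comp, mul_inv_cancel]; simp [slVec]
      simp only [cross, u, v]
      conv_lhs => rw [← e1 (slVec g r), ← e1 (slVec g (slVec γ r))]
      rw [side_slVec_smul, side_slVec_smul]
    rw [e]
    refine cross_high (D := D) ?_ hD0 ?_ ?_ ?_ ?_
    · simp only [u, v, hdet, hD]
    · rfl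
    · simp [hz', z, UpperHalfPlane.re, UpperHalfPlane.coe_vadd]
    · simp [hz', z, UpperHalfPlane.im, UpperHalfPlane.coe_vadd]
    · show |(D : ℝ)| < |(D : ℝ)| + 1
      linarith
  set f₁ : Gamma0 N → ℤ := fun g => if u g 1 = 0 then vert n (cuspPos (v g)) else 0 with hf₁
  set f₂ : Gamma0 N → ℤ := fun g => if v g 1 = 0 then vert n (cuspPos (u g)) else 0 with hf₂
  have hexcl : ∀ g, u g 1 = 0 → v g 1 ≠ 0 := fun g hu hv => hD0 (by
    rw [hD, ← hdet (g : SL(2, ℤ)), ← hdet k⁻¹]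
    show u g 0 * v g 1 - u g 1 * v g 0 = 0
    rw [hu, hv]; ring)
  have hfin := finite_support_cross N r (slVec γ r) (k • z) (k • z')
  have hfin₁ : f₁.support.Finite := hfin.subset fun g hg => by
    simp only [Function.mem_support, hf₁, ne_eq] at hg ⊢
    by_cases hu : u g 1 = 0
    · rw [hterm, if_neg (hexcl g hu), zero_sub, neg_eq_zero]; exact hg
    · rw [if_neg hu] at hg; exact absurd rfl hg
  have hfin₂ : f₂.support.Finite := hfin.subset fun g hg => by
    simp only [Function.mem_support, hf₂, ne_eq] at hg ⊢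
    by_cases hv : v g 1 = 0
    · rw [hterm, if_neg (fun hu => hexcl g hu hv), sub_zero]; exact hg
    · rw [if_neg hv] at hg; exact absurd rfl hg
  have hval : crossHom N r (slVec γ r) (Additive.ofMul δ) = ∑ᶠ g, f₂ g - ∑ᶠ g, f₁ g := by
    rw [crossHom_apply N _ _ δ (k • z), crossSum, ← finsum_sub_distrib hfin₂ hfin₁]
    refine finsum_congr fun g => ?_
    rw [hδk, mul_smul, mul_smul, inv_smul_smul, mul_smul, hsz,
      UpperHalfPlane.modular_T_zpow_smul, hterm]
  rw [hval, sub_eq_zero]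
  -- reindex `f₂` and compare orbit by orbit
  rw [← finsum_comp_equiv (Equiv.mulRight γ⁻¹)]
  set f₂' : Gamma0 N → ℤ := fun g => f₂ (g * γ⁻¹) with hf₂'
  show ∑ᶠ g, f₂' g = ∑ᶠ g, f₁ g
  let w : Gamma0 N → Vec := fun g => slVec k⁻¹ (slVec g (slVec (γ⁻¹ : Gamma0 N) r))
  have hv' : ∀ g, v (g * γ⁻¹) = u g := fun g => by
    simp only [u, v]
    rw [← slVec_comp ((g * γ⁻¹ : Gamma0 N) : SL(2, ℤ)) (γ : SL(2, ℤ)), ← Subgroup.coe_mul,
      inv_mul_cancel_right]
  have hu' : ∀ g, u (g * γ⁻¹) = w g := fun g => by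
    simp only [u, w]
    rw [Subgroup.coe_mul, slVec_comp]
  have hf₂'' : ∀ g, f₂' g = if u g 1 = 0 then vert n (cuspPos (w g)) else 0 := fun g => by
    simp only [hf₂', hf₂, hv', hu']
  -- translation by powers of `δ`
  have hshift : ∀ (m : ℤ) (g : Gamma0 N) (x : Vec), ∃ e : ℤ, (e = 1 ∨ e = -1) ∧
      slVec k⁻¹ (slVec ((δ ^ m * g : Gamma0 N) : SL(2, ℤ)) x) =
        e • ![slVec k⁻¹ (slVec g x) 0 + n * m * slVec k⁻¹ (slVec g x) 1,
          slVec k⁻¹ (slVec g x) 1] := by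
    intro m g x
    obtain ⟨e, he, hse⟩ : ∃ e : ℤ, (e = 1 ∨ e = -1) ∧ ∀ y : Vec, slVec (s ^ m) y = e • y := by
      rcases hs with rfl | rfl
      · exact ⟨1, Or.inl rfl, fun y => by simp [slVec]⟩
      · rcases Int.even_or_odd m with hm | hm
        · exact ⟨1, Or.inl rfl, fun y => by simp [slVec, hm.neg_one_zpow]⟩
        · exact ⟨-1, Or.inr rfl, fun y => by simp [slVec, hm.neg_one_zpow, Matrix.neg_mulVec]⟩
    refine ⟨e, he, ?_⟩
    rw [Subgroup.coe_mul, SubgroupClass.coe_zpow, hδk, conj_zpow, (hscomm _).mul_zpow, ← zpow_mul,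
      ← slVec_comp, show k⁻¹ * (k * (s ^ m * ModularGroup.T ^ (n * m)) * k⁻¹ * (g : SL(2, ℤ))) =
        s ^ m * (ModularGroup.T ^ (n * m) * (k⁻¹ * g)) by group, slVec_comp, hse, slVec_comp,
      slVec_comp]
    congr 1
    ext i
    fin_cases i <;>
      simp [slVec, ModularGroup.coe_T_zpow, Matrix.mulVec, dotProduct, Fin.sum_univ_two]
  have hpos : ∀ (e : ℤ) (y : Vec) (m : ℤ), e = 1 ∨ e = -1 → y 1 ≠ 0 →
      cuspPos (e • ![y 0 + n * m * y 1, y 1]) = cuspPos y + m * n := by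
    intro e y m he hy
    have hy' : (y 1 : ℝ) ≠ 0 := by exact_mod_cast hy
    rcases he with rfl | rfl
    · simp [cuspPos]; field_simp
    · simp [cuspPos]; field_simp; ring
  have horb : ∀ (x : Gamma0 N → Vec) (y : Vec), (∀ g, x g = slVec k⁻¹ (slVec g y)) →
      (∀ g, u g 1 = 0 → x g 1 ≠ 0) → ∀ g,
      (fun m : ℤ => if u (δ ^ m * g) 1 = 0 then vert n (cuspPos (x (δ ^ m * g))) else 0) =
        fun m : ℤ => if u g 1 = 0 then vert n (cuspPos (x g) + m * n) else 0 := by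
    intro x y hx hne g
    funext m
    obtain ⟨e, he, h1⟩ := hshift m g r
    obtain ⟨e', he', h2⟩ := hshift m g y
    have e1 : u (δ ^ m * g) 1 = e * u g 1 := by
      simp only [u, h1]; simp
    have he0 : e ≠ 0 := by rcases he with rfl | rfl <;> decide
    by_cases hu : u g 1 = 0
    · rw [if_pos hu, if_pos (by rw [e1, hu, mul_zero]), hx (δ ^ m * g), h2, hx g,
        hpos _ _ _ he' (by rw [← hx]; exact hne g hu)]
    · rw [if_neg hu, if_neg (by rw [e1]; exact mul_ne_zero he0 hu)]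
  have hwne : ∀ g, u g 1 = 0 → w g 1 ≠ 0 := fun g hu hw =>
    hexcl (g * γ⁻¹) (by rw [hu']; exact hw) (by rw [hv']; exact hu)
  have o₁ : ∀ g, (fun m : ℤ => f₁ (δ ^ m * g)) =
      fun m : ℤ => if u g 1 = 0 then vert n (cuspPos (v g) + m * n) else 0 := fun g =>
    horb v (slVec γ r) (fun _ => rfl) hexcl g
  have o₂ : ∀ g, (fun m : ℤ => f₂' (δ ^ m * g)) =
      fun m : ℤ => if u g 1 = 0 then vert n (cuspPos (w g) + m * n) else 0 := fun g =>
    (funext fun m => hf₂'' _).trans (horb w _ (fun _ => rfl) hwne g)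
  set c : Gamma0 N → ℤ := fun g => if u g 1 = 0 then 2 * (SignType.sign (n : ℝ) : ℤ) else 0
  have hsum : ∀ (g : Gamma0 N) (t : ℝ),
      (Function.support fun m : ℤ => if u g 1 = 0 then vert n (t + m * n) else 0).Finite ∧
        ∑ᶠ m : ℤ, (if u g 1 = 0 then vert n (t + m * n) else 0) = c g := by
    intro g t
    by_cases hu : u g 1 = 0
    · simp only [c, if_pos hu]
      exact ⟨(Finset.finite_toSet _).subset (vert_support hh t), finsum_vert hh t⟩
    · simp [c, hu]
  refine finsum_eq_of_orbit_sums δ f₂' f₁ c (2 * (SignType.sign (n : ℝ) : ℤ)) ?_ ?_ hfin₁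
    (fun g => by rw [o₂]; exact (hsum g _).1) (fun g => by rw [o₁]; exact (hsum g _).1)
    (fun g => by rw [o₂]; exact (hsum g _).2) (fun g => by rw [o₁]; exact (hsum g _).2)
    (fun g hg => ?_) (fun g hg => ?_)
  · rcases lt_or_gt_of_ne hh with h | h
    · simp [sign_neg h]
    · simp [sign_pos h]
  · exact hfin₂.preimage (mul_left_injective γ⁻¹).injOn
  · rw [hf₂''] at hg
    simp only [c]
    split_ifs at hg ⊢ with hu
    · rfl
    · exact absurd rfl hg
  · simp only [hf₁] at hg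
    simp only [c]
    split_ifs at hg ⊢ with hu
    · rfl
    · exact absurd rfl hg

end Fermat.Agent.LevelRaise
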