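/-
Auxiliary primes in arithmetic progressions for the elementary proof of Ihara's lemma.
-/
import Mathlib.NumberTheory.LSeries.PrimesInAP
import Mathlib.NumberTheory.LegendreSymbol.Basic
import Mathlib.Tactic.LinearCombination

namespace Fermat.Agent.LevelRaise.Ihara

/-- Dirichlet's theorem for an integer modulus. -/
theorem exists_prime_gt_dvd_sub (n : ℕ) {m a : ℤ} (hm : m ≠ 0) (h : IsCoprime a m) :
    ∃ r : ℕ, n < r ∧ r.Prime ∧ m ∣ (r : ℤ) - a := by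
  have h' : IsCoprime a (m.natAbs : ℤ) := by
    rw [Int.natCast_natAbs]; exact h.abs_right
  obtain ⟨r, hr, hrp, heq⟩ :=
    Nat.forall_exists_prime_gt_and_zmodEq n (Int.natAbs_ne_zero.mpr hm) h'
  refine ⟨r, hr, hrp, ?_⟩
  have := heq.symm.dvd
  rwa [Int.natCast_natAbs, abs_dvd] at this

/-- An integer congruent to `a` mod `m` is coprime to `m` whenever `a` is. -/
theorem isCoprime_of_dvd_sub {x a m : ℤ} (h : IsCoprime a m) (hx : m ∣ x - a) :
    IsCoprime x m := by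
  obtain ⟨t, ht⟩ := hx
  have : x = a + m * t := by linear_combination ht
  rw [this]; exact h.add_mul_left_left t

/-- Two primes congruent to `a` mod `m` such that `gcd (r₁ - 1, r₂ - 1)` divides `2 * m`. -/
theorem exists_two_primes (n : ℕ) {m a : ℤ} (hm : m ≠ 0) (h : IsCoprime a m) :
    ∃ r₁ r₂ : ℕ, n < r₁ ∧ n < r₂ ∧ r₁.Prime ∧ r₂.Prime ∧ m ∣ (r₁ : ℤ) - a ∧ m ∣ (r₂ : ℤ) - a ∧
      (Nat.gcd (r₁ - 1) (r₂ - 1) : ℤ) ∣ 2 * m := by
  set e : ℤ := 2 * m + 1 with he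
  have hme : IsCoprime m e := ⟨-2, 1, by rw [he]; ring⟩
  have h2e : IsCoprime (2 : ℤ) e := ⟨-m, 1, by rw [he]; ring⟩
  set t : ℤ := a * e + 2 * (-2 * m) with ht
  have htm : m ∣ t - a := ⟨2 * a - 4, by rw [ht, he]; ring⟩
  have hte : e ∣ t - 2 := ⟨a - 2, by rw [ht, he]; ring⟩
  have htcop : IsCoprime t (m * e) :=
    (isCoprime_of_dvd_sub h htm).mul_right (isCoprime_of_dvd_sub h2e hte)
  have hne : m * e ≠ 0 := mul_ne_zero hm (by omega)
  obtain ⟨r₁, hr₁n, hr₁, hd₁⟩ := exists_prime_gt_dvd_sub n hne htcop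
  have h1m : m ∣ (r₁ : ℤ) - a := by
    have h1 : m ∣ (r₁ : ℤ) - t := (dvd_mul_right m e).trans hd₁
    simpa using dvd_add h1 htm
  have h1e : e ∣ (r₁ : ℤ) - 2 := by
    have h1 : e ∣ (r₁ : ℤ) - t := (dvd_mul_left e m).trans hd₁
    simpa using dvd_add h1 hte
  have h1two : 2 ≤ r₁ := hr₁.two_le
  set u : ℤ := (r₁ : ℤ) - 1 with hu
  have hue : IsCoprime e u := by
    have h1 : e ∣ u - 1 := by
      have : u - 1 = (r₁ : ℤ) - 2 := by rw [hu]; ring
      rw [this]; exact h1e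
    exact (isCoprime_of_dvd_sub isCoprime_one_left h1).symm
  have hcop2 : IsCoprime ((r₁ : ℤ) + 2 * m) (m * u) := by
    refine IsCoprime.mul_right ?_ ?_
    · exact isCoprime_of_dvd_sub h (by
        obtain ⟨k, hk⟩ := h1m; exact ⟨k + 2, by linear_combination hk⟩)
    · have : (r₁ : ℤ) + 2 * m = e + u * 1 := by rw [he, hu]; ring
      rw [this]; exact hue.add_mul_left_left 1
  have hne2 : m * u ≠ 0 := mul_ne_zero hm (by omega)
  obtain ⟨r₂, hr₂n, hr₂, hd₂⟩ := exists_prime_gt_dvd_sub n hne2 hcop2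
  refine ⟨r₁, r₂, hr₁n, hr₂n, hr₁, hr₂, h1m, ?_, ?_⟩
  · obtain ⟨k, hk⟩ := (dvd_mul_right m u).trans hd₂
    obtain ⟨j, hj⟩ := h1m
    exact ⟨k + j + 2, by linear_combination hk + hj⟩
  · set d := Nat.gcd (r₁ - 1) (r₂ - 1) with hd
    have e1 : (d : ℤ) ∣ u := by
      have h0 : (d : ℤ) ∣ ((r₁ - 1 : ℕ) : ℤ) := by exact_mod_cast Nat.gcd_dvd_left _ _
      rwa [Nat.cast_sub (by omega), Nat.cast_one, ← hu] at h0
    have e2 : (d : ℤ) ∣ (r₂ : ℤ) - 1 := by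
      have h0 : (d : ℤ) ∣ ((r₂ - 1 : ℕ) : ℤ) := by exact_mod_cast Nat.gcd_dvd_right _ _
      rwa [Nat.cast_sub (by have := hr₂.two_le; omega), Nat.cast_one] at h0
    have e3 : (d : ℤ) ∣ (r₂ : ℤ) - ((r₁ : ℤ) + 2 * m) :=
      e1.trans ((dvd_mul_left u m).trans hd₂)
    have : 2 * m = ((r₂ : ℤ) - 1) - u - ((r₂ : ℤ) - ((r₁ : ℤ) + 2 * m)) := by rw [hu]; ring
    rw [this]; exact (e2.sub e1).sub e3

/-- A prime which is, up to sign, congruent to `a` mod `m` and lies in a given odd class mod 4. -/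
theorem exists_signed_prime (n : ℕ) {m a : ℤ} (hm : m ≠ 0) (h : IsCoprime a m)
    {t : ℕ} (ht : t = 1 ∨ t = 3) :
    ∃ (r : ℕ) (ε : ℤ), (ε = 1 ∨ ε = -1) ∧ n < r ∧ r.Prime ∧ m ∣ ε * r - a ∧ r % 4 = t := by
  obtain ⟨ε, j, hε, hmod⟩ : ∃ ε j : ℤ, (ε = 1 ∨ ε = -1) ∧ (ε * a + j * m - t) % 4 = 0 := by
    obtain ⟨u, v, huv⟩ := h
    rcases Int.even_or_odd m with ⟨w, hw⟩ | ⟨w, hw⟩
    · have ha : Odd a := by
        rcases Int.even_or_odd a with ⟨z, hz⟩ | ha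
        · exfalso
          have : (2 : ℤ) * (u * z + v * w) = 1 := by rw [hz, hw] at huv; linear_combination huv
          omega
        · exact ha
      obtain ⟨z, hz⟩ := ha
      by_cases hc : (a - t) % 4 = 0
      · exact ⟨1, 0, Or.inl rfl, by simpa using hc⟩
      · refine ⟨-1, 0, Or.inr rfl, ?_⟩
        simp only [neg_mul, one_mul, zero_mul, add_zero]
        omega
    · refine ⟨1, m * (t - a), Or.inl rfl, ?_⟩
      have : 1 * a + m * ((t : ℤ) - a) * m - t = 4 * (((t : ℤ) - a) * (w * w + w)) := by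
        rw [hw]; ring
      rw [this]; exact Int.mul_emod_right 4 _
  have hεε : ε * ε = 1 := by rcases hε with rfl | rfl <;> norm_num
  set b : ℤ := ε * a + j * m with hb
  have hbm : IsCoprime b m := by
    have h1 : IsCoprime (ε * a) m := (IsCoprime.of_mul_left_left
      (y := ε) (by rw [hεε]; exact isCoprime_one_left)).mul_left h
    rw [hb, mul_comm j]; exact h1.add_mul_left_left j
  have hb4 : IsCoprime b 4 := by
    have h2 : IsCoprime b 2 := ⟨1, -(b / 2), by rcases ht with rfl | rfl <;> push_cast at hmod <;> omega⟩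
    simpa using h2.mul_right h2
  obtain ⟨r, hrn, hr, hd⟩ := exists_prime_gt_dvd_sub n (mul_ne_zero (by norm_num) hm)
    (hb4.mul_right hbm)
  refine ⟨r, ε, hε, hrn, hr, ?_, ?_⟩
  · obtain ⟨k, hk⟩ := (dvd_mul_left m 4).trans hd
    exact ⟨ε * (k + j), by rw [hb] at hk; linear_combination ε * hk + a * hεε⟩
  · obtain ⟨k, hk⟩ := (dvd_mul_right (4 : ℤ) m).trans hd
    omega

/-- Modulo a prime `r ≡ 3 (mod 4)` every unit is `±` a square. -/
theorem exists_sign_mul_sq {r : ℕ} (hr : r.Prime) (h3 : r % 4 = 3) {k : ℤ} (hk : ¬ (r : ℤ) ∣ k) :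
    ∃ η x : ℤ, (η = 1 ∨ η = -1) ∧ (r : ℤ) ∣ k - η * x ^ 2 := by
  have : Fact r.Prime := ⟨hr⟩
  have hk0 : (k : ZMod r) ≠ 0 := by rwa [Ne, ZMod.intCast_zmod_eq_zero_iff_dvd]
  rcases ZMod.pow_div_two_eq_neg_one_or_one r hk0 with h | h
  · obtain ⟨y, hy⟩ := (ZMod.euler_criterion r hk0).mpr h
    refine ⟨1, y.val, Or.inl rfl, ?_⟩
    rw [← ZMod.intCast_zmod_eq_zero_iff_dvd]
    push_cast
    rw [ZMod.natCast_zmod_val, hy]; ring
  · have hodd : Odd (r / 2) := by rw [Nat.odd_iff]; omega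
    have h' : (-(k : ZMod r)) ^ (r / 2) = 1 := by rw [hodd.neg_pow, h, neg_neg]
    obtain ⟨y, hy⟩ := (ZMod.euler_criterion r (neg_ne_zero.mpr hk0)).mpr h'
    refine ⟨-1, y.val, Or.inr rfl, ?_⟩
    rw [← ZMod.intCast_zmod_eq_zero_iff_dvd]
    push_cast
    rw [ZMod.natCast_zmod_val]
    linear_combination (-1 : ZMod r) * hy

/-- Modulo a prime `r ≡ 1 (mod 4)`, `-1` is a square. -/
theorem exists_sq_neg_one {r : ℕ} (hr : r.Prime) (h1 : r % 4 = 1) :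
    ∃ x : ℤ, (r : ℤ) ∣ x ^ 2 + 1 := by
  have : Fact r.Prime := ⟨hr⟩
  obtain ⟨y, hy⟩ := (ZMod.exists_sq_eq_neg_one_iff (p := r)).mpr (by omega)
  refine ⟨y.val, ?_⟩
  rw [← ZMod.intCast_zmod_eq_zero_iff_dvd]
  push_cast
  rw [ZMod.natCast_zmod_val]
  linear_combination (-1 : ZMod r) * hy

/-- Fermat's little theorem for an integer not divisible by the prime. -/
theorem dvd_pow_sub_one_of_not_dvd {r : ℕ} (hr : r.Prime) {x : ℤ} (hx : ¬ (r : ℤ) ∣ x) :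
    (r : ℤ) ∣ x ^ (r - 1) - 1 := by
  have : Fact r.Prime := ⟨hr⟩
  rw [← ZMod.intCast_zmod_eq_zero_iff_dvd]
  push_cast
  rw [ZMod.pow_card_sub_one_eq_one (by rwa [Ne, ZMod.intCast_zmod_eq_zero_iff_dvd]), sub_self]

end Fermat.Agent.LevelRaise.Ihara
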