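/-
Ihara's lemma, elementary form.

Homomorphisms on `Γ₀(N)` which kill parabolic elements are handled through their "column symbol"
`s a c` (the value at any matrix of `Γ₀(N)` with first column `(a, c)`).  If two such symbols
`sφ`, `sψ` satisfy the degeneracy relation `sφ (a, q c) = sψ (a, c)` then both depend only on
`a mod N`.  The proof only uses integer matrices, Dirichlet's theorem and squares mod primes:

* `sφ (a, q² c) = sφ (a, c)` (`star`);
* `sφ (a + i ℓ N k, ℓ² N k) = sφ (a, ℓ² N k)` for all large primes `ℓ` (`shift_ell`);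
* `sφ (a, N k x²) = sφ (a, N k)` (`sq_invariant`);
* every unit is `±` a square modulo a prime `≡ 3 (mod 4)` (`eq_base`).
-/
import Fermat.Agent.LevelRaise.IharaPrimes
import Mathlib.Tactic.Module

namespace Fermat.Agent.LevelRaise.Ihara

variable {A : Type*} [AddCommGroup A]

/-- The column symbol of a parabolic homomorphism on `Γ₀(N)`. -/
structure IsSymbol (N : ℤ) (s : ℤ → ℤ → A) : Prop where
  act : ∀ a b c d x y : ℤ, a * d - b * c = 1 → N ∣ c → N ∣ y → IsCoprime x y →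
    s (a * x + b * y) (c * x + d * y) = s a c + s x y
  par : ∀ a b c d : ℤ, a * d - b * c = 1 → N ∣ c → (a + d) ^ 2 = 4 → s a c = 0

theorem isCoprime_act {a b c d x y : ℤ} (h : a * d - b * c = 1) (hxy : IsCoprime x y) :
    IsCoprime (a * x + b * y) (c * x + d * y) := by
  obtain ⟨u, v, huv⟩ := hxy
  exact ⟨u * d - v * c, -u * b + v * a, by linear_combination huv + (u * x + v * y) * h⟩

theorem isCoprime_of_det {a b c d : ℤ} (h : a * d - b * c = 1) : IsCoprime a c :=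
  ⟨d, -b, by linear_combination h⟩

namespace IsSymbol

variable {N : ℤ} {s : ℤ → ℤ → A}

theorem one_zero (h : IsSymbol N s) : s 1 0 = 0 :=
  h.par 1 0 0 1 (by ring) (dvd_zero N) (by norm_num)

theorem one_left (h : IsSymbol N s) {c : ℤ} (hc : N ∣ c) : s 1 c = 0 :=
  h.par 1 0 c 1 (by ring) hc (by norm_num)

theorem neg_one_left (h : IsSymbol N s) {c : ℤ} (hc : N ∣ c) : s (-1) c = 0 :=
  h.par (-1) 0 c (-1) (by ring) hc (by norm_num)

theorem neg (h : IsSymbol N s) {a c : ℤ} (hc : N ∣ c) (hac : IsCoprime a c) :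
    s (-a) (-c) = s a c := by
  have := h.act (-1) 0 0 (-1) a c (by ring) (dvd_zero N) hc hac
  rw [h.neg_one_left (dvd_zero N), zero_add] at this
  simpa using this

theorem congr_left (h : IsSymbol N s) {a a' c : ℤ} (hc : N ∣ c) (hac : IsCoprime a c)
    (hd : c ∣ a' - a) : s a' c = s a c := by
  obtain ⟨t, ht⟩ := hd
  have := h.act 1 t 0 1 a c (by ring) (dvd_zero N) hc hac
  rw [h.one_zero, zero_add] at this
  rw [show a' = 1 * a + t * c by linear_combination ht]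
  simpa using this

theorem congr_right (h : IsSymbol N s) {a c c' : ℤ} (hc : N ∣ c) (hac : IsCoprime a c)
    (hd : N * a ∣ c' - c) : s a c' = s a c := by
  obtain ⟨t, ht⟩ := hd
  have := h.act 1 0 (N * t) 1 a c (by ring) (dvd_mul_right N t) hc hac
  rw [h.one_left (dvd_mul_right N t), zero_add] at this
  rw [show c' = N * t * a + 1 * c by linear_combination ht]
  simpa using this

/-- `congr_left` with a sign. -/
theorem congr_left_sign (h : IsSymbol N s) {a c ε x : ℤ} (hε : ε = 1 ∨ ε = -1) (hc : N ∣ c)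
    (hac : IsCoprime a c) (hd : c ∣ ε * x - a) : s x (ε * c) = s a c := by
  have h1 : s (ε * x) c = s a c := h.congr_left hc hac hd
  have h2 : IsCoprime (ε * x) c := isCoprime_of_dvd_sub hac hd
  rcases hε with rfl | rfl
  · simpa using h1
  · have := h.neg hc h2
    simp only [neg_mul, one_mul, neg_neg] at this h1 ⊢
    rw [this, h1]

end IsSymbol

/-- If `g` is invariant under `i ↦ i * w ^ n₁` and `i ↦ i * w ^ n₂` then also under
`i ↦ i * w ^ gcd n₁ n₂`. -/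
theorem periods_gcd {β : Type*} (g : ℤ → β) (w : ℤ) {n₁ n₂ : ℕ}
    (h₁ : ∀ i, g (i * w ^ n₁) = g i) (h₂ : ∀ i, g (i * w ^ n₂) = g i) (i : ℤ) :
    g (i * w ^ Nat.gcd n₁ n₂) = g i := by
  have mult : ∀ (n : ℕ), (∀ i, g (i * w ^ n) = g i) → ∀ (t : ℕ) (i : ℤ),
      g (i * w ^ (n * t)) = g i := by
    intro n hn t
    induction t with
    | zero => simp
    | succ t ih =>
        intro i
        rw [Nat.mul_succ, pow_add, ← mul_assoc, hn, ih]
  have comb : ∀ (x y : ℕ) (i : ℤ), g (i * w ^ (n₁ * x + n₂ * y)) = g i := by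
    intro x y i
    rw [pow_add, ← mul_assoc, mult n₂ h₂ y, mult n₁ h₁ x]
  have hb := Nat.gcd_eq_gcd_ab n₁ n₂
  set X := Nat.gcdA n₁ n₂
  set Y := Nat.gcdB n₁ n₂
  have key : Nat.gcd n₁ n₂ + (n₁ * (-X).toNat + n₂ * (-Y).toNat)
      = n₁ * X.toNat + n₂ * Y.toNat := by
    have hX := Int.toNat_sub_toNat_neg X
    have hY := Int.toNat_sub_toNat_neg Y
    zify
    linear_combination hb - (n₁ : ℤ) * hX - (n₂ : ℤ) * hY
  calc g (i * w ^ Nat.gcd n₁ n₂)
      = g (i * w ^ Nat.gcd n₁ n₂ * w ^ (n₁ * (-X).toNat + n₂ * (-Y).toNat)) := (comb _ _ _).symm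
    _ = g (i * w ^ (n₁ * X.toNat + n₂ * Y.toNat)) := by rw [mul_assoc, ← pow_add, key]
    _ = g i := comb _ _ _

/-- The hypotheses of Ihara's lemma on column symbols. -/
structure Setup (N : ℤ) (q p : ℕ) (sφ sψ : ℤ → ℤ → A) : Prop where
  N_ne : N ≠ 0
  q_prime : q.Prime
  q_N : IsCoprime (q : ℤ) N
  p_prime : p.Prime
  torsion : ∀ x : A, (p : ℤ) • x = 0
  φ_symb : IsSymbol N sφ
  ψ_symb : IsSymbol N sψ
  kernel : ∀ a c : ℤ, N ∣ c → IsCoprime a ((q : ℤ) * c) → sφ a ((q : ℤ) * c) = sψ a c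

/-- A bound beyond which every prime is usable. -/
def bound (N : ℤ) (q p : ℕ) : ℕ := N.natAbs + q + p + q ^ (4 * N.natAbs)

namespace Setup

variable {N : ℤ} {q p : ℕ} {sφ sψ : ℤ → ℤ → A}

/-- The amalgam relation, in integral form. -/
theorem star (h : Setup N q p sφ sψ) {a c : ℤ} (hc : N ∣ c) (hac : IsCoprime a c)
    (hqa : IsCoprime (q : ℤ) a) : sφ a ((q : ℤ) ^ 2 * c) = sφ a c := by
  obtain ⟨u₀, v₀, huv⟩ := h.q_N
  set r : ℤ := u₀
  set t : ℤ := -v₀
  have hrs : (q : ℤ) * r - N * t = 1 := by simp only [r, t]; linear_combination huv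
  suffices key : ∀ a c : ℤ, N ∣ c → IsCoprime a c → IsCoprime (q : ℤ) a →
      sφ a ((q : ℤ) ^ 2 * c) + (sψ ((q : ℤ) * r) (-N) + sφ q N - sψ q N) = sφ a c by
    have h0 := key 1 0 (dvd_zero N) isCoprime_one_left isCoprime_one_right
    rw [mul_zero, h.φ_symb.one_zero, zero_add] at h0
    have h1 := key a c hc hac hqa
    rwa [h0, add_zero] at h1
  clear hc hac hqa a c
  intro a c hc hac hqa
  set X := r * a - t * c with hX
  set Y := (q : ℤ) * c - N * a with hY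
  have hXY : IsCoprime X Y := by
    have h1 := isCoprime_act (a := r) (b := -t) (c := -N) (d := (q : ℤ))
      (by linear_combination hrs) hac
    rw [show r * a + -t * c = X by rw [hX]; ring,
      show -N * a + (q : ℤ) * c = Y by rw [hY]; ring] at h1
    exact h1
  have hNY : N ∣ Y := dvd_sub (hc.mul_left _) (dvd_mul_right N a)
  have hqY : IsCoprime (q : ℤ) (N * Y) := by
    refine h.q_N.mul_right ?_
    have h1 : IsCoprime (q : ℤ) (-(N * a)) := (h.q_N.mul_right hqa).neg_right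
    rw [show Y = -(N * a) + (q : ℤ) * c by rw [hY]; ring]
    exact h1.add_mul_left_right c
  obtain ⟨u, v, huvXY⟩ := hXY
  have hdet : X * u - -v * Y = 1 := by linear_combination huvXY
  obtain ⟨w, z, hwz⟩ := hqY
  set n := (N * u - Y) * z with hn
  set b' := -v - n * X with hb'
  set d' := u - n * Y with hd'
  set a' := X - N * b' with ha'
  set c' := (Y - N * u) * w with hc'
  have hC : (q : ℤ) * c' = Y - N * d' := by
    rw [hc', hd', hn]; linear_combination (Y - N * u) * hwz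
  have hNc' : N ∣ c' := (dvd_sub hNY (dvd_mul_right N u)).mul_right w
  have hdet' : a' * d' - b' * ((q : ℤ) * c') = 1 := by
    rw [hC, ha', hb', hd']; linear_combination hdet
  have hcop' : IsCoprime a' ((q : ℤ) * c') := isCoprime_of_det hdet'
  have hXY' : IsCoprime X Y := ⟨u, v, huvXY⟩
  have e1 : sφ X Y = sψ a' c' := by
    have h1 := h.φ_symb.act a' b' ((q : ℤ) * c') d' 1 N hdet' (hNc'.mul_left _) dvd_rfl
      isCoprime_one_left
    rw [h.φ_symb.one_left dvd_rfl, add_zero, h.kernel a' c' hNc' hcop'] at h1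
    rwa [show a' * 1 + b' * N = X by rw [ha']; ring,
      show (q : ℤ) * c' * 1 + d' * N = Y by rw [hC]; ring] at h1
  have e2 : sψ ((q : ℤ) * X) Y = sψ a' c' + sψ q N := by
    have h1 := h.ψ_symb.act a' ((q : ℤ) * b') c' d' q N (by linear_combination hdet') hNc'
      dvd_rfl h.q_N
    rwa [show a' * q + (q : ℤ) * b' * N = (q : ℤ) * X by rw [ha']; ring,
      show c' * q + d' * N = Y by linear_combination hC] at h1
  have hcq : IsCoprime a ((q : ℤ) * c) := hqa.symm.mul_right hac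
  have e3 : sψ ((q : ℤ) * X) Y = sψ ((q : ℤ) * r) (-N) + sψ a ((q : ℤ) * c) := by
    have h1 := h.ψ_symb.act ((q : ℤ) * r) (-t) (-N) 1 a ((q : ℤ) * c) (by linear_combination hrs)
      (dvd_neg.mpr dvd_rfl) (hc.mul_left _) hcq
    rwa [show (q : ℤ) * r * a + -t * ((q : ℤ) * c) = (q : ℤ) * X by rw [hX]; ring,
      show -N * a + 1 * ((q : ℤ) * c) = Y by rw [hY]; ring] at h1
  have e4 : sφ a c = sφ q N + sφ X Y := by
    have h1 := h.φ_symb.act q t N r X Y (by linear_combination hrs) dvd_rfl hNY hXY'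
    rwa [show (q : ℤ) * X + t * Y = a by rw [hX, hY]; linear_combination a * hrs,
      show N * X + r * Y = c by rw [hX, hY]; linear_combination c * hrs] at h1
  have e5 : sφ a ((q : ℤ) ^ 2 * c) = sψ a ((q : ℤ) * c) := by
    rw [show (q : ℤ) ^ 2 * c = (q : ℤ) * ((q : ℤ) * c) by ring]
    exact h.kernel a _ (hc.mul_left _) (hqa.symm.mul_right hcq)
  have e6 : sψ a' c' + sψ q N = sψ ((q : ℤ) * r) (-N) + sψ a ((q : ℤ) * c) := e2.symm.trans e3
  rw [e4, e1, e5, eq_sub_of_add_eq' e6.symm]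
  abel

theorem star_pow (h : Setup N q p sφ sψ) {a c : ℤ} (hc : N ∣ c) (hac : IsCoprime a c)
    (hqa : IsCoprime (q : ℤ) a) (n : ℕ) : sφ a (((q : ℤ) ^ 2) ^ n * c) = sφ a c := by
  induction n with
  | zero => simp
  | succ n ih =>
      rw [pow_succ', mul_assoc, h.star (hc.mul_left _) _ hqa, ih]
      exact (hqa.pow_left.pow_left.symm).mul_right hac

theorem prime_facts (h : Setup N q p sφ sψ) {ℓ : ℕ} (hℓ : ℓ.Prime) (hB : bound N q p < ℓ) :
    IsCoprime (ℓ : ℤ) N ∧ IsCoprime (ℓ : ℤ) (p : ℤ) ∧ IsCoprime (ℓ : ℤ) (q : ℤ) ∧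
      ¬ (ℓ : ℤ) ∣ (q : ℤ) ^ (4 * N.natAbs) - 1 := by
  have hN := Int.natAbs_pos.mpr h.N_ne
  unfold bound at hB
  refine ⟨?_, ?_, ?_, ?_⟩
  · rw [(Nat.prime_iff_prime_int.mp hℓ).coprime_iff_not_dvd]
    intro hd
    have := Nat.le_of_dvd hN (Int.natCast_dvd.mp hd)
    omega
  · rw [Int.isCoprime_iff_nat_coprime]
    exact (Nat.coprime_primes hℓ h.p_prime).mpr (by omega)
  · rw [Int.isCoprime_iff_nat_coprime]
    exact (Nat.coprime_primes hℓ h.q_prime).mpr (by omega)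
  · intro hd
    have h2 : 2 ≤ q ^ (4 * N.natAbs) :=
      h.q_prime.two_le.trans (Nat.le_self_pow (by omega) q)
    have h1 : ((q : ℤ) ^ (4 * N.natAbs) - 1) = ((q ^ (4 * N.natAbs) - 1 : ℕ) : ℤ) := by
      rw [Nat.cast_sub (by omega)]; push_cast; ring
    rw [h1, Int.natCast_dvd_natCast] at hd
    have := Nat.le_of_dvd (by omega) hd
    omega

/-- Invariance under conjugation by `(1, i/ℓ; 0, 1)`. -/
theorem shift_ell (h : Setup N q p sφ sψ) {ℓ : ℕ} (hℓ : ℓ.Prime) (hB : bound N q p < ℓ) {a k : ℤ}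
    (hak : IsCoprime a ((ℓ : ℤ) * N * k)) (i : ℤ) :
    sφ (a + i * ℓ * N * k) ((ℓ : ℤ) ^ 2 * N * k) = sφ a ((ℓ : ℤ) ^ 2 * N * k) := by
  rcases eq_or_ne k 0 with rfl | hk
  · simp
  obtain ⟨-, -, -, hW⟩ := h.prime_facts hℓ hB
  have hℓ0 : (ℓ : ℤ) ≠ 0 := by exact_mod_cast hℓ.ne_zero
  let F : ℤ → ℤ → ℤ → A := fun j b m => sφ (b + j * ℓ * N * m) ((ℓ : ℤ) ^ 2 * N * m)
  have hN2 : ∀ m : ℤ, N ∣ (ℓ : ℤ) ^ 2 * N * m := fun m => (dvd_mul_left N _).mul_right m
  have hcop : ∀ (b m j : ℤ), IsCoprime b ((ℓ : ℤ) * N * m) →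
      IsCoprime (b + j * ℓ * N * m) ((ℓ : ℤ) ^ 2 * N * m) := by
    intro b m j hb
    have h1 : IsCoprime (b + j * ℓ * N * m) ((ℓ : ℤ) * N * m) :=
      isCoprime_of_dvd_sub hb ⟨j, by ring⟩
    rw [show (ℓ : ℤ) ^ 2 * N * m = (ℓ : ℤ) * ((ℓ : ℤ) * N * m) by ring]
    exact (h1.of_mul_right_left.of_mul_right_left).mul_right h1
  -- moving `m` modulo `b`
  have move : ∀ (b m j t : ℤ), IsCoprime b ((ℓ : ℤ) * N * m) → F j b (m + t * b) = F j b m := by
    intro b m j t hb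
    have h1 := h.φ_symb.act (1 + j * t * ℓ * N) (-(j ^ 2 * t * N)) (N * ℓ ^ 2 * t)
      (1 - j * t * ℓ * N) (b + j * ℓ * N * m) ((ℓ : ℤ) ^ 2 * N * m) (by ring)
      ((dvd_mul_right N _).mul_right t) (hN2 m) (hcop b m j hb)
    rw [h.φ_symb.par (1 + j * t * ℓ * N) (-(j ^ 2 * t * N)) (N * ℓ ^ 2 * t)
      (1 - j * t * ℓ * N) (by ring) ((dvd_mul_right N _).mul_right t) (by ring), zero_add] at h1
    simp only [F]
    rw [show b + j * ℓ * N * (m + t * b) = (1 + j * t * ℓ * N) * (b + j * ℓ * N * m)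
        + -(j ^ 2 * t * N) * ((ℓ : ℤ) ^ 2 * N * m) by ring,
      show (ℓ : ℤ) ^ 2 * N * (m + t * b) = N * ℓ ^ 2 * t * (b + j * ℓ * N * m)
        + (1 - j * t * ℓ * N) * ((ℓ : ℤ) ^ 2 * N * m) by ring]
    exact h1
  -- periods coming from primes congruent to `b`
  have per : ∀ (b m : ℤ), m ≠ 0 → IsCoprime b ((ℓ : ℤ) * N * m) → ∀ j : ℤ,
      F (j * ((q : ℤ) ^ 2) ^ (2 * ((ℓ : ℤ) ^ 2 * N * m)).natAbs) b m = F j b m := by
    intro b m hm hb
    have hb2 : IsCoprime b ((ℓ : ℤ) ^ 2 * N * m) := by simpa using hcop b m 0 hb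
    obtain ⟨r₁, r₂, h1, h2, hr1, hr2, hd1, hd2, hg⟩ :=
      exists_two_primes q (mul_ne_zero (mul_ne_zero (pow_ne_zero 2 hℓ0) h.N_ne) hm) hb2
    have one : ∀ r : ℕ, q < r → r.Prime → (ℓ : ℤ) ^ 2 * N * m ∣ (r : ℤ) - b → ∀ j : ℤ,
        F (j * ((q : ℤ) ^ 2) ^ (r - 1)) b m = F j b m := by
      intro r hqr hr hd j
      have h1r : IsCoprime (r : ℤ) ((ℓ : ℤ) * N * m) := by
        refine isCoprime_of_dvd_sub hb (dvd_trans ⟨(ℓ : ℤ), by ring⟩ hd)
      have conv : ∀ i : ℤ, F i b m = F i r m := fun i =>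
        (h.φ_symb.congr_left (hN2 m) (hcop b m i hb) (by simpa using hd)).symm
      set U : ℤ := ((q : ℤ) ^ 2) ^ (r - 1) with hU
      have hqr' : IsCoprime (q : ℤ) (r : ℤ) := by
        rw [Int.isCoprime_iff_nat_coprime]
        exact (Nat.coprime_primes h.q_prime hr).mpr (by omega)
      obtain ⟨T, hT⟩ : (r : ℤ) ∣ U - 1 :=
        dvd_pow_sub_one_of_not_dvd hr fun hd =>
          (Nat.prime_iff_prime_int.mp hr).not_isUnit
            (((hqr'.pow_left (m := 2))).isUnit_of_dvd' hd dvd_rfl)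
      have hq1 : (q : ℤ) ∣ U := by
        have := hr.two_le
        rw [hU, ← pow_mul]; exact dvd_pow_self _ (by omega)
      have hqA : IsCoprime (q : ℤ) ((r : ℤ) + j * U * ℓ * N * m) := by
        obtain ⟨T', hT'⟩ := hq1
        rw [hT', show (r : ℤ) + j * ((q : ℤ) * T') * ℓ * N * m
          = (r : ℤ) + (q : ℤ) * (j * T' * ℓ * N * m) by ring]
        exact hqr'.add_mul_left_right _
      rw [conv, conv, ← move r m j (T * m) h1r]
      have e := h.star_pow (hN2 m) (hcop r m (j * U) h1r) hqA (r - 1)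
      simp only [F]
      rw [← e, ← hU, show m + T * m * (r : ℤ) = U * m by linear_combination -m * hT]
      congr 1 <;> ring
    obtain ⟨e, he⟩ : Nat.gcd (r₁ - 1) (r₂ - 1) ∣ (2 * ((ℓ : ℤ) ^ 2 * N * m)).natAbs :=
      Int.natCast_dvd.mp hg
    have hg' := periods_gcd (fun j => F j b m) ((q : ℤ) ^ 2) (one r₁ h1 hr1 hd1) (one r₂ h2 hr2 hd2)
    have hmul : ∀ (t : ℕ) (j : ℤ),
        F (j * ((q : ℤ) ^ 2) ^ (Nat.gcd (r₁ - 1) (r₂ - 1) * t)) b m = F j b m := by
      intro t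
      induction t with
      | zero => simp
      | succ t ih =>
          intro j
          rw [Nat.mul_succ, pow_add, ← mul_assoc]
          exact (hg' _).trans (ih j)
    rw [he]
    exact hmul e
  -- a period which does not involve `k`
  set W : ℤ := ((q : ℤ) ^ 2) ^ (2 * ((ℓ : ℤ) ^ 2 * N)).natAbs with hWdef
  have perW : ∀ (b : ℤ), IsCoprime b ((ℓ : ℤ) * N * k) → ∀ j : ℤ, F (j * W) b k = F j b k := by
    intro b hb
    have hb' : IsCoprime b ((ℓ : ℤ) * N * (k + 1 * b)) := by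
      refine hb.of_mul_right_left.mul_right ?_
      rw [mul_comm (1 : ℤ) b]; exact hb.of_mul_right_right.add_mul_left_right 1
    rcases eq_or_ne (k + 1 * b) 0 with h0 | h0
    · intro j
      rw [← move b k (j * W) 1 hb, ← move b k j 1 hb, h0]
      simp [F]
    intro j
    have hP2 : ∀ j : ℤ, F (j * ((q : ℤ) ^ 2) ^ (2 * ((ℓ : ℤ) ^ 2 * N * (k + 1 * b))).natAbs) b k
        = F j b k := fun j => by rw [← move b k _ 1 hb, per b _ h0 hb' j, move b k j 1 hb]
    have hgc : Nat.gcd (2 * ((ℓ : ℤ) ^ 2 * N * k)).natAbs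
        (2 * ((ℓ : ℤ) ^ 2 * N * (k + 1 * b))).natAbs = (2 * ((ℓ : ℤ) ^ 2 * N)).natAbs := by
      have hcp : IsCoprime k (k + 1 * b) := by
        rw [add_comm, mul_comm (1:ℤ) b, mul_one]
        simpa using hb.of_mul_right_right.symm.add_mul_left_right 1
      rw [Int.isCoprime_iff_gcd_eq_one, Int.gcd_def] at hcp
      simp only [Int.natAbs_mul, ← mul_assoc, Nat.gcd_mul_left, hcp, mul_one]
    have := periods_gcd (fun j => F j b k) ((q : ℤ) ^ 2) (per b k hk hb) hP2 j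
    rwa [hgc] at this
  -- `W` is not `1` modulo `ℓ`
  have hW1 : ¬ (ℓ : ℤ) ∣ W - 1 := by
    intro hd
    apply hW
    have : Fact ℓ.Prime := ⟨hℓ⟩
    rw [← ZMod.intCast_zmod_eq_zero_iff_dvd] at hd ⊢
    push_cast [hWdef] at hd ⊢
    rw [← hd]
    congr 1
    rw [← pow_mul, Int.natAbs_mul, Int.natAbs_mul, Int.natAbs_pow, Int.natAbs_natCast,
      show 2 * ((2 : ℤ).natAbs * (ℓ ^ 2 * N.natAbs)) = 4 * N.natAbs * ℓ * ℓ by simp; ring,
      pow_mul _ (4 * N.natAbs * ℓ) ℓ, ZMod.pow_card, pow_mul _ (4 * N.natAbs) ℓ, ZMod.pow_card]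
  -- hence invariance under every translation
  have gper : ∀ n : ℤ, F (n + ℓ) a k = F n a k := fun n => by
    simp only [F]
    exact h.φ_symb.congr_left (hN2 k) (hcop a k n hak) ⟨1, by ring⟩
  have gperm : ∀ t n : ℤ, F (n + t * ℓ) a k = F n a k := by
    intro t
    induction t using Int.induction_on with
    | zero => simp
    | succ t ih =>
        intro n
        rw [← gper n, ← ih (n + ℓ)]; congr 1; ring
    | pred t ih =>
        intro n
        rw [← gper (n + (-(t : ℤ) - 1) * ℓ), ← ih n]; congr 1; ring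
  have base : ∀ b j : ℤ, F (b + j * W) a k = F (b + j) a k := by
    intro b j
    have hb : IsCoprime (a + b * ℓ * N * k) ((ℓ : ℤ) * N * k) :=
      isCoprime_of_dvd_sub hak ⟨b, by ring⟩
    have conv : ∀ n : ℤ, F (b + n) a k = F n (a + b * ℓ * N * k) k := fun n => by
      simp only [F]; congr 1; ring
    rw [conv, conv, perW _ hb]
  obtain ⟨z, y, hzy⟩ : IsCoprime (W - 1) (ℓ : ℤ) :=
    ((Nat.prime_iff_prime_int.mp hℓ).coprime_iff_not_dvd.mpr hW1).symm
  have step : ∀ n : ℤ, F (n + 1) a k = F n a k := fun n => by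
    rw [show n + 1 = (n - z) + z * W + y * ℓ by linear_combination -hzy, gperm, base,
      sub_add_cancel]
  have all : ∀ n : ℤ, F n a k = F 0 a k := by
    intro n
    induction n using Int.induction_on with
    | zero => rfl
    | succ n ih => rw [step, ih]
    | pred n ih => rw [← ih, ← step (-(n:ℤ) - 1)]; congr 1; ring
  have := all i
  simp only [F, zero_mul, add_zero] at this
  exact this

/-- Invariance under conjugation by `(ℓ, 0; 0, 1/ℓ)`, for `a ≡ d (mod ℓ)`. -/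
theorem diag_ell_unipotent (h : Setup N q p sφ sψ) {ℓ : ℕ} (hℓ : ℓ.Prime) (hB : bound N q p < ℓ)
    {a b k d e : ℤ} (hdet : a * d - b * ((ℓ : ℤ) ^ 2 * N * k) = 1) (he : a - d = (ℓ : ℤ) * e) :
    sφ a ((ℓ : ℤ) ^ 2 * N * k) = sφ a (N * k) := by
  obtain ⟨hℓN, -, -, -⟩ := h.prime_facts hℓ hB
  obtain ⟨r, v, hrv⟩ := hℓN
  set t : ℤ := -v with ht
  have hrt : (ℓ : ℤ) * r - N * t = 1 := by rw [ht]; linear_combination hrv
  set a₀ := a + N * ℓ * b with ha₀
  set d₀ := d - N * ℓ * b with hd₀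
  set k₀ := k - e - N * b with hk₀
  have hdet₀ : a₀ * d₀ - b * ((ℓ : ℤ) ^ 2 * N * k₀) = 1 := by
    rw [ha₀, hd₀, hk₀]; linear_combination hdet - N * ℓ * b * he
  have hc : N ∣ (ℓ : ℤ) ^ 2 * N * k := (dvd_mul_left N _).mul_right k
  have hc₀ : N ∣ (ℓ : ℤ) ^ 2 * N * k₀ := (dvd_mul_left N _).mul_right k₀
  -- conjugating by `(1, 0; -Nℓ, 1)`
  have e1 : sφ a₀ ((ℓ : ℤ) ^ 2 * N * k₀) = sφ a ((ℓ : ℤ) ^ 2 * N * k) := by
    have h1 := h.φ_symb.act a₀ b ((ℓ : ℤ) ^ 2 * N * k₀) d₀ 1 (-(N * ℓ)) hdet₀ hc₀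
      (dvd_neg.mpr (dvd_mul_right N _)) isCoprime_one_left
    rw [h.φ_symb.one_left (dvd_neg.mpr (dvd_mul_right N _)), add_zero] at h1
    rw [← h1, ← h.φ_symb.congr_right hc (isCoprime_of_det hdet)
      (c' := (ℓ : ℤ) ^ 2 * N * k - N * a * ℓ) ⟨-(ℓ : ℤ), by ring⟩, ha₀, hd₀, hk₀]
    congr 1
    · ring
    · linear_combination N * ℓ * he
  -- conjugating by `(1, -t/ℓ; 0, 1)`
  have hcop₀ : IsCoprime a₀ ((ℓ : ℤ) * N * k₀) := by
    have h1 := isCoprime_of_det hdet₀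
    rw [show (ℓ : ℤ) ^ 2 * N * k₀ = (ℓ : ℤ) * ((ℓ : ℤ) * N * k₀) by ring] at h1
    exact h1.of_mul_right_right
  have e2 := h.shift_ell hℓ hB hcop₀ (-t)
  set a₁ := a₀ + -t * ℓ * N * k₀ with ha₁
  have hcop₁ : IsCoprime a₁ ((ℓ : ℤ) ^ 2 * N * k₀) := by
    have h1 : IsCoprime a₁ ((ℓ : ℤ) * N * k₀) := isCoprime_of_dvd_sub hcop₀ ⟨-t, by rw [ha₁]; ring⟩
    rw [show (ℓ : ℤ) ^ 2 * N * k₀ = (ℓ : ℤ) * ((ℓ : ℤ) * N * k₀) by ring]
    exact h1.of_mul_right_left.of_mul_right_left.mul_right h1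
  -- conjugating by `(ℓ, t; N, r)`
  have e3 := h.φ_symb.act ℓ t N r a₁ ((ℓ : ℤ) ^ 2 * N * k₀) (by linear_combination hrt) dvd_rfl
    hc₀ hcop₁
  have e4 := h.φ_symb.act a (b * (ℓ : ℤ) ^ 2) (N * k) d ℓ N (by linear_combination hdet)
    (dvd_mul_right N k) dvd_rfl ⟨r, v, hrv⟩
  rw [show (ℓ : ℤ) * a₁ + t * ((ℓ : ℤ) ^ 2 * N * k₀) = a * ℓ + b * (ℓ : ℤ) ^ 2 * N by
      rw [ha₁, ha₀]; ring,
    show N * a₁ + r * ((ℓ : ℤ) ^ 2 * N * k₀) = N * k * ℓ + d * N by
      rw [ha₁, ha₀, hk₀]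
      linear_combination N * ℓ * (k - e - N * b) * hrt + N * he] at e3
  rw [e3, e2, e1, add_comm (sφ a (N * k))] at e4
  exact add_left_cancel e4

/-- `sφ (a, ℓ² N k) - sφ (a, N k)` only depends on `a` modulo `ℓ`. -/
theorem diag_ell_congr (h : Setup N q p sφ sψ) {ℓ : ℕ} (hℓ : ℓ.Prime) (hB : bound N q p < ℓ)
    {a₁ k₁ a₂ k₂ : ℤ} (h₁ : IsCoprime a₁ ((ℓ : ℤ) * N * k₁))
    (h₂ : IsCoprime a₂ ((ℓ : ℤ) * N * k₂)) (hd : (ℓ : ℤ) ∣ a₁ - a₂) :
    sφ a₁ ((ℓ : ℤ) ^ 2 * N * k₁) - sφ a₁ (N * k₁)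
      = sφ a₂ ((ℓ : ℤ) ^ 2 * N * k₂) - sφ a₂ (N * k₂) := by
  have full : ∀ {a k : ℤ}, IsCoprime a ((ℓ : ℤ) * N * k) →
      ∃ b d, a * d - b * ((ℓ : ℤ) ^ 2 * N * k) = 1 := by
    intro a k ha
    obtain ⟨u, v, huv⟩ : IsCoprime a ((ℓ : ℤ) ^ 2 * N * k) := by
      rw [show (ℓ : ℤ) ^ 2 * N * k = (ℓ : ℤ) * ((ℓ : ℤ) * N * k) by ring]
      exact ha.of_mul_right_left.of_mul_right_left.mul_right ha
    exact ⟨-v, u, by linear_combination huv⟩
  obtain ⟨b₁, d₁, hd₁⟩ := full h₁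
  obtain ⟨b₂, d₂, hd₂⟩ := full h₂
  set L : ℤ := (ℓ : ℤ) with hL
  set a := a₁ * d₂ - b₁ * (L ^ 2 * N * k₂) with ha
  set b := -(a₁ * b₂) + b₁ * a₂ with hb
  set k := k₁ * d₂ - d₁ * k₂ with hk
  set d := -(L ^ 2 * N * k₁ * b₂) + d₁ * a₂ with hd'
  have hdet : a * d - b * (L ^ 2 * N * k) = 1 := by
    rw [ha, hb, hk, hd']
    linear_combination (a₂ * d₂ - b₂ * (L ^ 2 * N * k₂)) * hd₁ + hd₂
  obtain ⟨m, hm⟩ := hd
  have hg := h.diag_ell_unipotent hℓ hB hdet
    (e := m * d₂ - L * b₁ * N * k₂ + b₂ * L * N * k₂ + L * N * k₁ * b₂ + m * d₁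
      - b₁ * L * N * k₁) (by rw [ha, hd']; linear_combination (d₂ + d₁) * hm + hd₂ - hd₁)
  have hc₂ : IsCoprime a₂ (L ^ 2 * N * k₂) := isCoprime_of_det hd₂
  have e1 := h.φ_symb.act a b (L ^ 2 * N * k) d a₂ (L ^ 2 * N * k₂) hdet
    ((dvd_mul_left N _).mul_right k) ((dvd_mul_left N _).mul_right k₂) hc₂
  have e2 := h.φ_symb.act a (b * L ^ 2) (N * k) d a₂ (N * k₂) (by linear_combination hdet)
    (dvd_mul_right N k) (dvd_mul_right N k₂)
    (by rw [mul_assoc (L ^ 2)] at hc₂; exact hc₂.of_mul_right_right)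
  rw [show a * a₂ + b * (L ^ 2 * N * k₂) = a₁ by rw [ha, hb]; linear_combination a₁ * hd₂,
    show L ^ 2 * N * k * a₂ + d * (L ^ 2 * N * k₂) = L ^ 2 * N * k₁ by
      rw [hk, hd']; linear_combination L ^ 2 * N * k₁ * hd₂] at e1
  rw [show a * a₂ + b * L ^ 2 * (N * k₂) = a₁ by rw [ha, hb]; linear_combination a₁ * hd₂,
    show N * k * a₂ + d * (N * k₂) = N * k₁ by
      rw [hk, hd']; linear_combination N * k₁ * hd₂] at e2
  rw [e1, e2, hg]
  abel

/-- The key vanishing: `sφ (a, ℓ² N k) = sφ (a, N k)`. -/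
theorem diag_ell (h : Setup N q p sφ sψ) {ℓ : ℕ} (hℓ : ℓ.Prime) (hB : bound N q p < ℓ) {a k : ℤ}
    (hak : IsCoprime a ((ℓ : ℤ) * N * k)) : sφ a ((ℓ : ℤ) ^ 2 * N * k) = sφ a (N * k) := by
  obtain ⟨hℓN, hℓp, -, -⟩ := h.prime_facts hℓ hB
  -- `r ≡ -1` modulo `m`, where `m = p` for odd `p` and `m = 4` for `p = 2`
  set m : ℕ := if p = 2 then 4 else p with hm
  have hℓm : IsCoprime (ℓ : ℤ) (m : ℤ) := by
    rcases eq_or_ne p 2 with hp2 | hp2
    · rw [hm, if_pos hp2, show ((4 : ℕ) : ℤ) = (p : ℤ) ^ 2 by rw [hp2]; norm_num]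
      exact hℓp.pow_right
    · rwa [hm, if_neg hp2]
  have hm0 : m ≠ 0 := by
    rw [hm]; split_ifs
    · norm_num
    · exact h.p_prime.ne_zero
  obtain ⟨u, v, huv⟩ := hℓm
  set t : ℤ := a * v * m - u * ℓ with ht
  have htl : (ℓ : ℤ) ∣ t - a := ⟨-(a * u) - u, by rw [ht]; linear_combination a * huv⟩
  have htp : (m : ℤ) ∣ t - (-1) := ⟨a * v + v, by rw [ht]; linear_combination -huv⟩
  have htc : IsCoprime t ((ℓ : ℤ) * m) :=
    (isCoprime_of_dvd_sub hak.of_mul_right_left.of_mul_right_left htl).mul_right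
      (isCoprime_of_dvd_sub isCoprime_one_left.neg_left htp)
  obtain ⟨r, hrn, hr, hrd⟩ := exists_prime_gt_dvd_sub (bound N q p + ℓ)
    (mul_ne_zero (by exact_mod_cast hℓ.ne_zero) (by exact_mod_cast hm0)) htc
  obtain ⟨hrN, -, -, -⟩ := h.prime_facts hr (by omega)
  have hrl : (ℓ : ℤ) ∣ (r : ℤ) - a := by
    simpa using dvd_add ((dvd_mul_right _ _).trans hrd) htl
  have hrp : (m : ℤ) ∣ (r : ℤ) + 1 := by
    rw [show (r : ℤ) + 1 = ((r : ℤ) - t) + (t - -1) by ring]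
    exact dvd_add ((dvd_mul_left _ _).trans hrd) htp
  have cop : ∀ {l : ℕ}, l.Prime → ∀ {x : ℤ}, ¬ (l : ℤ) ∣ x → IsCoprime x (l : ℤ) := fun hl _ hx =>
    ((Nat.prime_iff_prime_int.mp hl).coprime_iff_not_dvd.mpr hx).symm
  have hNk : ∀ x : ℤ, IsCoprime x (r : ℤ) → IsCoprime (r : ℤ) (N * x) := fun x hx =>
    hrN.mul_right hx.symm
  -- `sφ (r, N k x²) - sφ (r, N k)` does not depend on `k`
  let K : ℤ → A := fun x => sφ r (N * x ^ 2) - sφ r N
  have per : ∀ x y : ℤ, IsCoprime x (r : ℤ) → (r : ℤ) ∣ y - x →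
      sφ r (N * y) = sφ r (N * x) := fun x y hx hd =>
    h.φ_symb.congr_right (dvd_mul_right N x) (hNk x hx)
      (by rw [← mul_sub]; exact mul_dvd_mul_left N hd)
  have mult : ∀ x m : ℤ, IsCoprime x (r : ℤ) → IsCoprime m (r : ℤ) →
      sφ r (N * (m * x ^ 2)) - sφ r (N * m) = K x := by
    intro x m hx hm
    obtain ⟨l, hl, hlp, hld⟩ := exists_prime_gt_dvd_sub (bound N q p + r)
      (by exact_mod_cast hr.ne_zero) hx
    have hlr : IsCoprime (r : ℤ) (l : ℤ) := by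
      rw [Int.isCoprime_iff_nat_coprime]; exact (Nat.coprime_primes hr hlp).mpr (by omega)
    have hcong : ∀ m : ℤ, IsCoprime m (r : ℤ) →
        sφ r ((l : ℤ) ^ 2 * N * m) = sφ r (N * (m * x ^ 2)) := by
      intro m hm
      rw [show (l : ℤ) ^ 2 * N * m = N * (m * (l : ℤ) ^ 2) by ring]
      refine per _ _ (hm.mul_left hx.pow_left) ?_
      rw [← mul_sub, sq_sub_sq]
      exact (hld.mul_left _).mul_left _
    have hc := h.diag_ell_congr hlp (by omega) (a₁ := (r : ℤ)) (k₁ := m) (a₂ := (r : ℤ)) (k₂ := 1)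
      ((hlr.mul_right hrN).mul_right hm.symm) (by simpa using hlr.mul_right hrN)
      (by rw [sub_self]; exact dvd_zero _)
    rw [hcong m hm, hcong 1 isCoprime_one_left] at hc
    simpa [K] using hc
  have Kmul : ∀ x y : ℤ, IsCoprime x (r : ℤ) → IsCoprime y (r : ℤ) → K (x * y) = K x + K y := by
    intro x y hx hy
    rw [← mult x (y ^ 2) hx hy.pow_left]
    simp only [K]
    rw [show N * (y ^ 2 * x ^ 2) = N * (x * y) ^ 2 by ring]
    abel
  have K1 : K 1 = 0 := by simp [K]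
  have Kpow : ∀ x : ℤ, IsCoprime x (r : ℤ) → ∀ n : ℕ, K (x ^ n) = n • K x := by
    intro x hx n
    induction n with
    | zero => simp [K1]
    | succ n ih => rw [pow_succ, Kmul _ _ hx.pow_left hx, ih, succ_nsmul]
  have hlne : r ≠ ℓ := by omega
  have hℓr : IsCoprime (ℓ : ℤ) (r : ℤ) := by
    rw [Int.isCoprime_iff_nat_coprime]; exact (Nat.coprime_primes hℓ hr).mpr hlne.symm
  have hK : K ℓ = 0 := by
    have hlr : ¬ (r : ℤ) ∣ (ℓ : ℤ) := fun hd => (Nat.prime_iff_prime_int.mp hr).not_isUnit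
      (hℓr.isUnit_of_dvd' hd dvd_rfl)
    have h0 : K ((ℓ : ℤ) ^ (r - 1)) = 0 := by
      rw [← K1]
      simp only [K, one_pow, mul_one, sub_self, sub_eq_zero]
      have h1 := dvd_pow_sub_one_of_not_dvd hr hlr
      have := per 1 (((ℓ : ℤ) ^ (r - 1)) ^ 2) isCoprime_one_left
        (by rw [show ((ℓ : ℤ) ^ (r - 1)) ^ 2 - 1
          = ((ℓ : ℤ) ^ (r - 1) - 1) * ((ℓ : ℤ) ^ (r - 1) + 1) by ring]; exact h1.mul_right _)
      simpa using this
    rw [Kpow _ hℓr] at h0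
    -- the value at `ℓ` is also killed by `(r - 1) / 2`, as `K` only sees squares
    have h2 : ((r - 1) / 2) • K (ℓ : ℤ) = 0 := by
      rw [← Kpow _ hℓr]
      simp only [K, sub_eq_zero]
      have h1 := dvd_pow_sub_one_of_not_dvd hr hlr
      have hev : (r - 1) / 2 * 2 = r - 1 := by
        rcases hr.eq_two_or_odd with hr2 | hodd
        · exfalso
          have := h.q_prime.two_le
          unfold bound at hrn
          omega
        · omega
      have := per 1 ((ℓ : ℤ) ^ (r - 1)) isCoprime_one_left h1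
      rw [mul_one] at this
      rw [← pow_mul, hev, this]
    have h0' : ((r : ℤ) - 1) • K (ℓ : ℤ) = 0 := by
      rw [show ((r : ℤ) - 1) = ((r - 1 : ℕ) : ℤ) by rw [Nat.cast_sub hr.one_le, Nat.cast_one],
        natCast_zsmul]
      exact h0
    obtain ⟨w, hw⟩ := hrp
    rcases eq_or_ne p 2 with hp2 | hp2
    · have hodd : Odd ((r - 1) / 2) := by
        have : (r : ℤ) + 1 = 4 * w := by rw [hw, hm, if_pos hp2]; norm_num
        rw [Nat.odd_iff]; omega
      obtain ⟨j, hj⟩ := hodd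
      have htwo : (2 : ℕ) • K (ℓ : ℤ) = 0 := by
        rw [← natCast_zsmul, ← hp2]; exact h.torsion _
      rw [hj, add_smul, mul_comm, mul_smul, htwo, smul_zero, zero_add, one_smul] at h2
      exact h2
    rw [hm, if_neg hp2] at hw
    obtain ⟨z, hz⟩ : Odd (p : ℤ) := by exact_mod_cast h.p_prime.odd_of_ne_two hp2
    calc K (ℓ : ℤ) = (z * ((r : ℤ) - 1) + (1 - z * w) * p) • K (ℓ : ℤ) := by
          rw [show z * ((r : ℤ) - 1) + (1 - z * w) * p = 1 by
            linear_combination z * hw + hz, one_smul]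
      _ = 0 := by rw [add_smul, mul_smul, mul_smul, h0', h.torsion, smul_zero, smul_zero, add_zero]
  have e1 := h.diag_ell_congr hℓ hB hak (a₂ := (r : ℤ)) (k₂ := 1)
    (by simpa using hℓr.symm.mul_right hrN) (by rw [dvd_sub_comm]; exact hrl)
  have e2 : sφ r ((ℓ : ℤ) ^ 2 * N * 1) - sφ r (N * 1) = 0 := by
    rw [show (ℓ : ℤ) ^ 2 * N * 1 = N * (ℓ : ℤ) ^ 2 by ring, mul_one]; exact hK
  rwa [e2, sub_eq_zero] at e1

/-- Invariance under multiplication by squares. -/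
theorem sq_invariant (h : Setup N q p sφ sψ) {a k x : ℤ} (hak : IsCoprime a (N * k))
    (hax : IsCoprime a x) : sφ a (N * (k * x ^ 2)) = sφ a (N * k) := by
  rcases eq_or_ne a 0 with rfl | ha
  · have hx : IsUnit x := isCoprime_zero_left.mp hax
    rcases Int.isUnit_iff.mp hx with rfl | rfl <;> simp
  obtain ⟨l, hl, hlp, hld⟩ := exists_prime_gt_dvd_sub (bound N q p) ha hax.symm
  have hla : IsCoprime a (l : ℤ) := (isCoprime_of_dvd_sub hax.symm hld).symm
  have hN : IsCoprime a N := hak.of_mul_right_left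
  have hk : IsCoprime a k := hak.of_mul_right_right
  rw [← h.diag_ell hlp hl ((hla.mul_right hN).mul_right hk)]
  refine (h.φ_symb.congr_right ((dvd_mul_left N _).mul_right k)
    (((hla.pow_right).mul_right hN).mul_right hk) ?_)
  obtain ⟨m, hm⟩ := hld
  exact ⟨-(k * m) * ((l : ℤ) + x), by linear_combination -(N * k * ((l : ℤ) + x)) * hm⟩

/-- `sφ (a, N k) = sφ (a, N)`. -/
theorem eq_base (h : Setup N q p sφ sψ) {a k : ℤ} (hak : IsCoprime a (N * k)) :
    sφ a (N * k) = sφ a N := by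
  have hN : IsCoprime a N := hak.of_mul_right_left
  -- the two signs agree
  have minus : sφ a (-N) = sφ a N := by
    obtain ⟨r, ε, hε, hrn, hr, hd, hr4⟩ :=
      exists_signed_prime (bound N q p) h.N_ne hN (t := 1) (Or.inl rfl)
    obtain ⟨hrN, -, -, -⟩ := h.prime_facts hr hrn
    obtain ⟨x, hx⟩ := exists_sq_neg_one hr hr4
    have hεa : IsCoprime (ε * r) N := isCoprime_of_dvd_sub hN hd
    have c1 : sφ (ε * r) N = sφ a N := h.φ_symb.congr_left dvd_rfl hN hd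
    have c2 : sφ (ε * r) (-N) = sφ a (-N) :=
      h.φ_symb.congr_left (dvd_neg.mpr dvd_rfl) hN.neg_right (neg_dvd.mpr hd)
    have hxr : IsCoprime (ε * r) x := by
      have hrx : IsCoprime (r : ℤ) x := by
        rw [(Nat.prime_iff_prime_int.mp hr).coprime_iff_not_dvd]
        intro hrx
        have h1 : (r : ℤ) ∣ x ^ 2 + 1 - x * x := dvd_sub hx (hrx.mul_right x)
        rw [show x ^ 2 + 1 - x * x = 1 by ring] at h1
        exact (Nat.prime_iff_prime_int.mp hr).not_isUnit (isUnit_of_dvd_one h1)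
      rcases hε with rfl | rfl
      · simpa using hrx
      · simpa using hrx.neg_left
    have c3 := h.sq_invariant (a := ε * r) (k := -1) (x := x) (by simpa using hεa.neg_right) hxr
    have c4 : sφ (ε * r) (N * (-1 * x ^ 2)) = sφ (ε * r) N :=
      h.φ_symb.congr_right dvd_rfl hεa (by
        obtain ⟨m, hm⟩ := hx
        rcases hε with rfl | rfl
        · exact ⟨-m, by linear_combination -N * hm⟩
        · exact ⟨m, by linear_combination -N * hm⟩)
    rw [mul_neg_one] at c3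
    rw [← c1, ← c2, ← c3, c4]
  rcases eq_or_ne k 0 with rfl | hk
  · rw [mul_zero] at hak ⊢
    rcases Int.isUnit_iff.mp (isCoprime_zero_right.mp hak) with rfl | rfl
    · rw [h.φ_symb.one_zero, h.φ_symb.one_left dvd_rfl]
    · rw [h.φ_symb.neg_one_left (dvd_zero N), h.φ_symb.neg_one_left dvd_rfl]
  obtain ⟨r, ε, hε, hrn, hr, hd, hr4⟩ := exists_signed_prime (bound N q p + k.natAbs)
    (mul_ne_zero h.N_ne hk) hak (t := 3) (Or.inr rfl)
  obtain ⟨hrN, -, -, -⟩ := h.prime_facts hr (by omega)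
  have hrk : ¬ (r : ℤ) ∣ k := fun hd => by
    have := Nat.le_of_dvd (Int.natAbs_pos.mpr hk) (Int.natCast_dvd.mp hd)
    omega
  obtain ⟨η, x, hη, hx⟩ := exists_sign_mul_sq hr hr4 hrk
  have hεa : IsCoprime (ε * r) (N * k) := isCoprime_of_dvd_sub hak hd
  have hdN : N ∣ ε * r - a := (dvd_mul_right N k).trans hd
  have hεN : IsCoprime (ε * r) N := isCoprime_of_dvd_sub hN hdN
  have c1 : sφ (ε * r) (N * k) = sφ a (N * k) := h.φ_symb.congr_left (dvd_mul_right N k) hak hd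
  have c2 : sφ (ε * r) (N * (η * x ^ 2)) = sφ (ε * r) (N * k) :=
    h.φ_symb.congr_right (dvd_mul_right N k) hεa (by
      obtain ⟨m, hm⟩ := hx
      rcases hε with rfl | rfl
      · exact ⟨-m, by linear_combination -N * hm⟩
      · exact ⟨m, by linear_combination -N * hm⟩)
  have hηN : IsCoprime (ε * r) (N * η) := by
    rcases hη with rfl | rfl
    · simpa using hεN
    · simpa using hεN.neg_right
  have hxr : IsCoprime (ε * r) x := by
    have hrx : IsCoprime (r : ℤ) x := by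
      rw [(Nat.prime_iff_prime_int.mp hr).coprime_iff_not_dvd]
      intro hrx
      refine hrk ?_
      have h1 := dvd_add hx ((dvd_pow hrx two_ne_zero).mul_left η)
      simpa using h1
    rcases hε with rfl | rfl
    · simpa using hrx
    · simpa using hrx.neg_left
  have c3 := h.sq_invariant hηN hxr
  have c4 : sφ (ε * r) (N * η) = sφ a (N * η) := by
    rcases hη with rfl | rfl
    · simpa using h.φ_symb.congr_left dvd_rfl hN hdN
    · simpa using h.φ_symb.congr_left (dvd_neg.mpr dvd_rfl) hN.neg_right (neg_dvd.mpr hdN)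
  rw [← c1, ← c2, c3, c4]
  rcases hη with rfl | rfl
  · rw [mul_one]
  · rw [mul_neg_one, minus]

/-- **Ihara's lemma** for column symbols: both symbols depend only on `a` mod `N`. -/
theorem eq_of_dvd_sub (h : Setup N q p sφ sψ) {a c a' c' : ℤ} (hc : N ∣ c) (hac : IsCoprime a c)
    (hc' : N ∣ c') (hac' : IsCoprime a' c') (hd : N ∣ a' - a) : sφ a' c' = sφ a c := by
  obtain ⟨k, rfl⟩ := hc
  obtain ⟨k', rfl⟩ := hc'
  rw [h.eq_base hac, h.eq_base hac']
  exact h.φ_symb.congr_left dvd_rfl hac.of_mul_right_left hd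

theorem ψ_eq (h : Setup N q p sφ sψ) {a c : ℤ} (hc : N ∣ c) (hac : IsCoprime a c) :
    sψ a c = sφ a c := by
  have main : ∀ a : ℤ, IsCoprime a c → IsCoprime a (q : ℤ) → sψ a c = sφ a c := by
    intro a hac haq
    rw [← h.kernel a c hc (haq.mul_right hac)]
    exact h.eq_of_dvd_sub hc hac (hc.mul_left _) (haq.mul_right hac) (by simp)
  by_cases hq : (q : ℤ) ∣ a
  · have hqc : ¬ (q : ℤ) ∣ c := fun hqc =>
      (Nat.prime_iff_prime_int.mp h.q_prime).not_isUnit (hac.isUnit_of_dvd' hq hqc)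
    have hq' : IsCoprime (a + c) (q : ℤ) :=
      ((Nat.prime_iff_prime_int.mp h.q_prime).coprime_iff_not_dvd.mpr
        (fun hd => hqc (by simpa using dvd_sub hd hq))).symm
    have hac' : IsCoprime (a + c) c := isCoprime_of_dvd_sub hac (by simp)
    rw [← h.ψ_symb.congr_left hc hac (a' := a + c) (by simp), main _ hac' hq',
      h.φ_symb.congr_left hc hac (a' := a + c) (by simp)]
  · exact main a hac
      ((Nat.prime_iff_prime_int.mp h.q_prime).coprime_iff_not_dvd.mpr hq).symm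

end Setup

end Fermat.Agent.LevelRaise.Ihara
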