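/-
Ihara's lemma for parabolic homomorphisms on `Γ₀(N)`: the kernel of the two degeneracy maps
`Hom_par(Γ₀(N), A)² → Hom(Γ₀(N q), A)` consists of characters of `a mod N` (the Shimura subgroup),
and is in particular Eisenstein.
-/
import Fermat.Agent.LevelRaise.IharaSymbol
import Fermat.Prelude.Def_ModularCurve_PeriodMap
import Mathlib.NumberTheory.ModularForms.CongruenceSubgroups
import Mathlib.Data.ZMod.Units

namespace Fermat.Agent.LevelRaise.Ihara

open CongruenceSubgroup ModularCurve.Period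
open scoped MatrixGroups

variable {A : Type*} [AddCommGroup A] {N : ℕ}

/-- The integer entries of an element of `Γ₀(N)`. -/
def entry (g : Gamma0 N) (i j : Fin 2) : ℤ := ((g : SL(2, ℤ)) : Matrix (Fin 2) (Fin 2) ℤ) i j

theorem entry_det (g : Gamma0 N) :
    entry g 0 0 * entry g 1 1 - entry g 0 1 * entry g 1 0 = 1 := by
  have h := (g : SL(2, ℤ)).2
  rw [Matrix.det_fin_two] at h
  exact h

theorem entry_dvd (g : Gamma0 N) : (N : ℤ) ∣ entry g 1 0 :=
  (ZMod.intCast_zmod_eq_zero_iff_dvd _ N).mp (Gamma0_mem.mp g.2)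

theorem entry_mul (g h : Gamma0 N) (i j : Fin 2) :
    entry (g * h) i j = entry g i 0 * entry h 0 j + entry g i 1 * entry h 1 j := by
  simp [entry, Matrix.mul_apply, Fin.sum_univ_two]

theorem entry_inv (g : Gamma0 N) :
    entry g⁻¹ 0 0 = entry g 1 1 ∧ entry g⁻¹ 0 1 = -entry g 0 1 ∧
      entry g⁻¹ 1 0 = -entry g 1 0 ∧ entry g⁻¹ 1 1 = entry g 0 0 := by
  simp [entry, Matrix.SpecialLinearGroup.coe_inv, Matrix.adjugate_fin_two]

/-- The element of `Γ₀(N)` with given entries. -/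
def mkGamma0 (a b c d : ℤ) (h : a * d - b * c = 1) (hc : (N : ℤ) ∣ c) : Gamma0 N :=
  ⟨⟨!![a, b; c, d], by rw [Matrix.det_fin_two_of]; exact h⟩,
    Gamma0_mem.mpr ((ZMod.intCast_zmod_eq_zero_iff_dvd _ N).mpr hc)⟩

theorem entry_mkGamma0 (a b c d : ℤ) (h : a * d - b * c = 1) (hc : (N : ℤ) ∣ c) :
    entry (mkGamma0 a b c d h hc) 0 0 = a ∧ entry (mkGamma0 a b c d h hc) 0 1 = b ∧
      entry (mkGamma0 a b c d h hc) 1 0 = c ∧ entry (mkGamma0 a b c d h hc) 1 1 = d :=
  ⟨rfl, rfl, rfl, rfl⟩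

theorem map_eq_of_col (φ : Additive (Gamma0 N) →+ A) (hpar : IsParabolicHom (Gamma0 N) φ)
    {g g' : Gamma0 N} (h0 : entry g 0 0 = entry g' 0 0) (h1 : entry g 1 0 = entry g' 1 0) :
    φ (Additive.ofMul g) = φ (Additive.ofMul g') := by
  have htr : ((((g⁻¹ * g' : Gamma0 N) : SL(2, ℤ)) : Matrix (Fin 2) (Fin 2) ℤ).trace) ^ 2 = 4 := by
    rw [Matrix.trace_fin_two]
    show (entry (g⁻¹ * g') 0 0 + entry (g⁻¹ * g') 1 1) ^ 2 = 4
    obtain ⟨i00, i01, i10, i11⟩ := entry_inv g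
    have d1 := entry_det g
    have d2 := entry_det g'
    rw [entry_mul, entry_mul, i00, i01, i10, i11, ← h0, ← h1]
    rw [← h0, ← h1] at d2
    have key : entry g 1 1 * entry g 0 0 + -entry g 0 1 * entry g 1 0 +
        (-entry g 1 0 * entry g' 0 1 + entry g 0 0 * entry g' 1 1) = 2 := by
      linear_combination d1 + d2
    rw [key]; norm_num
  have := hpar _ htr
  rw [ofMul_mul, map_add, ofMul_inv, map_neg, neg_add_eq_zero] at this
  exact this

open scoped Classical in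
/-- The column symbol attached to a homomorphism on `Γ₀(N)`. -/
noncomputable def colSymbol (φ : Additive (Gamma0 N) →+ A) (a c : ℤ) : A :=
  if h : ∃ g : Gamma0 N, entry g 0 0 = a ∧ entry g 1 0 = c then φ (Additive.ofMul h.choose) else 0

theorem colSymbol_entry (φ : Additive (Gamma0 N) →+ A) (hpar : IsParabolicHom (Gamma0 N) φ)
    (g : Gamma0 N) : colSymbol φ (entry g 0 0) (entry g 1 0) = φ (Additive.ofMul g) := by
  have h : ∃ g' : Gamma0 N, entry g' 0 0 = entry g 0 0 ∧ entry g' 1 0 = entry g 1 0 := ⟨g, rfl, rfl⟩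
  rw [colSymbol, dif_pos h]
  exact map_eq_of_col φ hpar h.choose_spec.1 h.choose_spec.2

theorem isSymbol_colSymbol (φ : Additive (Gamma0 N) →+ A) (hpar : IsParabolicHom (Gamma0 N) φ) :
    IsSymbol (N : ℤ) (colSymbol φ) where
  act a b c d x y hdet hc hy hxy := by
    obtain ⟨u, v, huv⟩ := hxy
    let g : Gamma0 N := mkGamma0 a b c d hdet hc
    let g' : Gamma0 N := mkGamma0 x (-v) y u (by linear_combination huv) hy
    have h1 := colSymbol_entry φ hpar (g * g')
    rw [entry_mul, entry_mul, ofMul_mul, map_add, ← colSymbol_entry φ hpar g,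
      ← colSymbol_entry φ hpar g'] at h1
    exact h1
  par a b c d hdet hc htr := by
    let g : Gamma0 N := mkGamma0 a b c d hdet hc
    have h1 := colSymbol_entry φ hpar g
    rw [hpar g (by rw [Matrix.trace_fin_two]; exact htr)] at h1
    exact h1

/-- The relation "`φ γ = ψ (δ γ δ⁻¹)` for `γ ∈ Γ₀(Nq)`", `δ = diag(q, 1)`. -/
def DegeneracyRel (q : ℕ) (φ ψ : Additive (Gamma0 N) →+ A) : Prop :=
  ∀ g g' : Gamma0 N, entry g' 0 0 = entry g 0 0 → entry g' 0 1 = (q : ℤ) * entry g 0 1 →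
    entry g 1 0 = (q : ℤ) * entry g' 1 0 → entry g' 1 1 = entry g 1 1 →
    φ (Additive.ofMul g) = ψ (Additive.ofMul g')

theorem setup_of_degeneracyRel {q p : ℕ} (hN : 0 < N) (hq : q.Prime) (hqN : ¬ q ∣ N) (hp : p.Prime)
    (htor : ∀ x : A, p • x = 0) {φ ψ : Additive (Gamma0 N) →+ A}
    (hφ : IsParabolicHom (Gamma0 N) φ) (hψ : IsParabolicHom (Gamma0 N) ψ)
    (hrel : DegeneracyRel q φ ψ) : Setup (N : ℤ) q p (colSymbol φ) (colSymbol ψ) where
  N_ne := by omega
  q_prime := hq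
  q_N := by rw [Int.isCoprime_iff_nat_coprime]; exact (Nat.Prime.coprime_iff_not_dvd hq).mpr hqN
  p_prime := hp
  torsion x := by rw [natCast_zsmul]; exact htor x
  φ_symb := isSymbol_colSymbol φ hφ
  ψ_symb := isSymbol_colSymbol ψ hψ
  kernel a c hc hac := by
    obtain ⟨u, v, huv⟩ := hac
    let g : Gamma0 N :=
      mkGamma0 a (-v) ((q : ℤ) * c) u (by linear_combination huv) (hc.mul_left _)
    let g' : Gamma0 N := mkGamma0 a ((q : ℤ) * -v) c u (by linear_combination huv) hc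
    have h1 := hrel g g' rfl rfl rfl rfl
    rw [← colSymbol_entry φ hφ g, ← colSymbol_entry ψ hψ g'] at h1
    exact h1

/-- **Ihara's lemma**: two parabolic homomorphisms in the kernel of the degeneracy maps only
depend on the upper left entry modulo `N`. -/
theorem degeneracy_kernel {q p : ℕ} (hN : 0 < N) (hq : q.Prime) (hqN : ¬ q ∣ N) (hp : p.Prime)
    (htor : ∀ x : A, p • x = 0) {φ ψ : Additive (Gamma0 N) →+ A}
    (hφ : IsParabolicHom (Gamma0 N) φ) (hψ : IsParabolicHom (Gamma0 N) ψ)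
    (hrel : DegeneracyRel q φ ψ) :
    ψ = φ ∧ ∀ g g' : Gamma0 N, (entry g 0 0 : ZMod N) = (entry g' 0 0 : ZMod N) →
      φ (Additive.ofMul g) = φ (Additive.ofMul g') := by
  have S := setup_of_degeneracyRel hN hq hqN hp htor hφ hψ hrel
  refine ⟨AddMonoidHom.ext fun x => ?_, fun g g' hgg => ?_⟩
  · obtain ⟨g, rfl⟩ : ∃ g : Gamma0 N, Additive.ofMul g = x := ⟨Additive.toMul x, rfl⟩
    rw [← colSymbol_entry φ hφ g, ← colSymbol_entry ψ hψ g]
    exact S.ψ_eq (entry_dvd g) (isCoprime_of_det (entry_det g))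
  · rw [← colSymbol_entry φ hφ g, ← colSymbol_entry φ hφ g']
    exact (S.eq_of_dvd_sub (entry_dvd g) (isCoprime_of_det (entry_det g)) (entry_dvd g')
      (isCoprime_of_det (entry_det g'))
      ((ZMod.intCast_eq_intCast_iff_dvd_sub _ _ N).mp hgg)).symm

/-- Ihara's lemma, character form: `φ = ψ = χ ∘ (a mod N)` with `χ` a homomorphism. -/
theorem exists_char_of_degeneracy_kernel {q p : ℕ} (hN : 0 < N) (hq : q.Prime) (hqN : ¬ q ∣ N)
    (hp : p.Prime) (htor : ∀ x : A, p • x = 0)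
    {φ ψ : Additive (Gamma0 N) →+ A}
    (hφ : IsParabolicHom (Gamma0 N) φ) (hψ : IsParabolicHom (Gamma0 N) ψ)
    (hrel : DegeneracyRel q φ ψ) :
    ∃ χ : ZMod N → A, (∀ x y : ZMod N, IsUnit x → IsUnit y → χ (x * y) = χ x + χ y) ∧
      ∀ g : Gamma0 N, φ (Additive.ofMul g) = χ (entry g 0 0 : ZMod N) ∧
        ψ (Additive.ofMul g) = χ (entry g 0 0 : ZMod N) := by
  have : NeZero N := ⟨by omega⟩
  obtain ⟨heq, hdep⟩ := degeneracy_kernel hN hq hqN hp htor hφ hψ hrel
  classical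
  let χ : ZMod N → A := fun x =>
    if h : ∃ g : Gamma0 N, (entry g 0 0 : ZMod N) = x then φ (Additive.ofMul h.choose) else 0
  have hχ : ∀ g : Gamma0 N, χ (entry g 0 0 : ZMod N) = φ (Additive.ofMul g) := by
    intro g
    have h : ∃ g' : Gamma0 N, (entry g' 0 0 : ZMod N) = (entry g 0 0 : ZMod N) := ⟨g, rfl⟩
    show dite _ _ _ = _
    rw [dif_pos h]
    exact hdep _ _ h.choose_spec
  have surj : ∀ x : ZMod N, IsUnit x → ∃ g : Gamma0 N, (entry g 0 0 : ZMod N) = x := by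
    intro x hx
    have hc : IsCoprime ((x.val : ℤ)) (N : ℤ) := by
      rw [Int.isCoprime_iff_nat_coprime]
      exact (ZMod.isUnit_iff_coprime x.val N).mp (by rwa [ZMod.natCast_zmod_val])
    obtain ⟨u, v, huv⟩ := hc
    refine ⟨mkGamma0 (x.val : ℤ) (-v) N u (by linear_combination huv) dvd_rfl, ?_⟩
    rw [(entry_mkGamma0 _ _ _ _ _ _).1, Int.cast_natCast, ZMod.natCast_zmod_val]
  refine ⟨χ, fun x y hx hy => ?_, fun g => ⟨(hχ g).symm, by rw [heq]; exact (hχ g).symm⟩⟩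
  obtain ⟨g, rfl⟩ := surj x hx
  obtain ⟨g', rfl⟩ := surj y hy
  rw [hχ, hχ, ← map_add, ← ofMul_mul, ← hχ]
  congr 1
  have h0 : ((entry g' 1 0 : ℤ) : ZMod N) = 0 :=
    (ZMod.intCast_zmod_eq_zero_iff_dvd _ N).mpr (entry_dvd g')
  rw [entry_mul]; push_cast; rw [h0, mul_zero, add_zero]

end Fermat.Agent.LevelRaise.Ihara
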