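import Fermat.Agent.Periods.Hecke
import Fermat.Agent.LevelRaise.Ihara
import Fermat.Agent.LevelRaise.Degeneracy.Matrices

/-!
# Degeneracy maps between levels `N` and `N * q` and their transposes

`δ = diag(q, 1)`. `degRes φ = φ|Γ₀(Nq)`, `degBeta φ γ = φ (δ γ δ⁻¹)`; `degTr`, `degTr'` are the
transfers attached to them.
-/

set_option autoImplicit false

noncomputable section

open CongruenceSubgroup ModularCurve.Period
open Fermat.Agent.Periods Fermat.Agent.LevelRaise.Degeneracy
open scoped MatrixGroups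

namespace Fermat.Agent.LevelRaise

variable {N q : ℕ} {A : Type*} [AddCommGroup A]

variable (N q A) in
/-- Restriction `Hom(Γ₀(N), A) → Hom(Γ₀(Nq), A)`. -/
def degRes : (Additive (Gamma0 N) →+ A) →ₗ[ℤ] (Additive (Gamma0 (N * q)) →+ A) :=
  (isFamily_one (N := N) (q := q)).transfer A

variable (N q A) in
/-- `φ ↦ (γ ↦ φ (δ γ δ⁻¹))`. -/
def degBeta : (Additive (Gamma0 N) →+ A) →ₗ[ℤ] (Additive (Gamma0 (N * q)) →+ A) :=
  if h : q = 0 then 0 else
    have : NeZero q := ⟨h⟩
    (isFamily_delta (N := N) (q := q)).transfer A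

variable (N A) in
/-- The transfer attached to `degRes`. -/
def degTr (hq : q.Prime) (hqN : ¬ q ∣ N) :
    (Additive (Gamma0 (N * q)) →+ A) →ₗ[ℤ] (Additive (Gamma0 N) →+ A) :=
  (isFamily_res hq hqN).transfer A

variable (N A) in
/-- The transfer attached to `degBeta`. -/
def degTr' (hq : q.Prime) (hqN : ¬ q ∣ N) :
    (Additive (Gamma0 (N * q)) →+ A) →ₗ[ℤ] (Additive (Gamma0 N) →+ A) :=
  (isFamily_deg hq hqN).transfer A

variable (hq : q.Prime) (hqN : ¬ q ∣ N)

theorem degBeta_eq_transfer [NeZero q] :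
    degBeta N q A = (isFamily_delta (N := N) (q := q)).transfer A := by
  rw [degBeta, dif_neg (NeZero.ne q)]

theorem degRes_apply (φ : Additive (Gamma0 N) →+ A) (γ : Gamma0 (N * q)) (γ' : Gamma0 N)
    (h : (γ' : SL(2, ℤ)) = γ) :
    degRes N q A φ (Additive.ofMul γ) = φ (Additive.ofMul γ') := by
  rw [degRes, isFamily_one.transfer_apply φ γ (σ := Equiv.refl Unit) (g := fun _ => γ')
    (fun _ => by simp [gammaMat, h])]
  simp

theorem degeneracyRel_of_eq {φ ψ : Additive (Gamma0 N) →+ A}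
    (h : degRes N q A φ = degBeta N q A ψ) (hq : q.Prime) : Ihara.DegeneracyRel q φ ψ := by
  intro g g' h00 h01 h10 h11
  have : NeZero q := ⟨hq.ne_zero⟩
  obtain ⟨γ, hγ⟩ := exists_gamma0_eq (N := N * q) (Z := gammaMat g) (gammaMat_det g) (by
    show ((N * q : ℕ) : ℤ) ∣ Ihara.entry g 1 0
    rw [h10]; push_cast; rw [mul_comm]; exact mul_dvd_mul_left _ (Ihara.entry_dvd g'))
  have h1 := degRes_apply (q := q) φ γ g (Subtype.ext hγ.symm)
  rw [h, degBeta_eq_transfer, isFamily_delta.transfer_apply ψ γ (σ := Equiv.refl Unit)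
    (g := fun _ => g') (fun _ => ?_)] at h1
  · simpa using h1.symm
  · simp only [hγ, deltaMat]
    rw [Matrix.eta_fin_two (gammaMat g), Matrix.eta_fin_two (gammaMat g'), Matrix.mul_fin_two,
      Matrix.mul_fin_two]
    simp only [Ihara.entry] at h00 h01 h10 h11
    congrm !![?_, ?_; ?_, ?_]
    · linear_combination -(q : ℤ) * h00
    · linear_combination -h01
    · linear_combination h10
    · linear_combination -h11

section comp

variable {B : Type*} [AddCommGroup B] (f : A →+ B)

theorem degRes_comp (φ : Additive (Gamma0 N) →+ A) :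
    degRes N q B (f.comp φ) = f.comp (degRes N q A φ) :=
  isFamily_one.transfer_postcomp f φ

theorem degBeta_comp (φ : Additive (Gamma0 N) →+ A) :
    degBeta N q B (f.comp φ) = f.comp (degBeta N q A φ) := by
  rcases eq_or_ne q 0 with h | h
  · rw [degBeta, degBeta, dif_pos h, dif_pos h]
    exact AddMonoidHom.ext fun _ => (map_zero f).symm
  · have : NeZero q := ⟨h⟩
    rw [degBeta_eq_transfer, degBeta_eq_transfer]
    exact isFamily_delta.transfer_postcomp f φ

theorem degTr_comp (x : Additive (Gamma0 (N * q)) →+ A) :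
    degTr N B hq hqN (f.comp x) = f.comp (degTr N A hq hqN x) :=
  (isFamily_res hq hqN).transfer_postcomp f x

theorem degTr'_comp (x : Additive (Gamma0 (N * q)) →+ A) :
    degTr' N B hq hqN (f.comp x) = f.comp (degTr' N A hq hqN x) :=
  (isFamily_deg hq hqN).transfer_postcomp f x

end comp

theorem degRes_mem_cuspidalHoms {φ : Additive (Gamma0 N) →+ A}
    (h : φ ∈ cuspidalHoms ℤ (Gamma0 N) A) :
    degRes N q A φ ∈ cuspidalHoms ℤ (Gamma0 (N * q)) A :=
  isFamily_one.transfer_mem_cuspidalHoms h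

theorem degBeta_mem_cuspidalHoms {φ : Additive (Gamma0 N) →+ A}
    (h : φ ∈ cuspidalHoms ℤ (Gamma0 N) A) :
    degBeta N q A φ ∈ cuspidalHoms ℤ (Gamma0 (N * q)) A := by
  rcases eq_or_ne q 0 with h0 | h0
  · rw [degBeta, dif_pos h0]
    exact Submodule.zero_mem _
  · have : NeZero q := ⟨h0⟩
    rw [degBeta_eq_transfer]
    exact isFamily_delta.transfer_mem_cuspidalHoms h

theorem degTr_mem_cuspidalHoms {x : Additive (Gamma0 (N * q)) →+ A}
    (h : x ∈ cuspidalHoms ℤ (Gamma0 (N * q)) A) :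
    degTr N A hq hqN x ∈ cuspidalHoms ℤ (Gamma0 N) A :=
  (isFamily_res hq hqN).transfer_mem_cuspidalHoms h

theorem degTr'_mem_cuspidalHoms {x : Additive (Gamma0 (N * q)) →+ A}
    (h : x ∈ cuspidalHoms ℤ (Gamma0 (N * q)) A) :
    degTr' N A hq hqN x ∈ cuspidalHoms ℤ (Gamma0 N) A :=
  (isFamily_deg hq hqN).transfer_mem_cuspidalHoms h

section commute

variable {ℓ : ℕ} (hℓ : ℓ.Prime) (hℓq : ℓ ≠ q)
include hq hℓq

theorem degRes_heckeHom (φ : Additive (Gamma0 N) →+ A) :
    degRes N q A (heckeHom ℤ A hℓ φ) = heckeHom ℤ A hℓ (degRes N q A φ) := by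
  have hiff : ℓ ∣ N * q ↔ ℓ ∣ N := by
    rw [Nat.Prime.dvd_mul hℓ, or_iff_left]
    exact fun h => hℓq ((Nat.prime_dvd_prime_iff_eq hℓ hq).1 h)
  rw [heckeHom_eq_transfer, heckeHom_eq_transfer, degRes]
  let e : Unit × HeckeIdx N ℓ ≃ HeckeIdx (N * q) ℓ × Unit :=
    { toFun := fun x => (⟨x.2.1, fun h => fun hd => x.2.2 h (hiff.1 hd)⟩, ())
      invFun := fun x => ((), ⟨x.1.1, fun h => fun hd => x.1.2 h (hiff.2 hd)⟩)
      left_inv := fun x => rfl
      right_inv := fun x => rfl }
  refine IsFamily.transfer_transfer_eq _ _ _ _ e (fun x => ⟨1, ?_⟩) φ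
  show heckeMat N ℓ x.2 * 1 = gammaMat (1 : Gamma0 N) * (1 * heckeMat (N * q) ℓ (e x).1)
  rw [gammaMat_one, Matrix.one_mul, Matrix.one_mul, Matrix.mul_one]
  rfl

theorem degBeta_heckeHom (φ : Additive (Gamma0 N) →+ A) :
    degBeta N q A (heckeHom ℤ A hℓ φ) = heckeHom ℤ A hℓ (degBeta N q A φ) := by
  have hiff : ℓ ∣ N * q ↔ ℓ ∣ N := by
    rw [Nat.Prime.dvd_mul hℓ, or_iff_left]
    exact fun h => hℓq ((Nat.prime_dvd_prime_iff_eq hℓ hq).1 h)
  have : NeZero q := ⟨hq.ne_zero⟩
  have hcop : IsCoprime (q : ℤ) (ℓ : ℤ) :=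
    Nat.isCoprime_iff_coprime.2 ((Nat.coprime_primes hq hℓ).2 (Ne.symm hℓq))
  have hl1 : (1 : ℤ) < ℓ := by exact_mod_cast hℓ.one_lt
  rw [heckeHom_eq_transfer, heckeHom_eq_transfer, degBeta_eq_transfer]
  -- `δ H'ₓ = g H_{f x} δ`
  have hex : ∀ x : HeckeIdx (N * q) ℓ, ∃ (y : HeckeIdx N ℓ) (g : Gamma0 N),
      deltaMat q * heckeMat (N * q) ℓ x = gammaMat g * heckeMat N ℓ y * deltaMat q := by
    rintro ⟨_ | j, hx⟩
    · refine ⟨⟨none, fun h hd => hx h (hiff.2 hd)⟩, 1, ?_⟩
      simp [deltaMat, heckeMat, gammaMat_one, mul_comm]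
    · obtain ⟨k, t, ht⟩ := exists_fin_mul_sub_dvd hℓ.ne_zero (a := (1 : ℤ)) isCoprime_one_left
        ((q : ℤ) * (j : ℕ))
      obtain ⟨g, hg⟩ := exists_gamma0_of_entries (N := N) (a := 1) (b := t) (c := 0) (d := 1)
        (by ring) (dvd_zero _)
      refine ⟨⟨some k, by simp⟩, g, ?_⟩
      simp only [deltaMat, heckeMat, Option.elim, hg, Matrix.mul_fin_two]
      congrm !![?_, ?_; ?_, ?_]
      · ring
      · linear_combination ht
      · ring
      · ring
  choose f g hf using hex
  have hinj : Function.Injective f := by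
    intro x y hxy
    refine heckeMat_separated hℓ x y 1 ?_
    show heckeMat (N * q) ℓ x = gammaMat (1 : Gamma0 (N * q)) * heckeMat (N * q) ℓ y
    rw [gammaMat_one, Matrix.one_mul]
    have h1 : deltaMat q * heckeMat (N * q) ℓ x =
        gammaMat (g x * (g y)⁻¹) * (deltaMat q * heckeMat (N * q) ℓ y) := by
      rw [hf x, hf y, hxy, ← Matrix.mul_assoc, ← Matrix.mul_assoc, ← gammaMat_mul,
        inv_mul_cancel_right]
    obtain ⟨a, b, c, d, hG, hdet, -⟩ := gammaMat_entries (g x * (g y)⁻¹)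
    have hq0 : (0 : ℤ) < q := by exact_mod_cast hq.pos
    obtain ⟨_ | i, hi⟩ := x <;> obtain ⟨_ | j, hj⟩ := y <;>
      simp only [deltaMat, heckeMat, Option.elim, Matrix.mul_fin_two (α := ℤ), mul_zero, zero_mul,
        add_zero, zero_add, one_mul, mul_one] at h1 <;>
      obtain ⟨hA, hD, hB⟩ := intMat_upper_coset
        (by positivity)
        (by positivity)
        (by positivity) (by positivity) h1
    · rfl
    · omega
    · omega
    · obtain ⟨m, hm⟩ := hcop.symm.dvd_of_dvd_mul_left (x := (ℓ : ℤ))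
        (z := ((i : ℕ) : ℤ) - (j : ℕ)) (by rw [mul_sub]; exact hB)
      obtain rfl : i = j := fin_eq_of_dvd_sub (x := m) (by linear_combination hm)
      rfl
  have hbij : Function.Bijective f := (Fintype.bijective_iff_injective_and_card f).2
    ⟨hinj, Fintype.card_congr (Equiv.subtypeEquivRight fun _ => imp_congr_right fun _ =>
      not_congr hiff)⟩
  let e : HeckeIdx (N * q) ℓ × Unit ≃ Unit × HeckeIdx N ℓ :=
    (Equiv.prodComm _ _).trans (Equiv.prodCongr (Equiv.refl Unit) (Equiv.ofBijective f hbij))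
  symm
  refine IsFamily.transfer_transfer_eq _ _ _ _ e (fun x => ⟨g x.1, ?_⟩) φ
  show deltaMat q * heckeMat (N * q) ℓ x.1 = gammaMat (g x.1) * (heckeMat N ℓ (f x.1) * deltaMat q)
  rw [hf, Matrix.mul_assoc]

include hqN

theorem degTr_heckeHom (x : Additive (Gamma0 (N * q)) →+ A) :
    degTr N A hq hqN (heckeHom ℤ A hℓ x) = heckeHom ℤ A hℓ (degTr N A hq hqN x) := by
  have hiff : ℓ ∣ N * q ↔ ℓ ∣ N := by
    rw [Nat.Prime.dvd_mul hℓ, or_iff_left]
    exact fun h => hℓq ((Nat.prime_dvd_prime_iff_eq hℓ hq).1 h)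
  rw [heckeHom_eq_transfer, heckeHom_eq_transfer, degTr]
  -- `Rᵢ Hₖ = g H'ₖ' Rᵢ'`
  have hex : ∀ z : HeckeIdx N ℓ × Option (Fin q),
      ∃ (w : Option (Fin q) × HeckeIdx (N * q) ℓ) (g : Gamma0 (N * q)),
        resRep N q z.2 * heckeMat N ℓ z.1 =
          gammaMat g * (heckeMat (N * q) ℓ w.2 * resRep N q w.1) := by
    rintro ⟨k, i⟩
    obtain ⟨r, hr⟩ := exists_resRep (N := N) i
    have hZ : InS N (resRep N q i * heckeMat N ℓ k) :=
      (hr ▸ inS_gammaMat r).mul (inS_heckeMat hℓ k)
    obtain ⟨j, W, hW, hWc⟩ := exists_cover_res hq hqN hZ.1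
    obtain ⟨s, hs⟩ := exists_resRep (N := N) j
    have hWS : InS N W := by
      have : W = resRep N q i * heckeMat N ℓ k * gammaMat s⁻¹ := by
        rw [hW, ← hs, Matrix.mul_assoc, ← gammaMat_mul, mul_inv_cancel, gammaMat_one,
          Matrix.mul_one]
      exact this ▸ hZ.mul (inS_gammaMat _)
    have hdet : W.det = ℓ := by
      have := congrArg Matrix.det hW
      rwa [Matrix.det_mul, Matrix.det_mul, resRep_det, resRep_det, heckeMat_det, one_mul, mul_one,
        eq_comm] at this
    obtain ⟨k', g, hg⟩ := exists_hecke_rep hℓ hdet hWc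
      fun h => not_dvd_of_inS hℓ hWS (hiff.1 h)
    exact ⟨(j, k'), g, by rw [hW, hg, Matrix.mul_assoc]⟩
  choose f g hf using hex
  have hinj : Function.Injective f := by
    rintro ⟨k, i⟩ ⟨k', i'⟩ hkk
    have h1 : resRep N q i * heckeMat N ℓ k =
        gammaMat (g (k, i) * (g (k', i'))⁻¹) * (resRep N q i' * heckeMat N ℓ k') := by
      rw [hf (k, i), hf (k', i'), hkk, ← Matrix.mul_assoc, ← Matrix.mul_assoc, ← gammaMat_mul,
        inv_mul_cancel_right, Matrix.mul_assoc]
    obtain ⟨r, hr⟩ := exists_resRep (N := N) i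
    obtain ⟨r', hr'⟩ := exists_resRep (N := N) i'
    obtain ⟨u, hu⟩ := exists_gamma0_eq (N := N) (gammaMat_det (g (k, i) * (g (k', i'))⁻¹))
      ((Int.natCast_dvd_natCast.2 (dvd_mul_right N q)).trans (inS_gammaMat _).1)
    rw [← hr, ← hr', ← hu, ← Matrix.mul_assoc, ← gammaMat_mul] at h1
    have hk : k = k' := heckeMat_separated hℓ k k' (r⁻¹ * (u * r')) (by
      show heckeMat N ℓ k = gammaMat (r⁻¹ * (u * r')) * heckeMat N ℓ k'
      rw [gammaMat_mul r⁻¹, Matrix.mul_assoc, ← h1, ← Matrix.mul_assoc, ← gammaMat_mul,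
        inv_mul_cancel, gammaMat_one, Matrix.one_mul])
    subst hk
    have h2 := intMat_mul_right_cancel (heckeMat_det_ne_zero hℓ k) h1
    rw [gammaMat_mul, hu, hr, hr'] at h2
    rw [resRep_sep hq hqN i i' _ h2]
  have hbij : Function.Bijective f := (Fintype.bijective_iff_injective_and_card f).2
    ⟨hinj, by
      rw [Fintype.card_prod, Fintype.card_prod, Fintype.card_congr
        (Equiv.subtypeEquivRight fun _ => imp_congr_right fun _ => not_congr hiff :
          HeckeIdx (N * q) ℓ ≃ HeckeIdx N ℓ), mul_comm]⟩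
  symm
  exact IsFamily.transfer_transfer_eq (isFamily_res hq hqN) (isFamily_hecke hℓ)
    (isFamily_hecke hℓ) (isFamily_res hq hqN) (Equiv.ofBijective f hbij)
    (fun z => ⟨g z, hf z⟩) x

theorem degTr'_heckeHom (x : Additive (Gamma0 (N * q)) →+ A) :
    degTr' N A hq hqN (heckeHom ℤ A hℓ x) = heckeHom ℤ A hℓ (degTr' N A hq hqN x) := by
  have hiff : ℓ ∣ N * q ↔ ℓ ∣ N := by
    rw [Nat.Prime.dvd_mul hℓ, or_iff_left]
    exact fun h => hℓq ((Nat.prime_dvd_prime_iff_eq hℓ hq).1 h)
  have hq0 : (deltaBar q).det ≠ 0 := by rw [deltaBar_det]; exact_mod_cast hq.ne_zero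
  rw [heckeHom_eq_transfer, heckeHom_eq_transfer, degTr']
  have hex : ∀ z : HeckeIdx N ℓ × Option (Fin q),
      ∃ (w : Option (Fin q) × HeckeIdx (N * q) ℓ) (g : Gamma0 (N * q)),
        degRep N q z.2 * heckeMat N ℓ z.1 =
          gammaMat g * (heckeMat (N * q) ℓ w.2 * degRep N q w.1) := by
    rintro ⟨k, i⟩
    obtain ⟨r, hr⟩ := exists_upRep hq hqN i
    have hZ : InS N (upRep N q i * heckeMat N ℓ k) :=
      (hr ▸ inS_gammaMat r).mul (inS_heckeMat hℓ k)
    obtain ⟨j, W, hW, hWb, -⟩ := exists_cover_up hq hqN (upRep N q i * heckeMat N ℓ k)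
    obtain ⟨s, hs⟩ := exists_upRep hq hqN j
    have hWS : InS N W := by
      have : W = upRep N q i * heckeMat N ℓ k * gammaMat s⁻¹ := by
        rw [hW, ← hs, Matrix.mul_assoc, ← gammaMat_mul, mul_inv_cancel, gammaMat_one,
          Matrix.mul_one]
      exact this ▸ hZ.mul (inS_gammaMat _)
    have hdet : W.det = ℓ := by
      have := congrArg Matrix.det hW
      rwa [Matrix.det_mul, Matrix.det_mul, upRep_det hq hqN, upRep_det hq hqN, heckeMat_det,
        one_mul, mul_one, eq_comm] at this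
    obtain ⟨b', hb'⟩ := hWb
    -- `δ̄ W δ̄⁻¹`
    obtain ⟨k', g, hg⟩ := exists_hecke_rep hℓ (M := N * q)
      (Z := !![W 0 0, b'; (q : ℤ) * W 1 0, W 1 1])
      (by rw [Matrix.det_fin_two] at hdet; rw [Matrix.det_fin_two_of]
          linear_combination hdet + W 1 0 * hb')
      (dvd_mul_of_dvd_of_dvd hq hqN (by simpa using hWS.1.mul_left _) (by simp))
      (fun h => by simpa using not_dvd_of_inS hℓ hWS (hiff.1 h))
    refine ⟨(j, k'), g, ?_⟩
    rw [degRep, degRep, Matrix.mul_assoc, hW, ← Matrix.mul_assoc, ← Matrix.mul_assoc,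
      ← Matrix.mul_assoc, ← hg]
    congr 1
    apply intMat_ext <;> simp [mul_entry, deltaBar, hb'] <;> ring
  choose f g hf using hex
  have hinj : Function.Injective f := by
    rintro ⟨k, i⟩ ⟨k', i'⟩ hkk
    have h1 : degRep N q i * heckeMat N ℓ k =
        gammaMat (g (k, i) * (g (k', i'))⁻¹) * (degRep N q i' * heckeMat N ℓ k') := by
      rw [hf (k, i), hf (k', i'), hkk, ← Matrix.mul_assoc, ← Matrix.mul_assoc, ← gammaMat_mul,
        inv_mul_cancel_right, Matrix.mul_assoc]
    obtain ⟨a, b, c, d, hG, hdet, hc⟩ := gammaMat_entries (g (k, i) * (g (k', i'))⁻¹)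
    push_cast at hc
    obtain ⟨t, rfl⟩ := hc
    obtain ⟨u, hu⟩ := exists_gamma0_of_entries (N := N) (a := a) (b := (q : ℤ) * b)
      (c := (N : ℤ) * t) (d := d) (by linear_combination hdet) (dvd_mul_right _ _)
    have hδ : gammaMat (g (k, i) * (g (k', i'))⁻¹) * deltaBar q = deltaBar q * gammaMat u := by
      rw [hG, hu]
      apply intMat_ext <;> simp [mul_entry, deltaBar] <;> ring
    obtain ⟨r, hr⟩ := exists_upRep hq hqN i
    obtain ⟨r', hr'⟩ := exists_upRep hq hqN i'
    rw [degRep, degRep, Matrix.mul_assoc, Matrix.mul_assoc, ← Matrix.mul_assoc _ (deltaBar q), hδ,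
      Matrix.mul_assoc (deltaBar q)] at h1
    replace h1 := intMat_mul_left_cancel hq0 h1
    rw [← hr, ← hr', ← Matrix.mul_assoc, ← gammaMat_mul] at h1
    have hk : k = k' := heckeMat_separated hℓ k k' (r⁻¹ * (u * r')) (by
      show heckeMat N ℓ k = gammaMat (r⁻¹ * (u * r')) * heckeMat N ℓ k'
      rw [gammaMat_mul r⁻¹, Matrix.mul_assoc, ← h1, ← Matrix.mul_assoc, ← gammaMat_mul,
        inv_mul_cancel, gammaMat_one, Matrix.one_mul])
    subst hk
    have h2 := intMat_mul_right_cancel (heckeMat_det_ne_zero hℓ k) h1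
    rw [gammaMat_mul, hr, hr'] at h2
    rw [upRep_sep hq hqN i i' (W := gammaMat u) (by rw [hu]; simp) h2]
  have hbij : Function.Bijective f := (Fintype.bijective_iff_injective_and_card f).2
    ⟨hinj, by
      rw [Fintype.card_prod, Fintype.card_prod, Fintype.card_congr
        (Equiv.subtypeEquivRight fun _ => imp_congr_right fun _ => not_congr hiff :
          HeckeIdx (N * q) ℓ ≃ HeckeIdx N ℓ), mul_comm]⟩
  symm
  exact IsFamily.transfer_transfer_eq (isFamily_deg hq hqN) (isFamily_hecke hℓ)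
    (isFamily_hecke hℓ) (isFamily_deg hq hqN) (Equiv.ofBijective f hbij)
    (fun z => ⟨g z, hf z⟩) x

end commute

theorem degTr_degRes (φ : Additive (Gamma0 N) →+ A) :
    degTr N A hq hqN (degRes N q A φ) = (q + 1) • φ := by
  refine AddMonoidHom.ext fun x => ?_
  obtain ⟨γ, rfl⟩ := Additive.ofMul.surjective x
  have F := isFamily_res (N := N) hq hqN
  choose r hr using exists_resRep (N := N) (q := q)
  rw [degTr, F.transfer_apply _ γ (F.step γ), AddMonoidHom.nsmul_apply]
  have key : ∀ i, degRes N q A φ (Additive.ofMul (F.elt γ i)) =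
      φ (Additive.ofMul γ) + (φ (Additive.ofMul (r i)) - φ (Additive.ofMul (r (F.perm γ i)))) := by
    intro i
    rw [degRes_apply φ (F.elt γ i) (r i * γ * (r (F.perm γ i))⁻¹)
      (Subtype.ext (intMat_mul_right_cancel (M := gammaMat (r (F.perm γ i)))
        (by rw [gammaMat_det]; exact one_ne_zero) ?_))]
    · simp only [ofMul_mul, ofMul_inv, map_add, map_neg]
      abel
    · show gammaMat (r i * γ * (r (F.perm γ i))⁻¹) * _ = gammaMat (F.elt γ i) * _
      rw [← gammaMat_mul, inv_mul_cancel_right, gammaMat_mul, hr, hr]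
      exact F.step γ i
  simp only [key, Finset.sum_add_distrib, Finset.sum_sub_distrib,
    Equiv.sum_comp (F.perm γ) (fun i => φ (Additive.ofMul (r i))), sub_self, add_zero,
    Finset.sum_const, Finset.card_univ, Fintype.card_option, Fintype.card_fin]

theorem card_heckeIdx_self (hq : q.Prime) (hqN : ¬ q ∣ N) :
    Fintype.card (Option (Fin q) × Unit) = Fintype.card (HeckeIdx N q) := by
  rw [Fintype.card_congr (Equiv.subtypeUnivEquiv fun _ _ => hqN : HeckeIdx N q ≃ Option (Fin q)),
    Fintype.card_prod, Fintype.card_unit, mul_one]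

theorem degTr_degBeta (φ : Additive (Gamma0 N) →+ A) :
    degTr N A hq hqN (degBeta N q A φ) = heckeHom ℤ A hq φ := by
  have : NeZero q := ⟨hq.ne_zero⟩
  rw [degBeta_eq_transfer, degTr, heckeHom_eq_transfer]
  have hex : ∀ z : Option (Fin q) × Unit, ∃ (m : HeckeIdx N q) (g : Gamma0 N),
      deltaMat q * resRep N q z.1 = gammaMat g * heckeMat N q m := by
    intro z
    obtain ⟨r, hr⟩ := exists_resRep (N := N) z.1
    have hZ : InS N (deltaMat q * resRep N q z.1) :=
      InS.mul ⟨by simp [deltaMat], by simpa [deltaMat] using isCoprime_cast hq hqN⟩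
        (hr ▸ inS_gammaMat r)
    exact exists_hecke_rep hq (by rw [Matrix.det_mul, resRep_det, deltaMat_det, mul_one]) hZ.1
      fun h => absurd h hqN
  choose f g hf using hex
  have hinj : Function.Injective f := by
    rintro ⟨i, ⟨⟩⟩ ⟨j, ⟨⟩⟩ hij
    have h1 : deltaMat q * resRep N q i =
        gammaMat (g (i, ()) * (g (j, ()))⁻¹) * (deltaMat q * resRep N q j) := by
      rw [hf (i, ()), hf (j, ()), hij, ← Matrix.mul_assoc, ← gammaMat_mul, inv_mul_cancel_right]
    obtain ⟨ri, hri⟩ := exists_resRep (N := N) i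
    obtain ⟨rj, hrj⟩ := exists_resRep (N := N) j
    have h2 : deltaMat q * gammaMat (ri * rj⁻¹) =
        gammaMat (g (i, ()) * (g (j, ()))⁻¹) * deltaMat q := by
      rw [gammaMat_mul, ← Matrix.mul_assoc, hri, h1, ← hrj, Matrix.mul_assoc, Matrix.mul_assoc,
        ← gammaMat_mul, mul_inv_cancel, gammaMat_one, Matrix.mul_one]
    have hqc : (q : ℤ) ∣ gammaMat (ri * rj⁻¹) 1 0 := by
      have := congrFun (congrFun h2 1) 0
      rw [mul_entry, mul_entry] at this
      simp [deltaMat] at this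
      exact ⟨gammaMat (g (i, ()) * (g (j, ()))⁻¹) 1 0, by linear_combination this⟩
    obtain ⟨w, hw⟩ := exists_gamma0_eq (gammaMat_det (ri * rj⁻¹))
      (dvd_mul_of_dvd_of_dvd hq hqN (inS_gammaMat _).1 hqc)
    rw [resRep_sep hq hqN i j w (by
      rw [hw, gammaMat_mul, ← hrj, Matrix.mul_assoc, ← gammaMat_mul, inv_mul_cancel, gammaMat_one,
        Matrix.mul_one, hri])]
  have hbij : Function.Bijective f := (Fintype.bijective_iff_injective_and_card f).2
    ⟨hinj, card_heckeIdx_self hq hqN⟩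
  exact IsFamily.transfer_transfer_eq_transfer _ _ _ (Equiv.ofBijective f hbij)
    (fun z => ⟨g z, hf z⟩) φ

theorem degTr'_degRes (φ : Additive (Gamma0 N) →+ A) :
    degTr' N A hq hqN (degRes N q A φ) = heckeHom ℤ A hq φ := by
  rw [degRes, degTr', heckeHom_eq_transfer]
  have hex : ∀ z : Option (Fin q) × Unit, ∃ (m : HeckeIdx N q) (g : Gamma0 N),
      (1 : IntMat) * degRep N q z.1 = gammaMat g * heckeMat N q m := by
    intro z
    obtain ⟨r, hr⟩ := exists_upRep hq hqN z.1
    have hZ : InS N (degRep N q z.1) :=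
      InS.mul ⟨by simp [deltaBar], by simp [deltaBar, isCoprime_one_left]⟩ (hr ▸ inS_gammaMat r)
    rw [Matrix.one_mul]
    exact exists_hecke_rep hq (degRep_det hq hqN _) hZ.1 fun h => absurd h hqN
  choose f g hf using hex
  have hinj : Function.Injective f := by
    rintro ⟨i, ⟨⟩⟩ ⟨j, ⟨⟩⟩ hij
    have h1 : degRep N q i =
        gammaMat (g (i, ()) * (g (j, ()))⁻¹) * degRep N q j := by
      have hi := hf (i, ())
      have hj := hf (j, ())
      rw [Matrix.one_mul] at hi hj
      rw [hi, hj, hij, ← Matrix.mul_assoc, ← gammaMat_mul, inv_mul_cancel_right]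
    obtain ⟨ri, hri⟩ := exists_upRep hq hqN i
    obtain ⟨rj, hrj⟩ := exists_upRep hq hqN j
    have h2 : deltaBar q * gammaMat (ri * rj⁻¹) =
        gammaMat (g (i, ()) * (g (j, ()))⁻¹) * deltaBar q := by
      rw [gammaMat_mul, ← Matrix.mul_assoc, hri, ← degRep, h1, degRep, ← hrj, Matrix.mul_assoc,
        Matrix.mul_assoc, ← gammaMat_mul, mul_inv_cancel, gammaMat_one, Matrix.mul_one]
    have hqb : (q : ℤ) ∣ gammaMat (ri * rj⁻¹) 0 1 := by
      have := congrFun (congrFun h2 0) 1
      rw [mul_entry, mul_entry] at this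
      simp [deltaBar] at this
      exact ⟨gammaMat (g (i, ()) * (g (j, ()))⁻¹) 0 1, by linear_combination this⟩
    rw [upRep_sep hq hqN i j hqb (by
      rw [gammaMat_mul, ← hrj, Matrix.mul_assoc, ← gammaMat_mul, inv_mul_cancel, gammaMat_one,
        Matrix.mul_one, hri])]
  have hbij : Function.Bijective f := (Fintype.bijective_iff_injective_and_card f).2
    ⟨hinj, card_heckeIdx_self hq hqN⟩
  exact IsFamily.transfer_transfer_eq_transfer _ _ _ (Equiv.ofBijective f hbij)
    (fun z => ⟨g z, hf z⟩) φ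

theorem degTr'_degBeta (φ : Additive (Gamma0 N) →+ A) :
    degTr' N A hq hqN (degBeta N q A φ) = (q + 1) • φ := by
  have : NeZero q := ⟨hq.ne_zero⟩
  refine AddMonoidHom.ext fun x => ?_
  obtain ⟨γ, rfl⟩ := Additive.ofMul.surjective x
  have F := isFamily_deg (N := N) hq hqN
  choose r hr using exists_upRep (N := N) hq hqN
  rw [degTr', F.transfer_apply _ γ (F.step γ), AddMonoidHom.nsmul_apply]
  have hdd : ∀ X : IntMat, deltaMat q * (deltaBar q * X) = (q : ℤ) • X := fun X => by
    rw [← Matrix.mul_assoc]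
    have : deltaMat q * deltaBar q = (q : ℤ) • (1 : IntMat) := by
      apply intMat_ext <;> simp [mul_entry, deltaMat, deltaBar]
    rw [this, Matrix.smul_mul, Matrix.one_mul]
  have key : ∀ i, degBeta N q A φ (Additive.ofMul (F.elt γ i)) =
      φ (Additive.ofMul γ) + (φ (Additive.ofMul (r i)) - φ (Additive.ofMul (r (F.perm γ i)))) := by
    intro i
    rw [degBeta_eq_transfer, isFamily_delta.transfer_apply φ (F.elt γ i) (σ := Equiv.refl Unit)
      (g := fun _ => r i * γ * (r (F.perm γ i))⁻¹) (fun _ => ?_)]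
    · simp only [Finset.univ_unique, Finset.sum_singleton, ofMul_mul, ofMul_inv, map_add, map_neg]
      abel
    · refine intMat_mul_right_cancel (M := degRep N q (F.perm γ i)) (F.det_ne _) ?_
      rw [Matrix.mul_assoc, ← F.step γ i, degRep, degRep, Matrix.mul_assoc (deltaBar q), hdd,
        Matrix.mul_assoc, hdd, Matrix.mul_smul, ← hr, ← hr, ← gammaMat_mul,
        ← gammaMat_mul, inv_mul_cancel_right]
  simp only [key, Finset.sum_add_distrib, Finset.sum_sub_distrib,
    Equiv.sum_comp (F.perm γ) (fun i => φ (Additive.ofMul (r i))), sub_self, add_zero,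
    Finset.sum_const, Finset.card_univ, Fintype.card_option, Fintype.card_fin]

/-- Conjugation by `degRep N q none`, the Atkin–Lehner matrix at `q`. -/
theorem isFamily_atkinLehner (hq : q.Prime) (hqN : ¬ q ∣ N) :
    IsFamily (Gamma0 (N * q)) (Gamma0 (N * q)) (fun _ : Unit => degRep N q none) where
  det_ne _ := by rw [degRep_det hq hqN]; exact_mod_cast hq.ne_zero
  exists_step γ i := by
    obtain ⟨a, b, c, d, hγ, hdet, hc⟩ := gammaMat_entries γ
    push_cast at hc
    obtain ⟨t, rfl⟩ := hc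
    have hrs := bezout_eq hq hqN
    -- `upRep none * γ * (upRep none)⁻¹`
    let W : IntMat := !![((q : ℤ) * a + bezoutS N q * ((N : ℤ) * q * t)) * bezoutR N q
        - ((q : ℤ) * b + bezoutS N q * d) * N,
      ((q : ℤ) * b + bezoutS N q * d) * q
        - ((q : ℤ) * a + bezoutS N q * ((N : ℤ) * q * t)) * bezoutS N q;
      ((N : ℤ) * a + bezoutR N q * ((N : ℤ) * q * t)) * bezoutR N q
        - ((N : ℤ) * b + bezoutR N q * d) * N,
      ((N : ℤ) * b + bezoutR N q * d) * q
        - ((N : ℤ) * a + bezoutR N q * ((N : ℤ) * q * t)) * bezoutS N q]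
    have hW : upRep N q none * gammaMat γ = W * upRep N q none := by
      simp only [W, hγ, upRep, Matrix.mul_fin_two]
      congrm !![?_, ?_; ?_, ?_]
      · linear_combination -((q : ℤ) * a + bezoutS N q * ((N : ℤ) * q * t)) * hrs
      · linear_combination -((q : ℤ) * b + bezoutS N q * d) * hrs
      · linear_combination -((N : ℤ) * a + bezoutR N q * ((N : ℤ) * q * t)) * hrs
      · linear_combination -((N : ℤ) * b + bezoutR N q * d) * hrs
    have hdetW : W.det = 1 := by
      have := congrArg Matrix.det hW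
      rwa [Matrix.det_mul, Matrix.det_mul, upRep_det hq hqN, gammaMat_det, one_mul, mul_one,
        eq_comm] at this
    obtain ⟨g, hg⟩ := deltaBar_conj hq hqN hdetW
      (by simp only [W, Matrix.of_apply, Matrix.cons_val', Matrix.cons_val_zero,
            Matrix.cons_val_one, Matrix.cons_val_fin_one]
          exact ⟨(a + bezoutR N q * q * t) * bezoutR N q - ((N : ℤ) * b + bezoutR N q * d),
            by ring⟩)
      (by simp only [W, Matrix.of_apply, Matrix.cons_val', Matrix.cons_val_zero,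
            Matrix.cons_val_one, Matrix.cons_val_fin_one]
          exact ⟨(q : ℤ) * b + bezoutS N q * d
            - (a + bezoutS N q * (N : ℤ) * t) * bezoutS N q, by ring⟩)
    exact ⟨i, g, by
      rw [degRep, Matrix.mul_assoc, hW, ← Matrix.mul_assoc, hg, Matrix.mul_assoc]⟩
  sep _ _ _ _ := Subsingleton.elim _ _

/-- Pulled back to level `N * q`, the second transfer is `U_q + W_q`. -/
theorem degRes_degTr' (x : Additive (Gamma0 (N * q)) →+ A) :
    degRes N q A (degTr' N A hq hqN x) =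
      heckeHom ℤ A hq x + (isFamily_atkinLehner hq hqN).transfer A x := by
  refine AddMonoidHom.ext fun y => ?_
  obtain ⟨γ, rfl⟩ := Additive.ofMul.surjective y
  obtain ⟨γN, hγN⟩ := exists_gamma0_eq (N := N) (gammaMat_det γ)
    ((Int.natCast_dvd_natCast.2 (dvd_mul_right N q)).trans (inS_gammaMat γ).1)
  set FW := isFamily_atkinLehner (N := N) hq hqN
  let e : HeckeIdx (N * q) q ≃ Fin q :=
    { toFun := fun i => i.1.get (Option.ne_none_iff_isSome.1 fun h => i.2 h (dvd_mul_left q N))
      invFun := fun j => ⟨some j, by simp⟩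
      left_inv := fun i => Subtype.ext (Option.some_get _)
      right_inv := fun j => rfl }
  let τ : Equiv.Perm (Fin q) := (e.symm.trans (transferPerm hq γ)).trans e
  let gg : Option (Fin q) → Gamma0 (N * q) := fun i =>
    i.elim (FW.elt γ ()) fun j => transferElt hq γ (e.symm j)
  have hdeg : ∀ j, degRep N q (some j) = heckeMat (N * q) q (e.symm j) := fun j => by
    show deltaBar q * !![1, (j : ℤ); 0, 1] = !![1, (j : ℤ); 0, (q : ℤ)]
    apply intMat_ext <;> simp [mul_entry, deltaBar]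
  have hstep : Step (degRep N q) γN τ.optionCongr gg := by
    rintro (_ | j)
    · show degRep N q none * gammaMat γN = gammaMat (FW.elt γ ()) * degRep N q none
      rw [hγN]
      exact FW.step γ ()
    · show degRep N q (some j) * gammaMat γN =
        gammaMat (transferElt hq γ (e.symm j)) * degRep N q (some (τ j))
      rw [hγN, hdeg, hdeg, show e.symm (τ j) = transferPerm hq γ (e.symm j) by simp [τ]]
      exact transfer_spec hq γ (e.symm j)
  rw [degRes_apply _ γ γN (Subtype.ext hγN), degTr',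
    (isFamily_deg hq hqN).transfer_apply x γN hstep, AddMonoidHom.add_apply, heckeHom_apply,
    FW.transfer_apply x γ (FW.step γ), Fintype.sum_option, add_comm]
  simp [gg, Equiv.sum_comp e.symm (fun i => x (Additive.ofMul (transferElt hq γ i)))]

/-- The Atkin–Lehner involution. -/
theorem atkinLehner_sq (x : Additive (Gamma0 (N * q)) →+ A) :
    (isFamily_atkinLehner hq hqN).transfer A ((isFamily_atkinLehner hq hqN).transfer A x) = x := by
  set FW := isFamily_atkinLehner (N := N) hq hqN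
  refine AddMonoidHom.ext fun y => ?_
  obtain ⟨γ, rfl⟩ := Additive.ofMul.surjective y
  have hrs := bezout_eq hq hqN
  obtain ⟨h, hh⟩ := exists_gamma0_of_entries (N := N * q)
    (a := (q : ℤ) + bezoutS N q * N) (b := bezoutS N q + bezoutS N q * bezoutR N q)
    (c := (N : ℤ) * q + (q : ℤ) * bezoutR N q * N)
    (d := (N : ℤ) * bezoutS N q + (q : ℤ) * bezoutR N q * bezoutR N q)
    (by linear_combination ((q : ℤ) * bezoutR N q - N * bezoutS N q + 1) * hrs)
    ⟨1 + bezoutR N q, by push_cast; ring⟩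
  have hsq : degRep N q none * degRep N q none = (q : ℤ) • gammaMat h := by
    rw [hh]
    apply intMat_ext <;> simp [mul_entry, degRep, upRep, deltaBar] <;> ring
  obtain ⟨σ, g, hs, hg⟩ := FW.exists_step_transfer_transfer FW x γ
  have h2 : Step (fun _ : Unit × Unit => degRep N q none * degRep N q none) γ
      (Equiv.refl _) (fun _ => h * γ * h⁻¹) := fun _ => by
    simp only [hsq, Matrix.smul_mul, Matrix.mul_smul, ← gammaMat_mul, inv_mul_cancel_right]
  rw [hg, hs.sum_eq (fun _ => by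
    rw [Matrix.det_mul, degRep_det hq hqN]; exact mul_ne_zero (by exact_mod_cast hq.ne_zero)
      (by exact_mod_cast hq.ne_zero)) h2 x]
  simp [ofMul_mul]

theorem degTr'_atkinLehner (x : Additive (Gamma0 (N * q)) →+ A) :
    degTr' N A hq hqN ((isFamily_atkinLehner hq hqN).transfer A x) = degTr N A hq hqN x := by
  set FW := isFamily_atkinLehner (N := N) hq hqN
  set FR := isFamily_res (N := N) hq hqN
  have hrs := bezout_eq hq hqN
  obtain ⟨K, hK⟩ := exists_gamma0_of_entries (N := N) (a := 1) (b := bezoutS N q) (c := (N : ℤ))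
    (d := (q : ℤ) * bezoutR N q) (by linear_combination hrs) dvd_rfl
  have hX : ∀ i, degRep N q none * degRep N q i = (q : ℤ) • (gammaMat K * upRep N q i) := by
    intro i
    rw [degRep, degRep, ← Matrix.mul_assoc, ← Matrix.smul_mul, hK]
    congr 1
    apply intMat_ext <;> simp [mul_entry, upRep, deltaBar] <;> ring
  have hex : ∀ z : Option (Fin q) × Unit, ∃ (m : Option (Fin q)) (g : Gamma0 (N * q)),
      gammaMat K * upRep N q z.1 = gammaMat g * resRep N q m := by
    intro z
    obtain ⟨r, hr⟩ := exists_upRep hq hqN z.1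
    obtain ⟨m, W, hW, hWc⟩ := exists_cover_res hq hqN (inS_gammaMat (K * r)).1
    have hdet : W.det = 1 := by
      have := congrArg Matrix.det hW
      rwa [gammaMat_det, Matrix.det_mul, resRep_det, mul_one, eq_comm] at this
    obtain ⟨g, hg⟩ := exists_gamma0_eq hdet hWc
    exact ⟨m, g, by rw [← hr, ← gammaMat_mul, hW, hg]⟩
  choose f g hf using hex
  have hinj : Function.Injective f := by
    rintro ⟨i, ⟨⟩⟩ ⟨j, ⟨⟩⟩ hij
    refine Prod.ext ?_ rfl
    obtain ⟨u, hu⟩ := exists_gamma0_eq (N := N) (gammaMat_det (g (i, ()) * (g (j, ()))⁻¹))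
      ((Int.natCast_dvd_natCast.2 (dvd_mul_right N q)).trans (inS_gammaMat _).1)
    obtain ⟨a, b, c, d, hG, -, hc⟩ := gammaMat_entries (g (i, ()) * (g (j, ()))⁻¹)
    have hqc : (q : ℤ) ∣ c := (Int.natCast_dvd_natCast.2 (dvd_mul_left q N)).trans hc
    have h1 : gammaMat K * upRep N q i = gammaMat u * (gammaMat K * upRep N q j) := by
      rw [hu, hf (i, ()), hf (j, ()), hij, ← Matrix.mul_assoc, ← gammaMat_mul,
        inv_mul_cancel_right]
    refine upRep_sep hq hqN i j (W := gammaMat (K⁻¹ * u * K)) ?_ ?_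
    · obtain ⟨c', rfl⟩ := hqc
      have hW : gammaMat K * gammaMat (K⁻¹ * u * K) = gammaMat u * gammaMat K := by
        rw [← gammaMat_mul, ← gammaMat_mul]
        congr 1
        group
      have e0 := congrFun (congrFun hW 0) 1
      have e1 := congrFun (congrFun hW 1) 1
      simp only [mul_entry, hu, hG, hK, Matrix.of_apply, Matrix.cons_val', Matrix.cons_val_zero,
        Matrix.cons_val_one, Matrix.cons_val_fin_one] at e0 e1
      exact ⟨bezoutR N q * (a * bezoutS N q + b * ((q : ℤ) * bezoutR N q))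
          - bezoutS N q * (c' * bezoutS N q + d * bezoutR N q),
        by linear_combination ((q : ℤ) * bezoutR N q) * e0 - bezoutS N q * e1
            - gammaMat (K⁻¹ * u * K) 0 1 * hrs⟩
    · rw [gammaMat_mul, gammaMat_mul, Matrix.mul_assoc, Matrix.mul_assoc, ← h1, ← Matrix.mul_assoc,
        ← gammaMat_mul, inv_mul_cancel, gammaMat_one, Matrix.one_mul]
  have hbij : Function.Bijective f := (Fintype.bijective_iff_injective_and_card f).2
    ⟨hinj, by rw [Fintype.card_prod, Fintype.card_unit, mul_one]⟩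
  refine AddMonoidHom.ext fun y => ?_
  obtain ⟨γ, rfl⟩ := Additive.ofMul.surjective y
  obtain ⟨σ, gσ, hs, hg⟩ := FW.exists_step_transfer_transfer (isFamily_deg hq hqN) x γ
  have h2 : Step (fun m => (q : ℤ) • resRep N q m) γ (FR.perm γ) (FR.elt γ) := fun m => by
    simp only [Matrix.smul_mul, Matrix.mul_smul, FR.step γ m]
  rw [degTr', degTr, hg, FR.transfer_apply x γ (FR.step γ)]
  refine hs.sum_eq_of_equiv (fun z => ?_) h2 (Equiv.ofBijective f hbij) (fun z => ⟨g z, ?_⟩) x
  · rw [Matrix.det_mul, degRep_det hq hqN, degRep_det hq hqN]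
    exact mul_ne_zero (by exact_mod_cast hq.ne_zero) (by exact_mod_cast hq.ne_zero)
  · rw [hX, hf, Equiv.ofBijective_apply, Matrix.mul_smul]

/-- On the `q`-new part `U_q ^ 2 = 1`. -/
theorem heckeHom_sq_of_degTr_eq_zero (x : Additive (Gamma0 (N * q)) →+ A)
    (h1 : degTr N A hq hqN x = 0) (h2 : degTr' N A hq hqN x = 0) :
    heckeHom ℤ A hq (heckeHom ℤ A hq x) = x := by
  set W := (isFamily_atkinLehner (N := N) hq hqN).transfer A
  have e1 : heckeHom ℤ A hq x = -W x := by
    have := degRes_degTr' hq hqN x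
    rw [h2, map_zero] at this
    exact eq_neg_of_add_eq_zero_left this.symm
  have e2 : heckeHom ℤ A hq (W x) = -W (W x) := by
    have := degRes_degTr' hq hqN (W x)
    rw [degTr'_atkinLehner, h1, map_zero] at this
    exact eq_neg_of_add_eq_zero_left this.symm
  rw [e1, map_neg, e2, neg_neg]
  exact atkinLehner_sq hq hqN x

end Fermat.Agent.LevelRaise
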