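import Fermat.Agent.LevelRaise.Eigen.OpAlg
import Fermat.Agent.Hecke.EigenformOfChar
import Fermat.Prelude.Def_FLTPrelim_ModularRep
import Mathlib.RingTheory.Ideal.GoingUp
import Mathlib.RingTheory.Nakayama
import Mathlib.FieldTheory.IsAlgClosed.Basic
import Fermat.Prelude.Def_FreyPackage_LevelRaising

/-!
# Between eigen classes mod `p` and eigenforms
-/

set_option autoImplicit false

noncomputable section

open CongruenceSubgroup ModularCurve.Period
open Fermat.Agent.Periods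
open scoped MatrixGroups IsMulCommutative

namespace Fermat.Agent.LevelRaise

/-- The character of the full Hecke algebra attached to an eigenform, with all prime values. -/
theorem exists_hecke_char {N : ℕ} [NeZero N] {f : CuspForm (Gamma0 N) 2}
    (hf : f.IsNormalizedEigenform) :
    ∃ χ : CuspForm.heckeAlgebra N 2 ∅ →+* integralClosure ℤ ℂ,
      (∀ (ℓ : ℕ) (hℓ : ℓ.Prime) (hℓN : ¬ ℓ ∣ N),
        (χ (CuspForm.heckeAlgebra.T hℓ hℓN (Set.notMem_empty ℓ)) : ℂ) =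
          ModularFormClass.qCoeff f ℓ) ∧
      ∀ (ℓ : ℕ) (hℓ : ℓ.Prime) (hℓN : ℓ ∣ N),
        (χ (CuspForm.heckeAlgebra.U hℓ hℓN (Set.notMem_empty ℓ)) : ℂ) =
          ModularFormClass.qCoeff f ℓ := by
  have heig := isEigen_of_isNormalizedEigenform hf
  have hne := hf.ne_zero
  have hscal : ∀ t ∈ CuspForm.heckeAlgebra N 2 (∅ : Set ℕ), ∃ c : ℂ, t f = c • f := by
    intro t ht
    induction ht using Algebra.adjoin_induction with
    | mem T hT =>
      rcases hT with ⟨ℓ, hℓ, hℓN, -, rfl⟩ | ⟨q, hqN, hq, -, rfl⟩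
      · exact ⟨_, heig.1 ℓ hℓ hℓN⟩
      · exact ⟨_, heig.2 q hqN hq⟩
    | algebraMap n => exact ⟨n, by simp [Int.cast_smul_eq_zsmul]⟩
    | add x y _ _ hx hy =>
      obtain ⟨a, ha⟩ := hx
      obtain ⟨b, hb⟩ := hy
      exact ⟨a + b, by rw [LinearMap.add_apply, ha, hb, add_smul]⟩
    | mul x y _ _ hx hy =>
      obtain ⟨a, ha⟩ := hx
      obtain ⟨b, hb⟩ := hy
      exact ⟨a * b, by rw [Module.End.mul_apply, hb, map_smul, ha, smul_smul, mul_comm b]⟩
  choose c hc using fun t : CuspForm.heckeAlgebra N 2 (∅ : Set ℕ) => hscal t.1 t.2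
  have huniq : ∀ (t : CuspForm.heckeAlgebra N 2 (∅ : Set ℕ)) (a : ℂ),
      (t : Module.End ℂ _) f = a • f → c t = a :=
    fun t a ha => smul_left_injective ℂ hne ((hc t).symm.trans ha)
  let χ₀ : CuspForm.heckeAlgebra N 2 (∅ : Set ℕ) →+* ℂ :=
    { toFun := c
      map_one' := huniq 1 1 (by simp)
      map_mul' := fun s t => huniq _ _ (by
        rw [MulMemClass.coe_mul, Module.End.mul_apply, hc t, map_smul, hc s, smul_smul, mul_comm])
      map_zero' := huniq 0 0 (by simp)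
      map_add' := fun s t => huniq _ _ (by
        rw [AddMemClass.coe_add, LinearMap.add_apply, hc s, hc t, add_smul]) }
  have := moduleFinite_heckeAlgebra_two N (∅ : Set ℕ)
  have hint : ∀ t, χ₀ t ∈ integralClosure ℤ ℂ := fun t =>
    (Algebra.IsIntegral.isIntegral (R := ℤ) t).map χ₀.toIntAlgHom
  exact ⟨χ₀.codRestrict (integralClosure ℤ ℂ).toSubring hint,
    fun ℓ hℓ hℓN => huniq _ _ (heig.1 ℓ hℓ hℓN), fun ℓ hℓ hℓN => huniq _ _ (heig.2 ℓ hℓN hℓ)⟩

/-- A finite module not killed into `Q M` has a nonzero vector killed by the ideal `Q`. -/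
theorem exists_ne_zero_killed {T W : Type*} [CommRing T] [AddCommGroup W] [Module T W] [Finite W]
    (Q : Ideal T) (hQ : Q • (⊤ : Submodule T W) ≠ ⊤) : ∃ w : W, w ≠ 0 ∧ ∀ a ∈ Q, a • w = 0 := by
  have : Finite (Submodule T W) := Finite.of_injective _ SetLike.coe_injective
  obtain ⟨n, hn⟩ : ∃ n, Q ^ n • (⊤ : Submodule T W) = Q ^ (n + 1) • (⊤ : Submodule T W) := by
    obtain ⟨m, k, hne, heq⟩ :=
      Finite.exists_ne_map_eq_of_infinite (fun n : ℕ => Q ^ n • (⊤ : Submodule T W))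
    wlog hlt : m < k generalizing m k
    · exact this k m hne.symm heq.symm (by omega)
    exact ⟨m, le_antisymm (heq.le.trans (Submodule.smul_mono_left (Ideal.pow_le_pow_right hlt)))
      (Submodule.smul_mono_left (Ideal.pow_le_pow_right m.le_succ))⟩
  have : Module.Finite T W := Module.Finite.of_finite
  obtain ⟨t, ht1, ht⟩ := Submodule.exists_sub_one_mem_and_smul_eq_zero_of_fg_of_le_smul Q
    (Q ^ n • (⊤ : Submodule T W)) (IsNoetherian.noetherian _)
    (by rw [← Submodule.smul_assoc, smul_eq_mul, ← pow_succ', ← hn])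
  obtain ⟨w, hw⟩ : ∃ w : W, t • w ≠ 0 := by
    by_contra! h
    refine hQ (eq_top_iff.mpr fun w _ => ?_)
    have := (Q • (⊤ : Submodule T W)).neg_mem (Submodule.smul_mem_smul ht1 (Submodule.mem_top (x := w)))
    rwa [sub_smul, h, one_smul, zero_sub, neg_neg] at this
  have key : ∀ m, ∀ w : W, w ≠ 0 → (∀ a ∈ Q ^ m, a • w = 0) →
      ∃ w : W, w ≠ 0 ∧ ∀ a ∈ Q, a • w = 0 := by
    intro m
    induction m with
    | zero => exact fun w hw h => (hw (by simpa using h 1 (by simp))).elim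
    | succ m ih =>
      intro w hw h
      by_cases hall : ∀ a ∈ Q, a • w = 0
      · exact ⟨w, hw, hall⟩
      · push Not at hall
        obtain ⟨a, ha, haw⟩ := hall
        exact ih _ haw fun b hb => by
          rw [smul_smul]
          exact h _ (by rw [pow_succ]; exact Ideal.mul_mem_mul hb ha)
  refine key n _ hw fun a ha => ?_
  rw [smul_comm]
  exact ht _ (Submodule.smul_mem_smul ha Submodule.mem_top)

/-- An eigenform gives an eigen class modulo `p` at every prime where its coefficient is congruent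
to an integer. -/
theorem exists_modp_eigenclass {N p : ℕ} [NeZero N] (hp : p.Prime)
    {f : CuspForm (Gamma0 N) 2} (hf : f.IsNormalizedEigenform)
    {𝔪 : Ideal (integralClosure ℤ ℂ)} (hmax : 𝔪.IsMaximal) (hpm : (p : integralClosure ℤ ℂ) ∈ 𝔪)
    (G : Set ℕ) (c : ℕ → ℤ)
    (hc : ∀ ℓ ∈ G, ℓ.Prime → ∃ a : integralClosure ℤ ℂ,
      (a : ℂ) = ModularFormClass.qCoeff f ℓ ∧ a - (c ℓ : integralClosure ℤ ℂ) ∈ 𝔪) :
    ∃ φ : Additive (Gamma0 N) →+ ZMod p, φ ∈ cuspidalHoms ℤ (Gamma0 N) (ZMod p) ∧ φ ≠ 0 ∧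
      ∀ ℓ ∈ G, ∀ hℓ : ℓ.Prime, heckeHom ℤ (ZMod p) hℓ φ = c ℓ • φ := by
  obtain ⟨χ, hχT, hχU⟩ := exists_hecke_char hf
  have : NeZero p := ⟨hp.ne_zero⟩
  let T := CuspForm.heckeAlgebra N 2 (∅ : Set ℕ)
  let V := cuspidalHoms ℤ (Gamma0 N) ℤ
  let Q : Ideal T := 𝔪.comap χ
  letI : Module T V := Module.compHom V
    ((opAlg N).val.toRingHom.comp (toOpAlg N) : T →+* Module.End ℤ V)
  have hsmul : ∀ (t : T) (v : V), t • v = (toOpAlg N t : Module.End ℤ V) v := fun _ _ => rfl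
  obtain ⟨-, hVfin⟩ := free_finite_cuspidalHoms_int N
  have : Module.Finite T V := by
    obtain ⟨s, hs⟩ := hVfin.fg_top
    refine ⟨⟨s, eq_top_iff.mpr fun v hv0 => ?_⟩⟩
    clear hv0
    have hv : v ∈ Submodule.span ℤ (s : Set V) := by rw [hs]; trivial
    induction hv using Submodule.span_induction with
    | mem x hx => exact Submodule.subset_span hx
    | zero => exact zero_mem _
    | add x y _ _ hx hy => exact add_mem hx hy
    | smul n x _ hx => exact zsmul_mem hx n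
  -- `Q V ≠ V`
  have hQV : Q • (⊤ : Submodule T V) ≠ ⊤ := fun h => by
    obtain ⟨t, ht1, ht⟩ := Submodule.exists_sub_one_mem_and_smul_eq_zero_of_fg_of_le_smul Q
      (⊤ : Submodule T V) Module.Finite.fg_top h.ge
    have ht0 : t = 0 := toOpAlg_injective (by
      rw [map_zero]
      exact Subtype.ext (LinearMap.ext fun v => ht v trivial))
    have h1 : χ (0 - 1) ∈ 𝔪 := ht0 ▸ ht1
    rw [zero_sub, map_neg, map_one, Submodule.neg_mem_iff] at h1
    exact hmax.ne_top ((Ideal.eq_top_iff_one 𝔪).mpr h1)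
  let P : Submodule T V :=
    { carrier := {v | ∃ w : V, v = (p : ℤ) • w}
      zero_mem' := ⟨0, (smul_zero _).symm⟩
      add_mem' := by
        rintro a b ⟨w, rfl⟩ ⟨w', rfl⟩
        exact ⟨w + w', (smul_add _ _ _).symm⟩
      smul_mem' := by
        rintro t _ ⟨w, rfl⟩
        exact ⟨t • w, by rw [hsmul, map_zsmul, hsmul]⟩ }
  have hpQ : (p : T) ∈ Q := by
    show χ (p : T) ∈ 𝔪
    rwa [map_natCast]
  have hfin : Finite (V ⧸ P) := by
    have : AddGroup.FG (V ⧸ P) := by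
      have : AddGroup.FG V := Module.Finite.iff_addGroup_fg.mp hVfin
      exact AddGroup.fg_of_surjective (f := P.mkQ.toAddMonoidHom) P.mkQ_surjective
    refine AddCommGroup.finite_of_fg_isAddTorsion _ fun x => ?_
    obtain ⟨v, rfl⟩ := P.mkQ_surjective x
    refine isOfFinAddOrder_iff_nsmul_eq_zero.mpr ⟨p, hp.pos, ?_⟩
    rw [← map_nsmul]
    exact (Submodule.Quotient.mk_eq_zero P).mpr ⟨v, (natCast_zsmul v p).symm⟩
  obtain ⟨w, hw0, hw⟩ := exists_ne_zero_killed (W := V ⧸ P) Q fun h => hQV (by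
    refine eq_top_iff.mpr fun v _ => ?_
    have hv : P.mkQ v ∈ Submodule.map P.mkQ (Q • (⊤ : Submodule T V)) := by
      rw [Submodule.map_smul'', Submodule.map_top, Submodule.range_mkQ, h]; trivial
    obtain ⟨u, hu, huv⟩ := hv
    obtain ⟨z, hz⟩ : v - u ∈ P := (Submodule.Quotient.eq P).mp huv.symm
    rw [← sub_add_cancel v u, hz]
    refine add_mem ?_ hu
    have := Submodule.smul_mem_smul hpQ (Submodule.mem_top (R := T) (x := z))
    rwa [Nat.cast_smul_eq_nsmul T, ← natCast_zsmul] at this)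
  obtain ⟨v, rfl⟩ := P.mkQ_surjective w
  have hP : ∀ u : V, u ∈ P →
      (Int.castAddHom (ZMod p)).comp (u : Additive (Gamma0 N) →+ ℤ) = 0 := by
    rintro u ⟨z, rfl⟩
    ext g
    simp
  refine ⟨(Int.castAddHom (ZMod p)).comp (v : Additive (Gamma0 N) →+ ℤ), ?_, ?_, fun ℓ hℓG hℓ => ?_⟩
  · exact fun γ hγ => by rw [AddMonoidHom.comp_apply, v.2 γ hγ, map_zero]
  · intro h0
    exact hw0 ((Submodule.Quotient.mk_eq_zero P).mpr (exists_eq_smul_of_cast_eq_zero v h0))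
  obtain ⟨t, ht, htχ⟩ : ∃ t : T, (toOpAlg N t : Module.End ℤ V) = heckeOp N hℓ ∧
      (χ t : ℂ) = ModularFormClass.qCoeff f ℓ := by
    by_cases hℓN : ℓ ∣ N
    · exact ⟨_, by rw [coe_toOpAlg]; exact shadowOf_U hℓ hℓN, hχU ℓ hℓ hℓN⟩
    · exact ⟨_, by rw [coe_toOpAlg]; exact shadowOf_T hℓ hℓN, hχT ℓ hℓ hℓN⟩
  obtain ⟨a, ha, ham⟩ := hc ℓ hℓG hℓ
  have htQ : t - (c ℓ : T) ∈ Q := by
    show χ (t - (c ℓ : T)) ∈ 𝔪
    rw [map_sub, map_intCast, show χ t = a from Subtype.ext (htχ.trans ha.symm)]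
    exact ham
  have h := hP _ ((Submodule.Quotient.mk_eq_zero P).mp
    ((Submodule.Quotient.mk_smul P _ v).trans (hw _ htQ)))
  rw [sub_smul, Int.cast_smul_eq_zsmul, hsmul, ht] at h
  rw [intCast_comp_heckeOp_zmod]
  refine AddMonoidHom.ext fun g => ?_
  have hg := DFunLike.congr_fun h g
  simp only [AddMonoidHom.comp_apply, AddMonoidHom.smul_apply, AddMonoidHom.zero_apply,
    Submodule.coe_sub, SetLike.val_smul, AddMonoidHom.sub_apply, map_sub, map_zsmul,
    Submodule.mkQ_apply, sub_eq_zero] at hg ⊢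
  exact hg

/-- A mod `p` eigenclass in a Hecke-stable sublattice gives a congruent normalised eigenform;
`U_q` acts on it by a square root of `1` as soon as it does so on the sublattice. -/
theorem exists_eigenform_of_stable_submodule {M : ℕ} [NeZero M] {p q : ℕ} (hp : p.Prime) (hq : q.Prime)
    (hqM : q ∣ M) (K : Submodule ℤ (cuspidalHoms ℤ (Gamma0 M) ℤ))
    (hK : ∀ (ℓ : ℕ) (hℓ : ℓ.Prime), ∀ v ∈ K, heckeOp M hℓ v ∈ K)
    (hU : ∀ v ∈ K, heckeOp M hq (heckeOp M hq v) = v)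
    (S : Set ℕ) (c : ℕ → ℤ)
    (x : (cuspidalHoms ℤ (Gamma0 M) ℤ)) (hx : x ∈ K) (hx0 : ¬ ∃ w : (cuspidalHoms ℤ (Gamma0 M) ℤ), x = (p : ℤ) • w)
    (heig : ∀ (ℓ : ℕ) (hℓ : ℓ.Prime), ℓ ∈ S →
      ∃ w : (cuspidalHoms ℤ (Gamma0 M) ℤ), heckeOp M hℓ x - c ℓ • x = (p : ℤ) • w) :
    ∃ (g : CuspForm (Gamma0 M) 2) (𝔪 : Ideal (integralClosure ℤ ℂ)),
      g.IsNormalizedEigenform ∧ 𝔪.IsMaximal ∧ (p : integralClosure ℤ ℂ) ∈ 𝔪 ∧
      (∀ ℓ ∈ S, ℓ.Prime → ∃ a : integralClosure ℤ ℂ, (a : ℂ) = ModularFormClass.qCoeff g ℓ ∧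
        a - (c ℓ : integralClosure ℤ ℂ) ∈ 𝔪) ∧
      ModularFormClass.qCoeff g q ^ 2 = 1 := by
  have := moduleFinite_opAlg M
  let T := opAlg M
  have hstab : ∀ t : T, ∀ v ∈ K, (t : Module.End ℤ (cuspidalHoms ℤ (Gamma0 M) ℤ)) v ∈ K := by
    rintro ⟨t, ht⟩
    change ∀ v ∈ K, t v ∈ K
    induction ht using Algebra.adjoin_induction with
    | mem T hT => obtain ⟨ℓ, rfl⟩ := hT; exact hK ℓ ℓ.2
    | algebraMap r => exact fun v hv => K.smul_mem r hv
    | add a b _ _ ha hb => exact fun v hv => K.add_mem (ha v hv) (hb v hv)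
    | mul a b _ _ ha hb => exact fun v hv => ha _ (hb v hv)
  -- relations holding on the sublattice, and congruence relations at `x`
  let J : Ideal T :=
    { carrier := {t | ∀ v ∈ K, (t : Module.End ℤ (cuspidalHoms ℤ (Gamma0 M) ℤ)) v = 0}
      zero_mem' := fun v _ => rfl
      add_mem' := fun ha hb v hv => by
        show _ + _ = (0 : (cuspidalHoms ℤ (Gamma0 M) ℤ))
        rw [ha v hv, hb v hv, add_zero]
      smul_mem' := fun s t ht v hv => by
        show (s : Module.End ℤ (cuspidalHoms ℤ (Gamma0 M) ℤ)) ((t : Module.End ℤ (cuspidalHoms ℤ (Gamma0 M) ℤ)) v) = 0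
        rw [ht v hv, map_zero] }
  let I : Ideal T :=
    { carrier := {t | ∃ w : (cuspidalHoms ℤ (Gamma0 M) ℤ), (t : Module.End ℤ (cuspidalHoms ℤ (Gamma0 M) ℤ)) x = (p : ℤ) • w}
      zero_mem' := ⟨0, by simp⟩
      add_mem' := by
        rintro a b ⟨w, hw⟩ ⟨w', hw'⟩
        exact ⟨w + w', by
          show (a : Module.End ℤ (cuspidalHoms ℤ (Gamma0 M) ℤ)) x + (b : Module.End ℤ (cuspidalHoms ℤ (Gamma0 M) ℤ)) x = _
          rw [hw, hw', smul_add]⟩
      smul_mem' := by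
        rintro s t ⟨w, hw⟩
        exact ⟨(s : Module.End ℤ (cuspidalHoms ℤ (Gamma0 M) ℤ)) w, by
          show (s : Module.End ℤ (cuspidalHoms ℤ (Gamma0 M) ℤ)) ((t : Module.End ℤ (cuspidalHoms ℤ (Gamma0 M) ℤ)) x) = _
          rw [hw, map_zsmul]⟩ }
  have hI : I ≠ ⊤ := fun h => by
    obtain ⟨w, hw⟩ : (1 : T) ∈ I := h ▸ Submodule.mem_top
    exact hx0 ⟨w, hw⟩
  obtain ⟨Q, hQmax, hIQ⟩ := Ideal.exists_le_maximal I hI
  have hpQ : (p : T) ∈ Q := hIQ ⟨x, by
    rw [← map_natCast (algebraMap ℤ T)]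
    simp⟩
  have hJQ : J ≤ Q := fun t ht => hIQ ⟨0, by rw [ht x hx, smul_zero]⟩
  -- a prime of characteristic zero between `J` and `Q`
  let A : Submonoid T :=
    { carrier := {a | ∃ (n : ℤ) (u : T), n ≠ 0 ∧ u ∉ Q ∧ a = n • u}
      one_mem' := ⟨1, 1, one_ne_zero, (Ideal.ne_top_iff_one Q).mp hQmax.ne_top, (one_smul ℤ _).symm⟩
      mul_mem' := by
        rintro a b ⟨n, u, hn, hu, rfl⟩ ⟨m, v, hm, hv, rfl⟩
        exact ⟨n * m, u * v, mul_ne_zero hn hm,
          fun h => (hQmax.isPrime.mem_or_mem h).elim hu hv, (smul_mul_smul_comm n u m v)⟩ }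
  have hdis : Disjoint (J : Set T) (A : Set T) := by
    rw [Set.disjoint_left]
    rintro a ha ⟨n, u, hn, hu, rfl⟩
    refine hu (hJQ fun v hv => Subtype.ext (AddMonoidHom.ext fun g => ?_))
    have h := DFunLike.congr_fun (congrArg Subtype.val (ha v hv)) g
    change n • _ = (0 : ℤ) at h
    exact (smul_eq_zero.mp h).resolve_left hn
  obtain ⟨P, hPprime, hJP, hPA⟩ := Ideal.exists_le_prime_disjoint J A hdis
  have hPQ : P ≤ Q := fun a ha => by
    by_contra h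
    exact Set.disjoint_left.mp hPA ha ⟨1, a, one_ne_zero, h, (one_smul ℤ _).symm⟩
  let B := T ⧸ P
  have hinj : Function.Injective (algebraMap ℤ B) := by
    rw [injective_iff_map_eq_zero]
    intro n hn
    by_contra h0
    rw [← Ideal.Quotient.mk_algebraMap, Ideal.Quotient.eq_zero_iff_mem,
      Algebra.algebraMap_eq_smul_one] at hn
    exact Set.disjoint_left.mp hPA hn
      ⟨n, 1, h0, (Ideal.ne_top_iff_one Q).mp hQmax.ne_top, rfl⟩
  have : Module.IsTorsionFree ℤ B := Module.isTorsionFree_iff_algebraMap_injective.mpr hinj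
  have : Algebra.IsIntegral ℤ B := Algebra.IsIntegral.of_finite ℤ B
  have : Module.IsTorsionFree ℤ ℂ :=
    Module.isTorsionFree_iff_algebraMap_injective.mpr Int.cast_injective
  let θ : B →ₐ[ℤ] ℂ := IsAlgClosed.lift
  let θ' : B →ₐ[ℤ] integralClosure ℤ ℂ :=
    θ.codRestrict _ fun b => (Algebra.IsIntegral.isIntegral b).map θ
  let χ : CuspForm.heckeAlgebra M 2 ∅ →+* ℂ :=
    (θ.toRingHom.comp (Ideal.Quotient.mk P)).comp (toOpAlg M)
  obtain ⟨g₀, hg₀, hg₀χ⟩ := exists_eigenform_of_ringHom M (hasHeckeLattice M) χ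
  obtain ⟨g, hg, -, hgT, hgU⟩ :=
    Hecke.exists_normalizedEigenform_of_eigenvector χ hg₀.ne_zero hg₀χ
  -- the maximal ideal
  let Qb : Ideal B := Q.map (Ideal.Quotient.mk P)
  have hker : RingHom.ker (Ideal.Quotient.mk P) ≤ Q := by rwa [Ideal.mk_ker]
  have hQb : Qb.IsMaximal :=
    (Ideal.map_eq_top_or_isMaximal_of_surjective _ Ideal.Quotient.mk_surjective hQmax).resolve_left
      fun h => hQmax.ne_top (by
        have h' := congrArg (Ideal.comap (Ideal.Quotient.mk P)) h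
        rwa [Ideal.comap_map_of_surjective _ Ideal.Quotient.mk_surjective, Ideal.comap_top,
          ← RingHom.ker_eq_comap_bot, sup_eq_left.mpr hker] at h')
  let : Algebra B (integralClosure ℤ ℂ) := θ'.toRingHom.toAlgebra
  have : IsScalarTower ℤ B (integralClosure ℤ ℂ) := IsScalarTower.of_algHom θ'
  have : Algebra.IsIntegral B (integralClosure ℤ ℂ) :=
    ⟨fun a => (Algebra.IsIntegral.isIntegral (R := ℤ) a).tower_top⟩
  have hθker : RingHom.ker (algebraMap B (integralClosure ℤ ℂ)) ≤ Qb := by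
    have hθ : Function.Injective θ := by
      rw [injective_iff_map_eq_zero]
      intro b hb
      by_contra hb0
      obtain ⟨n, hn, hnb⟩ : ∃ n : ℤ, n ≠ 0 ∧ b ∣ algebraMap ℤ B n := by
        obtain ⟨q', hq', hdvd⟩ := (Algebra.IsIntegral.isIntegral (R := ℤ) b).isAlgebraic
          |>.exists_nonzero_dvd (mem_nonZeroDivisors_of_ne_zero hb0)
        exact ⟨q', hq', hdvd⟩
      obtain ⟨b', hb'⟩ := hnb
      have := congrArg θ hb'
      rw [map_mul, hb, zero_mul, AlgHom.commutes] at this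
      exact hn (Int.cast_injective (α := ℂ) (by simpa using this))
    intro b hb
    have : θ b = 0 := congrArg Subtype.val (RingHom.mem_ker.mp hb)
    rw [hθ (this.trans (map_zero θ).symm)]
    exact Qb.zero_mem
  obtain ⟨𝔪, hm, hmQ⟩ := Ideal.exists_ideal_over_maximal_of_isIntegral Qb hθker
  have hmem : ∀ t : T, t ∈ Q → θ' (Ideal.Quotient.mk P t) ∈ 𝔪 := fun t ht => by
    have : Ideal.Quotient.mk P t ∈ 𝔪.comap (algebraMap B (integralClosure ℤ ℂ)) := by
      rw [hmQ]; exact Ideal.mem_map_of_mem _ ht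
    exact this
  refine ⟨g, 𝔪, hg, hm, ?_, fun ℓ hℓS hℓ => ?_, ?_⟩
  · simpa using hmem _ hpQ
  · obtain ⟨t, ht, htg⟩ : ∃ t : T, (t : Module.End ℤ (cuspidalHoms ℤ (Gamma0 M) ℤ)) = heckeOp M hℓ ∧
        ModularFormClass.qCoeff g ℓ = θ (Ideal.Quotient.mk P t) := by
      by_cases hℓM : ℓ ∣ M
      · exact ⟨_, (coe_toOpAlg _).trans (shadowOf_U hℓ hℓM), hgU ℓ hℓ hℓM⟩
      · exact ⟨_, (coe_toOpAlg _).trans (shadowOf_T hℓ hℓM), hgT ℓ hℓ hℓM⟩
    refine ⟨θ' (Ideal.Quotient.mk P t), by rw [htg]; rfl, ?_⟩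
    have h1 : t - algebraMap ℤ T (c ℓ) ∈ Q := hIQ (by
      obtain ⟨w, hw⟩ := heig ℓ hℓ hℓS
      refine ⟨w, ?_⟩
      show (t : Module.End ℤ (cuspidalHoms ℤ (Gamma0 M) ℤ)) x - _ = _
      rw [ht, ← hw]
      rfl)
    simpa [Ideal.Quotient.mk_algebraMap] using hmem _ h1
  · rw [hgU q hq hqM]
    let t : T := toOpAlg M (CuspForm.heckeAlgebra.U hq hqM (Set.notMem_empty q))
    have h1 : t ^ 2 - 1 ∈ P := hJP fun v hv => by
      show ((t : Module.End ℤ (cuspidalHoms ℤ (Gamma0 M) ℤ)) * (t : Module.End ℤ (cuspidalHoms ℤ (Gamma0 M) ℤ)) * 1) v - v = 0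
      rw [mul_one, shadowOf_U hq hqM, Module.End.mul_apply, hU v hv, sub_self]
    have h2 := congrArg θ (Ideal.Quotient.eq.mpr h1)
    simpa [χ, t] using h2

/-- An integral class with `U_q² = 1` which is an eigen class modulo `p` gives an eigenform, new
at `q`, with congruent coefficients. -/
theorem exists_newAt_eigenform {M p q : ℕ} [NeZero M] (hp : p.Prime) (hq : q.Prime) (hqM : q ∣ M)
    (x : Additive (Gamma0 M) →+ ℤ) (hx : x ∈ cuspidalHoms ℤ (Gamma0 M) ℤ)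
    (hx0 : (Int.castAddHom (ZMod p)).comp x ≠ 0)
    (hU : heckeHom ℤ ℤ hq (heckeHom ℤ ℤ hq x) = x)
    (G : Set ℕ) (c : ℕ → ℤ)
    (hT : ∀ ℓ ∈ G, ∀ hℓ : ℓ.Prime, heckeHom ℤ (ZMod p) hℓ ((Int.castAddHom (ZMod p)).comp x) =
      c ℓ • (Int.castAddHom (ZMod p)).comp x) :
    ∃ (g : CuspForm (Gamma0 M) 2) (𝔪' : Ideal (integralClosure ℤ ℂ)),
      g.IsNormalizedEigenform ∧ 𝔪'.IsMaximal ∧ (p : integralClosure ℤ ℂ) ∈ 𝔪' ∧
      g.IsNewAt q ∧
      ∀ ℓ ∈ G, ℓ.Prime → ∃ a : integralClosure ℤ ℂ,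
        (a : ℂ) = ModularFormClass.qCoeff g ℓ ∧ a - (c ℓ : integralClosure ℤ ℂ) ∈ 𝔪' := by
  obtain ⟨g, 𝔪', hg, hmax, hpm, hcong, hq2⟩ :
      ∃ (g : CuspForm (Gamma0 M) 2) (𝔪' : Ideal (integralClosure ℤ ℂ)),
      g.IsNormalizedEigenform ∧ 𝔪'.IsMaximal ∧ (p : integralClosure ℤ ℂ) ∈ 𝔪' ∧
      (∀ ℓ ∈ G, ℓ.Prime → ∃ a : integralClosure ℤ ℂ, (a : ℂ) = ModularFormClass.qCoeff g ℓ ∧
        a - (c ℓ : integralClosure ℤ ℂ) ∈ 𝔪') ∧
      ModularFormClass.qCoeff g q ^ 2 = 1 := exists_eigenform_of_stable_submodule hp hq hqM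
    (LinearMap.ker (heckeOp M hq * heckeOp M hq - 1))
    (fun ℓ hℓ v hv => by
      have hcomm : Commute (heckeOp M hℓ) (heckeOp M hq) :=
        congrArg Subtype.val
          (mul_comm (⟨_, heckeOp_mem M hℓ⟩ : opAlg M) ⟨_, heckeOp_mem M hq⟩)
      simp only [LinearMap.mem_ker, LinearMap.sub_apply, Module.End.one_apply, sub_eq_zero] at hv ⊢
      rw [← Module.End.mul_apply, ← (hcomm.mul_right hcomm).eq, Module.End.mul_apply, hv])
    (fun v hv => by
      simp only [LinearMap.mem_ker, LinearMap.sub_apply, Module.End.one_apply, sub_eq_zero] at hv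
      exact hv)
    G c ⟨x, hx⟩
    (by
      simp only [LinearMap.mem_ker, LinearMap.sub_apply, Module.End.one_apply, sub_eq_zero]
      exact Subtype.ext hU)
    (fun ⟨w, hw⟩ => hx0 (by
      have := congrArg Subtype.val hw
      change x = _ at this
      rw [this]
      ext g
      simp))
    (fun ℓ hℓ hℓG => by
      have : NeZero p := ⟨hp.ne_zero⟩
      refine exists_eq_smul_of_cast_eq_zero _ ?_
      have h := hT ℓ hℓG hℓ
      rw [intCast_comp_heckeOp_zmod hℓ (⟨x, hx⟩ : cuspidalHoms ℤ (Gamma0 M) ℤ)] at h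
      refine AddMonoidHom.ext fun g => ?_
      have hg := DFunLike.congr_fun h g
      simp only [AddMonoidHom.comp_apply, AddMonoidHom.smul_apply, AddMonoidHom.zero_apply,
        Submodule.coe_sub, SetLike.val_smul, AddMonoidHom.sub_apply, map_sub, map_zsmul,
        sub_eq_zero] at hg ⊢
      exact hg)
  exact ⟨g, 𝔪', hg, hmax, hpm, hq2, hcong⟩

end Fermat.Agent.LevelRaise
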