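import Fermat.Agent.LevelRaise.Crossing
import Fermat.Agent.LevelRaise.Crossing.Transfer
import Fermat.Agent.LevelRaise.Degeneracy

/-!
# Intersection homomorphisms, Hecke operators and transfers
-/

set_option autoImplicit false

noncomputable section

open CongruenceSubgroup ModularCurve.Period
open Fermat.Agent.Periods Fermat.Agent.LevelRaise.Degeneracy
open scoped MatrixGroups ComplexConjugate

namespace Fermat.Agent.LevelRaise

variable {N : ℕ}

/-- `crossHom` in terms of `Crossing.crossing`. -/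
theorem crossHom_eq_neg_crossing (N : ℕ) (r t : Vec) :
    crossHom N r t = -Crossing.crossing (Gamma0 N) (r 0, r 1) (t 0, t 1) := by
  have hside : ∀ (g : Gamma0 N) (z : UpperHalfPlane),
      side (slVec g r) (slVec g t) z = -Crossing.side (Crossing.vmul (gammaMat g) (r 0, r 1))
        (Crossing.vmul (gammaMat g) (t 0, t 1)) z := by
    intro g z
    have h1 : ∀ x : Vec, slVec g x 0 = (Crossing.vmul (gammaMat g) (x 0, x 1)).1 ∧
        slVec g x 1 = (Crossing.vmul (gammaMat g) (x 0, x 1)).2 := fun x => by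
      simp [slVec, Crossing.vmul, Matrix.mulVec, dotProduct, Fin.sum_univ_two]
    set U := Crossing.vmul (gammaMat g) (r 0, r 1)
    set V := Crossing.vmul (gammaMat g) (t 0, t 1)
    have h2 : (((slVec g r 0 * slVec g t 1 - slVec g r 1 * slVec g t 0 : ℤ) : ℝ) *
        (conj (lineForm (slVec g r) z) * lineForm (slVec g t) z).re) = -Crossing.form U V z := by
      simp only [lineForm, (h1 r).1, (h1 r).2, (h1 t).1, (h1 t).2, Crossing.form, Crossing.vdet,
        U, V]
      simp
      ring
    rw [side, h2, Crossing.side, Left.sign_neg]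
    simp
  refine AddMonoidHom.ext fun x => ?_
  obtain ⟨γ, rfl⟩ := Additive.ofMul.surjective x
  have hmob : ((((γ : SL(2, ℤ)) • UpperHalfPlane.I : UpperHalfPlane)) : ℂ) =
      Crossing.mob (gammaMat γ) Complex.I := by
    rw [UpperHalfPlane.coe_specialLinearGroup_apply]
    simp [Crossing.mob, Crossing.mobDen]
  show crossSum N r t UpperHalfPlane.I _ =
    -Crossing.cross (Gamma0 N) (r 0, r 1) (t 0, t 1) Complex.I (Crossing.mob (gammaMat γ) Complex.I)
  rw [crossSum, Crossing.cross, ← finsum_neg_distrib]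
  refine finsum_congr fun g => ?_
  simp only [cross, hside, Crossing.term, toMul_ofMul, hmob]
  simp
  ring

theorem mulVec_pair (M : IntMat) (r : Vec) :
    ((Matrix.mulVec M r) 0, (Matrix.mulVec M r) 1) = Crossing.vmul M (r 0, r 1) := by
  simp [Crossing.vmul, Matrix.mulVec, dotProduct, Fin.sum_univ_two]

theorem adjugate_gammaMat {Γ : Subgroup SL(2, ℤ)} (g : Γ) :
    (gammaMat g).adjugate = gammaMat g⁻¹ := by
  simp [gammaMat, Matrix.SpecialLinearGroup.coe_inv]

theorem adjugate_adjugate_intMat (X : IntMat) : X.adjugate.adjugate = X := by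
  apply intMat_ext <;> simp [Matrix.adjugate_fin_two]

/-- Bijection data for `Crossing.transfer_crossing`. -/
theorem exists_sweep {Δ Γ : Subgroup SL(2, ℤ)} {ι κ : Type*} [Fintype ι] [Fintype κ]
    {M : ι → IntMat} (hM : IsFamily Δ Γ M) (M' : κ → IntMat) (hdet' : ∀ j, (M' j).det ≠ 0)
    (hsep' : ∀ (i j : κ) (g : Γ), M' i = gammaMat g * M' j → i = j)
    (hex : ∀ i (g : Δ), ∃ j, ∃ h : Γ, (M i).adjugate * gammaMat g = gammaMat h * M' j)
    (hex' : ∀ j (h : Γ), ∃ i, ∃ g : Δ, (M i).adjugate * gammaMat g = gammaMat h * M' j) :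
    ∃ F : ι × Δ → κ × Γ, Function.Bijective F ∧
      ∀ x, (M x.1).adjugate * gammaMat x.2 = gammaMat (F x).2 * M' (F x).1 := by
  choose J H hJH using hex
  refine ⟨fun x => (J x.1 x.2, H x.1 x.2), ⟨?_, ?_⟩, fun x => hJH x.1 x.2⟩
  · rintro ⟨i, g⟩ ⟨i', g'⟩ he
    simp only [Prod.mk.injEq] at he
    have h1 : (M i).adjugate * gammaMat g = (M i').adjugate * gammaMat g' := by
      rw [hJH, hJH, he.1, he.2]
    have h2 := congrArg Matrix.adjugate h1
    rw [Matrix.adjugate_mul_distrib, Matrix.adjugate_mul_distrib, adjugate_gammaMat,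
      adjugate_gammaMat, adjugate_adjugate_intMat, adjugate_adjugate_intMat] at h2
    have h3 : M i = gammaMat (g * g'⁻¹) * M i' := by
      rw [gammaMat_mul, Matrix.mul_assoc, ← h2, ← Matrix.mul_assoc, ← gammaMat_mul, mul_inv_cancel,
        gammaMat_one, Matrix.one_mul]
    obtain rfl := hM.sep i i' _ h3
    have h4 := intMat_mul_right_cancel (hM.det_ne i)
      (show gammaMat g⁻¹ * M i = gammaMat g'⁻¹ * M i from h2)
    rw [inv_injective (gammaMat_injective h4)]
  · rintro ⟨j, h⟩
    obtain ⟨i, g, hig⟩ := hex' j h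
    refine ⟨(i, g), ?_⟩
    have h1 : gammaMat (H i g) * M' (J i g) = gammaMat h * M' j := (hJH i g).symm.trans hig
    have h3 : M' (J i g) = gammaMat ((H i g)⁻¹ * h) * M' j := by
      rw [gammaMat_mul, Matrix.mul_assoc, ← h1, ← Matrix.mul_assoc, ← gammaMat_mul, inv_mul_cancel,
        gammaMat_one, Matrix.one_mul]
    have hJ : J i g = j := hsep' _ _ _ h3
    have hH : H i g = h := gammaMat_injective (intMat_mul_right_cancel (hdet' j) (by rw [← h1, hJ]))
    simp [hJ, hH]

theorem heckeHom_crossHom [NeZero N] {ℓ : ℕ} (hℓ : ℓ.Prime) (hℓN : ¬ ℓ ∣ N) (r t : Vec) :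
    heckeHom ℤ ℤ hℓ (crossHom N r t) =
      ∑ i : HeckeIdx N ℓ,
        crossHom N (Matrix.mulVec (heckeMat N ℓ i) r) (Matrix.mulVec (heckeMat N ℓ i) t) := by
  have hF := isFamily_hecke (N := N) hℓ
  have hdetP : ∀ i, 0 < (heckeMat N ℓ i).det := fun i => by
    rw [heckeMat_det]; exact_mod_cast hℓ.pos
  -- adjugates of matrices of the Hecke set stay in it
  have hrep : ∀ Z : IntMat, Z.det = ℓ → InS N Z →
      ∃ k, ∃ g : Gamma0 N, Z.adjugate = gammaMat g * heckeMat N ℓ k := fun Z hd hZ =>
    exists_hecke_rep hℓ (by rw [Matrix.det_adjugate]; simpa using hd)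
      (by rw [Matrix.adjugate_fin_two]; simpa using hZ.1.neg_right) fun h => absurd h hℓN
  have hdet : ∀ (g : Gamma0 N) i, (gammaMat g * heckeMat N ℓ i).det = ℓ := fun g i => by
    rw [Matrix.det_mul, gammaMat_det, heckeMat_det, one_mul]
  obtain ⟨F, hFb, hFe⟩ := exists_sweep hF (heckeMat N ℓ) hF.det_ne hF.sep
    (fun i g => by
      obtain ⟨k, h, hk⟩ := hrep (gammaMat g⁻¹ * heckeMat N ℓ i) (hdet _ i)
        ((inS_gammaMat _).mul (inS_heckeMat hℓ i))
      exact ⟨k, h, by rw [← hk, Matrix.adjugate_mul_distrib, adjugate_gammaMat, inv_inv]⟩)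
    (fun j h => by
      obtain ⟨k, g, hk⟩ := hrep (gammaMat h * heckeMat N ℓ j) (hdet _ j)
        ((inS_gammaMat _).mul (inS_heckeMat hℓ j))
      refine ⟨k, g⁻¹, ?_⟩
      have := congrArg Matrix.adjugate hk
      rw [adjugate_adjugate_intMat, Matrix.adjugate_mul_distrib, adjugate_gammaMat] at this
      exact this.symm)
  rw [heckeHom_eq_transfer, crossHom_eq_neg_crossing, map_neg,
    Crossing.transfer_crossing hF hdetP (heckeMat N ℓ) F hFb hFe, ← Finset.sum_neg_distrib]
  exact Finset.sum_congr rfl fun i _ => by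
    rw [crossHom_eq_neg_crossing, mulVec_pair, mulVec_pair]

theorem degTr_crossHom [NeZero N] {q : ℕ} (hq : q.Prime) (hqN : ¬ q ∣ N) (r t : Vec) :
    degTr N ℤ hq hqN (crossHom (N * q) r t) = crossHom N r t := by
  have hF := isFamily_res (N := N) hq hqN
  choose ρ hρ using exists_resRep (N := N) (q := q)
  have hadj : ∀ i, (resRep N q i).adjugate = gammaMat (ρ i)⁻¹ := fun i => by
    rw [← hρ, adjugate_gammaMat]
  obtain ⟨F, hFb, hFe⟩ := exists_sweep hF (fun _ : Unit => (1 : IntMat)) (fun _ => by simp)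
    (fun _ _ _ _ => Subsingleton.elim _ _)
    (fun i g => by
      obtain ⟨u, hu⟩ := exists_gamma0_eq (N := N) (gammaMat_det g)
        ((Int.natCast_dvd_natCast.2 (dvd_mul_right N q)).trans (inS_gammaMat _).1)
      exact ⟨(), (ρ i)⁻¹ * u, by rw [hadj, gammaMat_mul, hu, Matrix.mul_one]⟩)
    (fun _ h => by
      obtain ⟨i, W, hW, hWc⟩ := exists_cover_res hq hqN (inS_gammaMat h⁻¹).1
      have hd : W.det = 1 := by
        have := congrArg Matrix.det hW
        rwa [gammaMat_det, Matrix.det_mul, resRep_det, mul_one, eq_comm] at this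
      obtain ⟨g, hg⟩ := exists_gamma0_eq hd hWc
      refine ⟨i, g⁻¹, ?_⟩
      have := congrArg Matrix.adjugate hW
      rw [Matrix.adjugate_mul_distrib, adjugate_gammaMat, inv_inv, ← hg, adjugate_gammaMat] at this
      rw [Matrix.mul_one, this])
  rw [degTr, crossHom_eq_neg_crossing, map_neg,
    Crossing.transfer_crossing hF (fun i => by rw [resRep_det]; exact one_pos)
      (fun _ : Unit => (1 : IntMat)) F hFb hFe,
    crossHom_eq_neg_crossing]
  simp

theorem degTr'_crossHom [NeZero N] {q : ℕ} (hq : q.Prime) (hqN : ¬ q ∣ N) (r t : Vec) :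
    degTr' N ℤ hq hqN (crossHom (N * q) r t) =
      crossHom N ![(q : ℤ) * r 0, r 1] ![(q : ℤ) * t 0, t 1] := by
  have hF := isFamily_deg (N := N) hq hqN
  choose ρ hρ using exists_upRep (N := N) hq hqN
  have hq0 : (deltaMat q).det ≠ 0 := by rw [deltaMat_det]; exact_mod_cast hq.ne_zero
  have hadj : ∀ i, (degRep N q i).adjugate = gammaMat (ρ i)⁻¹ * deltaMat q := fun i => by
    rw [degRep, Matrix.adjugate_mul_distrib, ← hρ, adjugate_gammaMat]
    congr 1
    apply intMat_ext <;> simp [deltaBar, deltaMat, Matrix.adjugate_fin_two]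
  obtain ⟨F, hFb, hFe⟩ := exists_sweep hF (fun _ : Unit => deltaMat q) (fun _ => hq0)
    (fun _ _ _ _ => Subsingleton.elim _ _)
    (fun i g => by
      obtain ⟨a, b, c, d, hg, hdet, hc⟩ := gammaMat_entries g
      push_cast at hc
      obtain ⟨s, rfl⟩ := hc
      obtain ⟨u, hu⟩ := exists_gamma0_of_entries (N := N) (a := a) (b := (q : ℤ) * b)
        (c := (N : ℤ) * s) (d := d) (by linear_combination hdet) (dvd_mul_right _ _)
      refine ⟨(), (ρ i)⁻¹ * u, ?_⟩
      rw [hadj, gammaMat_mul, Matrix.mul_assoc, Matrix.mul_assoc]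
      congr 1
      rw [hg, hu]
      apply intMat_ext <;> simp [mul_entry, deltaMat] <;> ring)
    (fun _ h => by
      obtain ⟨i, W, hW, hWb, hWc⟩ := exists_cover_up hq hqN (gammaMat h⁻¹)
      have hd : W.det = 1 := by
        have := congrArg Matrix.det hW
        rwa [gammaMat_det, Matrix.det_mul, upRep_det hq hqN, mul_one, eq_comm] at this
      obtain ⟨g, hg⟩ := deltaBar_conj hq hqN hd (hWc (inS_gammaMat _).1) hWb
      refine ⟨i, g⁻¹, ?_⟩
      have hX : deltaBar q * gammaMat h⁻¹ = gammaMat g * degRep N q i := by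
        rw [hW, ← Matrix.mul_assoc, hg, degRep, Matrix.mul_assoc]
      have := congrArg Matrix.adjugate hX
      rw [Matrix.adjugate_mul_distrib, Matrix.adjugate_mul_distrib, adjugate_gammaMat,
        adjugate_gammaMat, inv_inv] at this
      rw [← this]
      congr 1
      apply intMat_ext <;> simp [deltaBar, deltaMat, Matrix.adjugate_fin_two])
  rw [degTr', crossHom_eq_neg_crossing, map_neg,
    Crossing.transfer_crossing hF (fun i => by rw [degRep_det hq hqN]; exact_mod_cast hq.pos)
      (fun _ : Unit => deltaMat q) F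
      hFb hFe, crossHom_eq_neg_crossing]
  simp [Crossing.vmul, deltaMat]

end Fermat.Agent.LevelRaise
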