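/-
The kernel of the degeneracy maps (Ihara's lemma) is Eisenstein: `T_ℓ φ = (ℓ + 1) φ`.
-/
import Fermat.Agent.LevelRaise.Ihara
import Fermat.Agent.Periods.Hecke

namespace Fermat.Agent.LevelRaise.Ihara

open CongruenceSubgroup ModularCurve.Period
open Fermat.Agent.Periods

variable {A : Type*} [AddCommGroup A] {R : Type*} [Semiring R] [Module R A] {N ℓ : ℕ}

/-- A homomorphism which is a character of `a mod N` is a `T_ℓ`-eigenvector of eigenvalue `ℓ + 1`. -/
theorem heckeHom_eq_of_char (hℓ : ℓ.Prime) (hℓN : ¬ ℓ ∣ N) (φ : Additive (Gamma0 N) →+ A)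
    (χ : ZMod N → A) (hmul : ∀ x y : ZMod N, IsUnit x → IsUnit y → χ (x * y) = χ x + χ y)
    (hφ : ∀ g : Gamma0 N, φ (Additive.ofMul g) = χ (entry g 0 0 : ZMod N)) :
    heckeHom R A hℓ φ = (ℓ + 1) • φ := by
  refine AddMonoidHom.ext fun x => ?_
  obtain ⟨γ, rfl⟩ := Additive.ofMul.surjective x
  have hu : ∀ g : Gamma0 N, IsUnit (entry g 0 0 : ZMod N) := fun g => by
    have h : (entry g 0 0 : ZMod N) * (entry g 1 1 : ZMod N) = 1 := by
      have h0 : ((entry g 1 0 : ℤ) : ZMod N) = 0 :=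
        (ZMod.intCast_zmod_eq_zero_iff_dvd _ N).mpr (entry_dvd g)
      have := congrArg (Int.cast : ℤ → ZMod N) (entry_det g)
      push_cast at this
      rwa [h0, mul_zero, sub_zero] at this
    exact .of_mul_eq_one _ h
  let m : HeckeIdx N ℓ → ZMod N := fun i => ((heckeMat N ℓ i 0 0 : ℤ) : ZMod N)
  have hlu : IsUnit ((ℓ : ℕ) : ZMod N) :=
    (ZMod.isUnit_iff_coprime ℓ N).mpr ((Nat.Prime.coprime_iff_not_dvd hℓ).mpr hℓN)
  have hm : ∀ i, IsUnit (m i) := by
    rintro ⟨_ | j, hi⟩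
    · simpa [m, heckeMat] using hlu
    · simp [m, heckeMat]
  have key : ∀ i, m i * (entry γ 0 0 : ZMod N)
      = (entry (transferElt hℓ γ i) 0 0 : ZMod N) * m (transferIdx hℓ γ i) := by
    intro i
    have h := congrFun (congrFun (transfer_spec hℓ γ i) 0) 0
    rw [Matrix.mul_apply, Matrix.mul_apply, Fin.sum_univ_two, Fin.sum_univ_two] at h
    have h10 : heckeMat N ℓ (transferIdx hℓ γ i) 1 0 = 0 := by
      obtain ⟨_ | j, hj⟩ := transferIdx hℓ γ i <;> simp [heckeMat]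
    have hc : ((entry γ 1 0 : ℤ) : ZMod N) = 0 :=
      (ZMod.intCast_zmod_eq_zero_iff_dvd _ N).mpr (entry_dvd γ)
    rw [h10, mul_zero, add_zero] at h
    have := congrArg (Int.cast : ℤ → ZMod N) h
    push_cast at this
    change m i * (entry γ 0 0 : ZMod N) + _ * ((entry γ 1 0 : ℤ) : ZMod N) = _ at this
    rw [hc, mul_zero, add_zero] at this
    exact this
  have hval : ∀ i, φ (Additive.ofMul (transferElt hℓ γ i))
      = χ (entry γ 0 0 : ZMod N) + (χ (m i) - χ (m (transferIdx hℓ γ i))) := fun i => by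
    have h1 := congrArg χ (key i)
    rw [hmul _ _ (hm i) (hu γ), hmul _ _ (hu _) (hm _)] at h1
    rw [hφ, eq_sub_of_add_eq h1.symm]
    abel
  have hcard : Fintype.card (HeckeIdx N ℓ) = ℓ + 1 := by
    rw [Fintype.card_congr (Equiv.subtypeUnivEquiv fun _ _ => hℓN), Fintype.card_option,
      Fintype.card_fin]
  rw [heckeHom_apply, AddMonoidHom.smul_apply, hφ γ]
  simp only [hval, Finset.sum_add_distrib, Finset.sum_sub_distrib]
  rw [(transferIdx_bijective hℓ γ).sum_comp (fun i => χ (m i)), sub_self, add_zero,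
    Finset.sum_const, Finset.card_univ, hcard]

/-- **Ihara's lemma**, Eisenstein form. -/
theorem heckeHom_degeneracy_kernel {q p : ℕ} (hN : 0 < N) (hq : q.Prime) (hqN : ¬ q ∣ N)
    (hp : p.Prime) (htor : ∀ x : A, p • x = 0) {φ ψ : Additive (Gamma0 N) →+ A}
    (hφ : IsParabolicHom (Gamma0 N) φ) (hψ : IsParabolicHom (Gamma0 N) ψ)
    (hrel : DegeneracyRel q φ ψ) (hℓ : ℓ.Prime) (hℓN : ¬ ℓ ∣ N) :
    heckeHom R A hℓ φ = (ℓ + 1) • φ ∧ heckeHom R A hℓ ψ = (ℓ + 1) • ψ := by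
  obtain ⟨χ, hmul, hval⟩ := exists_char_of_degeneracy_kernel hN hq hqN hp htor hφ hψ hrel
  exact ⟨heckeHom_eq_of_char hℓ hℓN φ χ hmul fun g => (hval g).1,
    heckeHom_eq_of_char hℓ hℓN ψ χ hmul fun g => (hval g).2⟩

end Fermat.Agent.LevelRaise.Ihara
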