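import Fermat.Agent.LevelRaise.CuspClass
import Fermat.Agent.LevelRaise.CrossingHecke
import Fermat.Agent.LevelRaise.CrossingParabolic
import Fermat.Agent.LevelRaise.IharaHecke

/-!
# The two transfers are jointly surjective up to Eisenstein operators

Modulo an odd prime `p`, for a prime `ℓ ≡ 1 (mod N)` and `e = T_ℓ - (ℓ + 1)`, the image of
`x ↦ (degTr x, degTr' x)` contains `(e² y₁, e² y₂)` for all cuspidal `y₁, y₂`.
-/

set_option autoImplicit false

noncomputable section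

open CongruenceSubgroup ModularCurve.Period
open Fermat.Agent.Periods Fermat.Agent.LevelRaise.Ihara
open scoped MatrixGroups

namespace Fermat.Agent.LevelRaise

theorem slVec_mul (g h : SL(2, ℤ)) (v : Vec) : slVec (g * h) v = slVec g (slVec h v) := by
  rw [slVec, slVec, slVec, Matrix.SpecialLinearGroup.coe_mul, Matrix.mulVec_mulVec]

theorem slVec_ne_zero (g : SL(2, ℤ)) {v : Vec} (hv : v ≠ 0) : slVec g v ≠ 0 := by
  intro h
  apply hv
  have h2 : slVec (g⁻¹ * g) v = 0 := by rw [slVec_mul, h]; simp [slVec]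
  simpa [slVec] using h2

theorem mulVec_ne_zero_of_det {M : IntMat} (hM : M.det ≠ 0) {v : Vec} (hv : v ≠ 0) :
    Matrix.mulVec M v ≠ 0 := fun h => hv (Matrix.eq_zero_of_mulVec_eq_zero hM h)

section Span

variable {N : ℕ} [NeZero N]

theorem crossHom_self {r : Vec} (hr : r ≠ 0) : crossHom N r r = 0 :=
  add_left_cancel (a := crossHom N r r) (by rw [crossHom_add N hr hr hr, add_zero])

/-- The class of the closed path attached to `γ`. -/
def loopClass (γ : Gamma0 N) : Additive (Gamma0 N) →+ ℤ :=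
  crossHom N ![1, 0] (slVec γ ![1, 0])

theorem infVec_ne_zero : (![1, 0] : Vec) ≠ 0 := fun h => by simpa using congrFun h 0

/-- The class of `r → γ r` does not depend on `r`. -/
theorem crossHom_loop {r : Vec} (hr : r ≠ 0) (γ : Gamma0 N) :
    crossHom N r (slVec γ r) = loopClass γ := by
  have hu := infVec_ne_zero
  have h1 : crossHom N r ![1, 0] + crossHom N ![1, 0] r = 0 := by
    rw [crossHom_add N hr hu hr, crossHom_self hr]
  rw [← crossHom_add N hr hu (slVec_ne_zero (γ : SL(2, ℤ)) hr),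
    ← crossHom_add N hu (slVec_ne_zero (γ : SL(2, ℤ)) hu) (slVec_ne_zero (γ : SL(2, ℤ)) hr),
    crossHom_slVec N]
  change crossHom N r ![1, 0] + (loopClass γ + crossHom N ![1, 0] r) = _
  rw [add_left_comm, h1, add_zero]

theorem loopClass_mul (γ δ : Gamma0 N) :
    loopClass (γ * δ) = loopClass γ + loopClass δ := by
  have hu := infVec_ne_zero
  have hγ := slVec_ne_zero (γ : SL(2, ℤ)) hu
  have hγδ := slVec_ne_zero ((γ * δ : Gamma0 N) : SL(2, ℤ)) hu
  rw [loopClass, ← crossHom_add N hu hγ hγδ, Subgroup.coe_mul, slVec_mul, crossHom_slVec N]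
  rfl

/-- The loop classes form a homomorphism. -/
def loopHom : Additive (Gamma0 N) →+ (Additive (Gamma0 N) →+ ℤ) :=
  AddMonoidHom.mk' (fun γ => loopClass (Additive.toMul γ)) fun γ δ =>
    loopClass_mul (Additive.toMul γ) (Additive.toMul δ)

theorem loopHom_apply (γ : Gamma0 N) : loopHom (Additive.ofMul γ) = loopClass γ := rfl

theorem loopClass_parabolic (γ : Gamma0 N)
    (h : ((γ : SL(2, ℤ)) : Matrix (Fin 2) (Fin 2) ℤ).trace ^ 2 = 4) : loopClass γ = 0 := by
  set G := ((γ : SL(2, ℤ)) : Matrix (Fin 2) (Fin 2) ℤ) with hG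
  have hdet : G 0 0 * G 1 1 - G 0 1 * G 1 0 = 1 := by
    rw [← Matrix.det_fin_two]; exact (γ : SL(2, ℤ)).2
  obtain ⟨ε, hε, htr⟩ : ∃ ε : ℤ, ε ≠ 0 ∧ G 0 0 + G 1 1 = 2 * ε ∧ ε * ε = 1 := by
    rw [Matrix.trace_fin_two] at h
    rcases sq_eq_sq_iff_eq_or_eq_neg.1 (show (G 0 0 + G 1 1) ^ 2 = (2 : ℤ) ^ 2 by rw [h]; ring)
      with h2 | h2
    · exact ⟨1, one_ne_zero, by omega, by ring⟩
    · exact ⟨-1, by norm_num, by omega, by ring⟩
  obtain ⟨v, hv, hfix⟩ : ∃ v : Vec, v ≠ 0 ∧ slVec γ v = ε • v := by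
    by_cases hz : G 0 1 = 0 ∧ ε - G 0 0 = 0
    · refine ⟨![0, 1], fun h => by simpa using congrFun h 1, ?_⟩
      ext i
      fin_cases i <;> simp [slVec, ← hG, Matrix.mulVec, dotProduct, Fin.sum_univ_two] <;> omega
    · refine ⟨![G 0 1, ε - G 0 0], fun h => hz ⟨by simpa using congrFun h 0,
        by simpa using congrFun h 1⟩, ?_⟩
      ext i
      fin_cases i <;> simp [slVec, ← hG, Matrix.mulVec, dotProduct, Fin.sum_univ_two]
      · ring
      · linear_combination -hdet + ε * htr.1 - htr.2 + 2 * htr.2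
  rw [← crossHom_loop hv, hfix, crossHom_zsmul_right N hε, crossHom_self hv]

theorem heckeHom_loopClass {ℓ : ℕ} (hℓ : ℓ.Prime) (hℓN : ¬ ℓ ∣ N) (γ : Gamma0 N) :
    heckeHom ℤ ℤ hℓ (loopClass γ) = ∑ i, loopClass (transferElt hℓ γ i) := by
  have hu := infVec_ne_zero
  set m : HeckeIdx N ℓ → Vec := fun i => Matrix.mulVec (heckeMat N ℓ i) ![1, 0] with hm
  have hm0 : ∀ i, m i ≠ 0 := fun i => mulVec_ne_zero_of_det (heckeMat_det_ne_zero hℓ i) hu
  have hsplit : ∀ i, crossHom N (m i) (Matrix.mulVec (heckeMat N ℓ i) (slVec γ ![1, 0])) =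
      loopClass (transferElt hℓ γ i) +
        (crossHom N (m i) ![1, 0] - crossHom N (m (transferIdx hℓ γ i)) ![1, 0]) := by
    intro i
    have hmv : Matrix.mulVec (heckeMat N ℓ i) (slVec γ ![1, 0]) =
        slVec (transferElt hℓ γ i) (m (transferIdx hℓ γ i)) := by
      simp only [slVec, hm, Matrix.mulVec_mulVec, transfer_spec hℓ γ i]
    have hj := hm0 (transferIdx hℓ γ i)
    have hneg : crossHom N ![1, 0] (m (transferIdx hℓ γ i)) =
        - crossHom N (m (transferIdx hℓ γ i)) ![1, 0] := by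
      rw [eq_neg_iff_add_eq_zero, crossHom_add N hu hj hu, crossHom_self hu]
    rw [hmv, ← crossHom_add N (hm0 i) hj (slVec_ne_zero _ hj), crossHom_loop hj,
      ← crossHom_add N (hm0 i) hu hj, hneg]
    abel
  rw [loopClass, heckeHom_crossHom hℓ hℓN]
  refine (Finset.sum_congr rfl fun i _ => hsplit i).trans ?_
  simp only [Finset.sum_add_distrib, Finset.sum_sub_distrib]
  rw [(transferIdx_bijective hℓ γ).sum_comp (fun i => crossHom N (m i) ![1, 0]), sub_self,
    add_zero]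

/-- For `ℓ ≡ 1 (mod N)` the operator `T_ℓ - (ℓ + 1)` maps every intersection class into the span of
the loop classes. -/
theorem eisOp_crossHom_mem {ℓ : ℕ} (hℓ : ℓ.Prime) (hℓN : ¬ ℓ ∣ N) (hℓ1 : (ℓ : ZMod N) = 1)
    {r t : Vec} (hr : r ≠ 0) (ht : t ≠ 0) :
    heckeHom ℤ ℤ hℓ (crossHom N r t) - (ℓ + 1) • crossHom N r t ∈
      AddSubgroup.closure (Set.range (loopClass (N := N))) := by
  have hcard : Fintype.card (HeckeIdx N ℓ) = ℓ + 1 := by
    rw [Fintype.card_congr (Equiv.subtypeUnivEquiv fun _ _ => hℓN), Fintype.card_option,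
      Fintype.card_fin]
  rw [heckeHom_crossHom hℓ hℓN, ← hcard, ← Finset.card_univ, ← Finset.sum_const,
    ← Finset.sum_sub_distrib]
  refine AddSubgroup.sum_mem _ fun i _ => ?_
  have hR := mulVec_ne_zero_of_det (heckeMat_det_ne_zero hℓ i) hr
  have hT := mulVec_ne_zero_of_det (heckeMat_det_ne_zero hℓ i) ht
  have key : ∀ v : Vec, v ≠ 0 → ∃ g : Gamma0 N,
      crossHom N v (Matrix.mulVec (heckeMat N ℓ i) v) = loopClass g := by
    intro v hv
    obtain ⟨g, c, c', hc, hc', h⟩ := exists_gamma0_heckeMat_mulVec hℓ hℓ1 i v hv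
    refine ⟨g, ?_⟩
    rw [← crossHom_zsmul_right N hc, h, crossHom_zsmul_right N hc']
    exact crossHom_loop hv g
  obtain ⟨g, hg⟩ := key r hr
  obtain ⟨g', hg'⟩ := key t ht
  have heq : crossHom N (Matrix.mulVec (heckeMat N ℓ i) r) (Matrix.mulVec (heckeMat N ℓ i) t) -
      crossHom N r t = loopClass g' - loopClass g := by
    have h1 := crossHom_add N hr hR hT
    have h2 := crossHom_add N hr ht hT
    rw [hg] at h1
    rw [hg'] at h2
    linear_combination (norm := abel) h1 - h2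
  rw [heq]
  exact AddSubgroup.sub_mem _ (AddSubgroup.subset_closure ⟨g', rfl⟩)
    (AddSubgroup.subset_closure ⟨g, rfl⟩)

end Span

section Coker

variable {N q : ℕ} [NeZero N] (hq : q.Prime) (hqN : ¬ q ∣ N) (p : ℕ)

/-- Reduction modulo `p`. -/
abbrev redHom (N p : ℕ) : (Additive (Gamma0 N) →+ ℤ) →+ (Additive (Gamma0 N) →+ ZMod p) :=
  AddMonoidHom.compHom (Int.castAddHom (ZMod p))

theorem redHom_mem_cuspidalHoms {M : ℕ} {x : Additive (Gamma0 M) →+ ℤ}
    (hx : x ∈ cuspidalHoms ℤ (Gamma0 M) ℤ) : redHom M p x ∈ cuspidalHoms ℤ (Gamma0 M) (ZMod p) :=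
  fun γ hγ => show Int.castAddHom (ZMod p) (x (Additive.ofMul γ)) = 0 by rw [hx γ hγ, map_zero]

/-- The image of the cuspidal classes under the pair of transfers. -/
def trImage : Submodule ℤ
    ((Additive (Gamma0 N) →+ ZMod p) × (Additive (Gamma0 N) →+ ZMod p)) :=
  (cuspidalHoms ℤ (Gamma0 (N * q)) (ZMod p)).map
    ((degTr N (ZMod p) hq hqN).prod (degTr' N (ZMod p) hq hqN))

/-- Sum of the loop classes of level `N`, placed in one of the two factors, modulo the image. -/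
def loopQuot (j : (Additive (Gamma0 N) →+ ZMod p) →ₗ[ℤ]
      (Additive (Gamma0 N) →+ ZMod p) × (Additive (Gamma0 N) →+ ZMod p)) :
    Additive (Gamma0 N) →+ _ ⧸ trImage hq hqN p :=
  ((trImage hq hqN p).mkQ.comp j).toAddMonoidHom.comp ((redHom N p).comp loopHom)

theorem loopQuot_apply (j : (Additive (Gamma0 N) →+ ZMod p) →ₗ[ℤ]
      (Additive (Gamma0 N) →+ ZMod p) × (Additive (Gamma0 N) →+ ZMod p)) (γ : Gamma0 N) :
    loopQuot hq hqN p j (Additive.ofMul γ) =
      (trImage hq hqN p).mkQ (j (redHom N p (loopClass γ))) := rfl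

theorem loopQuot_parabolic (j : (Additive (Gamma0 N) →+ ZMod p) →ₗ[ℤ]
      (Additive (Gamma0 N) →+ ZMod p) × (Additive (Gamma0 N) →+ ZMod p)) :
    IsParabolicHom (Gamma0 N) (loopQuot hq hqN p j) := fun γ h => by
  rw [loopQuot_apply, loopClass_parabolic γ h, map_zero, map_zero, map_zero]

omit [NeZero N] in
theorem smul_quot_eq_zero
    (x : ((Additive (Gamma0 N) →+ ZMod p) × (Additive (Gamma0 N) →+ ZMod p)) ⧸ trImage hq hqN p) :
    p • x = 0 := by
  obtain ⟨⟨a, b⟩, rfl⟩ := Submodule.mkQ_surjective _ x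
  rw [← map_nsmul]
  convert map_zero (trImage hq hqN p).mkQ using 2
  ext γ <;> simp

theorem degeneracyRel_loopQuot :
    DegeneracyRel q (loopQuot hq hqN p (LinearMap.inl ℤ _ _))
      (-loopQuot hq hqN p (LinearMap.inr ℤ _ _)) := by
  intro g g' h00 h01 h10 h11
  have : NeZero q := ⟨hq.ne_zero⟩
  rw [AddMonoidHom.neg_apply, ← add_eq_zero_iff_eq_neg, loopQuot_apply, loopQuot_apply, ← map_add,
    Submodule.mkQ_apply, Submodule.Quotient.mk_eq_zero]
  set u : Vec := ![1, 0] with hu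
  have hgmem : (g : SL(2, ℤ)) ∈ Gamma0 (N * q) := by
    obtain ⟨m, hm⟩ := entry_dvd g'
    rw [hm] at h10
    refine Gamma0_mem.2 ((ZMod.intCast_zmod_eq_zero_iff_dvd _ _).2 ⟨m, ?_⟩)
    rw [show ((g : SL(2, ℤ)) : Matrix (Fin 2) (Fin 2) ℤ) 1 0 = entry g 1 0 from rfl, h10]
    push_cast
    ring
  obtain ⟨g₁, hg₁⟩ : ∃ g₁ : Gamma0 (N * q), (g₁ : SL(2, ℤ)) = g := ⟨⟨_, hgmem⟩, rfl⟩
  refine ⟨redHom (N * q) p (crossHom (N * q) u (slVec g₁ u)),
    redHom_mem_cuspidalHoms p (crossHom_slVec_self_mem_cuspidalHoms _ infVec_ne_zero g₁), ?_⟩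
  rw [hg₁, LinearMap.inl_apply, LinearMap.inr_apply, Prod.mk_add_mk, add_zero, zero_add]
  refine Prod.ext ?_ ?_
  · show degTr N (ZMod p) hq hqN ((Int.castAddHom (ZMod p)).comp _) = _
    rw [degTr_comp hq hqN, degTr_crossHom hq hqN]
    rfl
  · show degTr' N (ZMod p) hq hqN ((Int.castAddHom (ZMod p)).comp _) = _
    rw [degTr'_comp hq hqN, degTr'_crossHom hq hqN]
    have e1 : (![(q : ℤ) * u 0, u 1] : Vec) = (q : ℤ) • u := by
      ext i; fin_cases i <;> simp [hu]
    have e2 : (![(q : ℤ) * slVec g u 0, slVec g u 1] : Vec) = (q : ℤ) • slVec g' u := by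
      ext i
      fin_cases i <;> simp [hu, slVec, Matrix.mulVec, dotProduct, Fin.sum_univ_two]
      · exact Or.inl h00.symm
      · exact h10
    rw [e1, e2, crossHom_zsmul_left N (by exact_mod_cast hq.ne_zero),
      crossHom_zsmul_right N (by exact_mod_cast hq.ne_zero)]
    rfl

variable {p}

/-- The image of the pair of transfers contains the image of the square of an Eisenstein
operator. -/
theorem eisOp_sq_mem_trImage (hp : p.Prime) (hp2 : p ≠ 2) {ℓ : ℕ} (hℓ : ℓ.Prime) (hℓN : ¬ ℓ ∣ N)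
    (hℓ1 : (ℓ : ZMod N) = 1) {y₁ y₂ : Additive (Gamma0 N) →+ ZMod p}
    (hy₁ : y₁ ∈ cuspidalHoms ℤ (Gamma0 N) (ZMod p))
    (hy₂ : y₂ ∈ cuspidalHoms ℤ (Gamma0 N) (ZMod p)) :
    let e := heckeHom ℤ (ZMod p) hℓ - ((ℓ + 1 : ℕ) : ℤ) • LinearMap.id
    (e (e y₁), e (e y₂)) ∈ trImage hq hqN p := by
  intro e
  have hE := heckeHom_degeneracy_kernel (R := ℤ) (Nat.pos_of_ne_zero (NeZero.ne N)) hq hqN hp
    (smul_quot_eq_zero hq hqN p) (loopQuot_parabolic hq hqN p (LinearMap.inl ℤ _ _))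
    (fun γ h => by rw [AddMonoidHom.neg_apply, loopQuot_parabolic hq hqN p _ γ h, neg_zero])
    (degeneracyRel_loopQuot hq hqN p) hℓ hℓN
  have he : ∀ x : Additive (Gamma0 N) →+ ℤ, e (redHom N p x) =
      redHom N p (heckeHom ℤ ℤ hℓ x - (ℓ + 1) • x) := by
    intro x
    rw [map_sub, map_nsmul]
    show heckeHom ℤ (ZMod p) hℓ ((Int.castAddHom (ZMod p)).comp x) - _ = _
    rw [heckeHom_comp]
    congr 1
    exact natCast_zsmul _ _
  -- the statement for one factor
  have key : ∀ j, heckeHom ℤ _ hℓ (loopQuot hq hqN p j) = (ℓ + 1) • loopQuot hq hqN p j →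
      ∀ y ∈ cuspidalHoms ℤ (Gamma0 N) (ZMod p), j (e (e y)) ∈ trImage hq hqN p := by
    intro j hj
    have h1 : ∀ γ : Gamma0 N, j (e (redHom N p (loopClass γ))) ∈ trImage hq hqN p := by
      intro γ
      rw [← Submodule.Quotient.mk_eq_zero, ← Submodule.mkQ_apply, he, heckeHom_loopClass hℓ hℓN]
      have := DFunLike.congr_fun hj (Additive.ofMul γ)
      rw [heckeHom_apply, AddMonoidHom.smul_apply] at this
      simp only [loopQuot_apply] at this
      simp only [map_sub, map_sum, map_nsmul, this, sub_self]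
    intro y hy
    refine Submodule.span_induction (p := fun y _ => j (e (e y)) ∈ trImage hq hqN p) ?_ (by simp)
      (fun a b _ _ ha hb => by simpa using Submodule.add_mem _ ha hb)
      (fun c a _ ha => by simpa using Submodule.smul_mem _ c ha)
      (span_crossHom_eq_cuspidalHoms N hp hp2 hy)
    rintro _ ⟨g, rfl⟩
    show j (e (e (redHom N p _))) ∈ _
    rw [he]
    have hv : ∀ v : Vec, v ≠ 0 → slVec g v ≠ 0 := fun v hv => slVec_ne_zero g hv
    refine AddSubgroup.closure_induction (p := fun x _ => j (e (redHom N p x)) ∈ trImage hq hqN p)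
      ?_ (by simp) (fun a b _ _ ha hb => by simpa only [map_add] using Submodule.add_mem _ ha hb)
      (fun a _ ha => by simpa only [map_neg] using Submodule.neg_mem _ ha)
      (eisOp_crossHom_mem hℓ hℓN hℓ1 (hv _ infVec_ne_zero)
        (hv _ fun h => by simpa using congrFun h 1))
    rintro _ ⟨γ, rfl⟩
    exact h1 γ
  have h2 : heckeHom ℤ _ hℓ (loopQuot hq hqN p (LinearMap.inr ℤ _ _)) =
      (ℓ + 1) • loopQuot hq hqN p (LinearMap.inr ℤ _ _) := by
    simpa using hE.2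
  have := Submodule.add_mem _ (key (LinearMap.inl ℤ _ _) hE.1 y₁ hy₁)
    (key (LinearMap.inr ℤ _ _) h2 y₂ hy₂)
  simpa using this

end Coker

end Fermat.Agent.LevelRaise
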