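import Fermat.Agent.LevelRaise.AevalLemmas
import Fermat.Agent.LevelRaise.Coker
import Fermat.Agent.LevelRaise.Eigen
import Fermat.Agent.Periods.HeckeComm
import Fermat.Agent.Periods.CuspidalBasis

/-!
# Level raising in group cohomology

An eigen class modulo `p` at level `N`, with eigenvalue `ε (q + 1)` at `q` and not Eisenstein,
gives an integral class of level `N q` killed by both transfers, with the same eigenvalues mod `p`.
-/

set_option autoImplicit false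

noncomputable section

open CongruenceSubgroup ModularCurve.Period Polynomial
open Fermat.Agent.Periods
open scoped MatrixGroups

namespace Fermat.Agent.LevelRaise

variable {N : ℕ} [NeZero N]

theorem finite_homs : Module.Finite ℤ (Additive (Gamma0 N) →+ ℤ) := by
  have := groupFG_gamma0 N
  obtain ⟨s, hs⟩ := Group.fg_def.1 this
  let ev : (Additive (Gamma0 N) →+ ℤ) →ₗ[ℤ] (s → ℤ) :=
    (AddMonoidHom.mk' (fun φ (g : s) => φ (Additive.ofMul (g : Gamma0 N)))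
      fun _ _ => rfl).toIntLinearMap
  refine Module.Finite.of_injective ev fun φ ψ h => ?_
  refine AddMonoidHom.ext fun g => ?_
  have hg : Additive.toMul g ∈ Subgroup.closure (s : Set (Gamma0 N)) := by
    rw [hs]; exact Subgroup.mem_top _
  refine Subgroup.closure_induction
    (p := fun x _ => φ (Additive.ofMul x) = ψ (Additive.ofMul x)) (fun x hx => congrFun h ⟨x, hx⟩)
    (by simp) (fun a b _ _ ha hb => by rw [ofMul_mul, map_add, map_add, ha, hb])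
    (fun a _ ha => by rw [ofMul_inv, map_neg, map_neg, ha]) hg

theorem fg_cuspidalHoms : (cuspidalHoms ℤ (Gamma0 N) ℤ).FG :=
  have := finite_homs (N := N)
  IsNoetherian.noetherian _

/-- Reduction modulo `p` is surjective on cuspidal classes. -/
theorem exists_lift {p : ℕ} {y : Additive (Gamma0 N) →+ ZMod p}
    (hy : y ∈ cuspidalHoms ℤ (Gamma0 N) (ZMod p)) :
    ∃ x ∈ cuspidalHoms ℤ (Gamma0 N) ℤ, redHom N p x = y := by
  obtain ⟨γ, e, he, -, hexp⟩ := exists_cuspidalBasis N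
  refine ⟨∑ i, ((y (Additive.ofMul (γ i))).cast : ℤ) • e i,
    Submodule.sum_mem _ fun i _ => Submodule.smul_mem _ _ (he i),
    AddMonoidHom.ext fun g => ?_⟩
  rw [hexp (ZMod p) y hy g]
  simp [mul_comm]

omit [NeZero N] in
theorem exists_eq_smul_of_redHom_eq_zero {p : ℕ} (hp : p.Prime) {x : Additive (Gamma0 N) →+ ℤ}
    (hx : x ∈ cuspidalHoms ℤ (Gamma0 N) ℤ) (h : redHom N p x = 0) :
    ∃ w ∈ cuspidalHoms ℤ (Gamma0 N) ℤ, x = (p : ℤ) • w := by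
  have hd : ∀ g, (p : ℤ) ∣ x g := fun g =>
    (ZMod.intCast_zmod_eq_zero_iff_dvd _ p).1 (DFunLike.congr_fun h g)
  have hp0 : (p : ℤ) ≠ 0 := by exact_mod_cast hp.ne_zero
  refine ⟨AddMonoidHom.mk' (fun g => x g / p) fun a b => ?_, fun g hg => ?_, ?_⟩
  · show x (a + b) / (p : ℤ) = x a / p + x b / p
    rw [map_add, Int.add_ediv_of_dvd_left (hd a)]
  · show x (Additive.ofMul g) / (p : ℤ) = 0
    rw [hx g hg, Int.zero_ediv]
  · refine AddMonoidHom.ext fun g => ?_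
    show x g = (p : ℤ) * (x g / p)
    rw [Int.mul_ediv_cancel' (hd g)]

omit [NeZero N] in
theorem redHom_heckeHom (p : ℕ) {ℓ : ℕ} (hℓ : ℓ.Prime) (x : Additive (Gamma0 N) →+ ℤ) :
    redHom N p (heckeHom ℤ ℤ hℓ x) = heckeHom ℤ (ZMod p) hℓ (redHom N p x) :=
  (heckeHom_comp hℓ (Int.castAddHom (ZMod p)) x).symm

section Eis

variable {M : ℕ} (A : Type*) [AddCommGroup A] {ℓ : ℕ} (hℓ : ℓ.Prime)

/-- `T_ℓ - ℓ - 1`. -/
def eisOp : Module.End ℤ (Additive (Gamma0 M) →+ A) :=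
  heckeHom ℤ A hℓ - ((ℓ + 1 : ℕ) : ℤ) • LinearMap.id

/-- `(T_ℓ - ℓ - 1)²`. -/
def eisSq : Module.End ℤ (Additive (Gamma0 M) →+ A) :=
  (eisOp A hℓ).comp (eisOp A hℓ)

variable {A}

theorem eisSq_comp {B : Type*} [AddCommGroup B] (f : A →+ B) (x : Additive (Gamma0 M) →+ A) :
    eisSq B hℓ (f.comp x) = f.comp (eisSq A hℓ x) := by
  have h : ∀ y : Additive (Gamma0 M) →+ A,
      eisOp B hℓ (f.comp y) = f.comp (eisOp A hℓ y) := by
    intro y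
    rw [eisOp, eisOp, LinearMap.sub_apply, heckeHom_comp]
    refine AddMonoidHom.ext fun g => ?_
    simp
  simp only [eisSq, LinearMap.comp_apply]
  rw [h, h]

theorem eisSq_mem_cuspidalHoms {x : Additive (Gamma0 M) →+ A}
    (hx : x ∈ cuspidalHoms ℤ (Gamma0 M) A) : eisSq A hℓ x ∈ cuspidalHoms ℤ (Gamma0 M) A := by
  have h : ∀ y ∈ cuspidalHoms ℤ (Gamma0 M) A,
      eisOp A hℓ y ∈ cuspidalHoms ℤ (Gamma0 M) A :=
    fun y hy => Submodule.sub_mem _ (heckeHom_mem_cuspidalHoms hℓ hy) (Submodule.smul_mem _ _ hy)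
  exact h _ (h _ hx)

theorem eisSq_eigen {x : Additive (Gamma0 M) →+ A} {a : ℤ} (h : heckeHom ℤ A hℓ x = a • x) :
    eisSq A hℓ x = ((a - (ℓ + 1 : ℕ)) * (a - (ℓ + 1 : ℕ))) • x := by
  have e : eisOp A hℓ x = (a - (ℓ + 1 : ℕ)) • x := by
    rw [eisOp, LinearMap.sub_apply, h, LinearMap.smul_apply, LinearMap.id_apply, sub_smul]
  rw [eisSq, LinearMap.comp_apply, e, map_smul, e, smul_smul]

end Eis

/-- **Level raising in cohomology.** -/
theorem exists_new_class {p q : ℕ} (hp : p.Prime) (hp2 : p ≠ 2) (hq : q.Prime) (hqN : ¬ q ∣ N)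
    {φ : Additive (Gamma0 N) →+ ZMod p} (hφ : φ ∈ cuspidalHoms ℤ (Gamma0 N) (ZMod p))
    (hφ0 : φ ≠ 0) {ε : ℤ} (hε : ε * ε = 1)
    (hTq : heckeHom ℤ (ZMod p) hq φ = (ε * (q + 1)) • φ)
    {ℓ₀ : ℕ} (hℓ₀ : ℓ₀.Prime) (hℓ₀q : ℓ₀ ≠ q) (hℓ₀N : ¬ ℓ₀ ∣ N) (hℓ₀1 : (ℓ₀ : ZMod N) = 1)
    {a₀ : ℤ} (ha₀ : (a₀ : ZMod p) ≠ (ℓ₀ : ZMod p) + 1)
    (hT₀ : heckeHom ℤ (ZMod p) hℓ₀ φ = a₀ • φ) :
    ∃ x ∈ cuspidalHoms ℤ (Gamma0 (N * q)) ℤ,
      heckeHom ℤ ℤ hq (heckeHom ℤ ℤ hq x) = x ∧ redHom (N * q) p x ≠ 0 ∧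
      ∀ (ℓ : ℕ) (hℓ : ℓ.Prime) (a : ℤ), ℓ ≠ q → heckeHom ℤ (ZMod p) hℓ φ = a • φ →
        heckeHom ℤ (ZMod p) hℓ (redHom (N * q) p x) = a • redHom (N * q) p x := by
  have : Fact p.Prime := ⟨hp⟩
  have : NeZero q := ⟨hq.ne_zero⟩
  set ψ := degRes N q (ZMod p) φ - ε • degBeta N q (ZMod p) φ with hψdef
  have hψcusp : ψ ∈ cuspidalHoms ℤ (Gamma0 (N * q)) (ZMod p) :=
    Submodule.sub_mem _ (degRes_mem_cuspidalHoms hφ)
      (Submodule.smul_mem _ _ (degBeta_mem_cuspidalHoms hφ))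
  have hψT : ∀ (ℓ : ℕ) (hℓ : ℓ.Prime) (a : ℤ), ℓ ≠ q → heckeHom ℤ (ZMod p) hℓ φ = a • φ →
      heckeHom ℤ (ZMod p) hℓ ψ = a • ψ := by
    intro ℓ hℓ a hne h
    rw [hψdef, map_sub, map_smul, ← degRes_heckeHom hq hℓ hne, ← degBeta_heckeHom hq hℓ hne, h,
      map_smul, map_smul, smul_sub, smul_comm]
  set c₀ : ℤ := a₀ - (ℓ₀ + 1 : ℕ) with hc₀
  have hc₀p : (c₀ : ZMod p) ≠ 0 := by
    rw [hc₀]; push_cast; exact sub_ne_zero.2 ha₀
  have hsmul : ∀ {M : ℕ} {c : ℤ} {x : Additive (Gamma0 M) →+ ZMod p}, (c : ZMod p) ≠ 0 →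
      c • x = 0 → x = 0 := by
    intro M c x hc h
    refine AddMonoidHom.ext fun g => ?_
    have := DFunLike.congr_fun h g
    rw [AddMonoidHom.smul_apply, zsmul_eq_mul] at this
    exact (mul_eq_zero.1 this).resolve_left hc
  have hψ0 : ψ ≠ 0 := by
    intro h0
    rw [hψdef, sub_eq_zero, ← map_smul] at h0
    have hE := (Ihara.heckeHom_degeneracy_kernel (R := ℤ) (Nat.pos_of_ne_zero (NeZero.ne N)) hq hqN
      hp (fun z => by simp) (fun g hg => hφ g hg.le)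
      (fun g hg => show ε • φ (Additive.ofMul g) = 0 by rw [hφ g hg.le, smul_zero])
      (degeneracyRel_of_eq h0 hq) hℓ₀ hℓ₀N).1
    rw [hT₀, ← natCast_zsmul, ← sub_eq_zero, ← sub_smul] at hE
    exact hφ0 (hsmul (by exact_mod_cast hc₀p) hE)
  have htr : degTr N (ZMod p) hq hqN ψ = 0 := by
    rw [hψdef, map_sub, map_smul, degTr_degRes, degTr_degBeta, hTq, smul_smul, ← mul_assoc, hε,
      one_mul, ← natCast_zsmul, sub_eq_zero]
    push_cast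
    rfl
  have htr' : degTr' N (ZMod p) hq hqN ψ = 0 := by
    rw [hψdef, map_sub, map_smul, degTr'_degRes, degTr'_degBeta, hTq, ← natCast_zsmul, smul_smul,
      sub_eq_zero]
    push_cast
    rfl
  obtain ⟨X, hX, hXψ⟩ := exists_lift hψcusp
  set D : (Additive (Gamma0 (N * q)) →+ ℤ) →ₗ[ℤ]
      (Additive (Gamma0 N) →+ ℤ) × (Additive (Gamma0 N) →+ ℤ) :=
    (degTr N ℤ hq hqN).prod (degTr' N ℤ hq hqN) with hDdef
  set L := (cuspidalHoms ℤ (Gamma0 N) ℤ).prod (cuspidalHoms ℤ (Gamma0 N) ℤ) with hLdef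
  set I := (cuspidalHoms ℤ (Gamma0 (N * q)) ℤ).map D with hIdef
  set F : Module.End ℤ ((Additive (Gamma0 N) →+ ℤ) × (Additive (Gamma0 N) →+ ℤ)) :=
    (eisSq ℤ hℓ₀).prodMap (eisSq ℤ hℓ₀) with hFdef
  have hDF : ∀ x, D (eisSq ℤ hℓ₀ x) = F (D x) := by
    intro x
    simp only [hDdef, hFdef, LinearMap.prod_apply, LinearMap.prodMap_apply, eisSq, eisOp,
      LinearMap.comp_apply, LinearMap.sub_apply, LinearMap.smul_apply, LinearMap.id_apply,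
      map_sub, map_smul, degTr_heckeHom hq hqN hℓ₀ hℓ₀q, degTr'_heckeHom hq hqN hℓ₀ hℓ₀q,
      Function.prod, Prod.smul_mk, Prod.mk_sub_mk]
  have hDL : ∀ x ∈ cuspidalHoms ℤ (Gamma0 (N * q)) ℤ, D x ∈ L := fun x hx =>
    ⟨degTr_mem_cuspidalHoms hq hqN hx, degTr'_mem_cuspidalHoms hq hqN hx⟩
  have hkey : ∀ w ∈ L, ∃ y ∈ L, F w - (p : ℤ) • y ∈ I := by
    intro w hw
    have hmem := eisOp_sq_mem_trImage hq hqN hp hp2 hℓ₀ hℓ₀N hℓ₀1
      (redHom_mem_cuspidalHoms p hw.1) (redHom_mem_cuspidalHoms p hw.2)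
    obtain ⟨z, hz, hzeq⟩ := hmem
    obtain ⟨Z, hZ, hZz⟩ := exists_lift hz
    have e1 : redHom N p ((F w).1 - (D Z).1) = 0 := by
      rw [map_sub, sub_eq_zero]
      show (Int.castAddHom (ZMod p)).comp (eisSq ℤ hℓ₀ w.1) =
        (Int.castAddHom (ZMod p)).comp (degTr N ℤ hq hqN Z)
      rw [← eisSq_comp, ← degTr_comp hq hqN]
      rw [← hZz] at hzeq
      exact (congrArg Prod.fst hzeq).symm
    have e2 : redHom N p ((F w).2 - (D Z).2) = 0 := by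
      rw [map_sub, sub_eq_zero]
      show (Int.castAddHom (ZMod p)).comp (eisSq ℤ hℓ₀ w.2) =
        (Int.castAddHom (ZMod p)).comp (degTr' N ℤ hq hqN Z)
      rw [← eisSq_comp, ← degTr'_comp hq hqN]
      rw [← hZz] at hzeq
      exact (congrArg Prod.snd hzeq).symm
    obtain ⟨u₁, hu₁, h₁⟩ := exists_eq_smul_of_redHom_eq_zero hp
      (Submodule.sub_mem _ (eisSq_mem_cuspidalHoms hℓ₀ hw.1) (hDL Z hZ).1) e1
    obtain ⟨u₂, hu₂, h₂⟩ := exists_eq_smul_of_redHom_eq_zero hp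
      (Submodule.sub_mem _ (eisSq_mem_cuspidalHoms hℓ₀ hw.2) (hDL Z hZ).2) e2
    refine ⟨(u₁, u₂), ⟨hu₁, hu₂⟩, Z, hZ, ?_⟩
    rw [Prod.smul_mk, ← h₁, ← h₂]
    exact (sub_sub_cancel (F w) (D Z)).symm
  obtain ⟨P, hPmod, hPI⟩ := exists_monic_aeval_mem
    (fg_cuspidalHoms.prod fg_cuspidalHoms) (I := I)
    (fun w hw => ⟨eisSq_mem_cuspidalHoms hℓ₀ hw.1, eisSq_mem_cuspidalHoms hℓ₀ hw.2⟩)
    (by
      rintro _ ⟨x, hx, rfl⟩
      exact ⟨_, eisSq_mem_cuspidalHoms hℓ₀ hx, hDF x⟩)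
    p hkey
  obtain ⟨w₁, hw₁, hd₁⟩ := exists_eq_smul_of_redHom_eq_zero hp
    (degTr_mem_cuspidalHoms hq hqN hX) (by
      show (Int.castAddHom (ZMod p)).comp _ = _
      rw [← degTr_comp hq hqN]; exact (congrArg _ hXψ).trans htr)
  obtain ⟨w₂, hw₂, hd₂⟩ := exists_eq_smul_of_redHom_eq_zero hp
    (degTr'_mem_cuspidalHoms hq hqN hX) (by
      show (Int.castAddHom (ZMod p)).comp _ = _
      rw [← degTr'_comp hq hqN]; exact (congrArg _ hXψ).trans htr')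
  obtain ⟨y, hy, hyD⟩ := hPI (w₁, w₂) ⟨hw₁, hw₂⟩
  refine ⟨aeval (eisSq ℤ hℓ₀) P X - (p : ℤ) • y,
    Submodule.sub_mem _ (aeval_mem (fun z hz => eisSq_mem_cuspidalHoms hℓ₀ hz) P hX)
      (Submodule.smul_mem _ _ hy), ?_⟩
  have hD0 : D (aeval (eisSq ℤ hℓ₀) P X - (p : ℤ) • y) = 0 := by
    have hDX : D X = (p : ℤ) • (w₁, w₂) := Prod.ext hd₁ hd₂
    rw [map_sub, map_smul, aeval_intertwine D hDF, hDX, map_smul, hyD, sub_self]
  have hred : redHom (N * q) p (aeval (eisSq ℤ hℓ₀) P X - (p : ℤ) • y) =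
      P.eval (c₀ * c₀) • ψ := by
    rw [map_sub, map_zsmul]
    have h0 : (p : ℤ) • redHom (N * q) p y = 0 := by
      refine AddMonoidHom.ext fun g => ?_
      simp
    have h1 := aeval_intertwine (redHom (N * q) p).toIntLinearMap (f := eisSq ℤ hℓ₀)
      (g := eisSq (ZMod p) hℓ₀) (fun x => (eisSq_comp hℓ₀ _ x).symm) P X
    rw [h0, sub_zero]
    refine h1.trans ?_
    show aeval (eisSq (ZMod p) hℓ₀) P (redHom (N * q) p X) = _
    rw [hXψ, aeval_apply_eigen (eisSq_eigen hℓ₀ (hψT ℓ₀ hℓ₀ a₀ hℓ₀q hT₀))]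
  refine ⟨heckeHom_sq_of_degTr_eq_zero hq hqN _ (congrArg Prod.fst hD0) (congrArg Prod.snd hD0),
    ?_, fun ℓ hℓ a hne h => ?_⟩
  · rw [hred]
    intro h0
    refine hψ0 (hsmul ?_ h0)
    rw [hPmod]
    push_cast
    exact pow_ne_zero _ (mul_ne_zero hc₀p hc₀p)
  · rw [hred, map_smul, hψT ℓ hℓ a hne h, smul_comm]

end Fermat.Agent.LevelRaise
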