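import Mathlib.LinearAlgebra.Matrix.Charpoly.LinearMap
import Mathlib.RingTheory.Ideal.Operations
import Mathlib.RingTheory.Ideal.Span
import Mathlib.Data.ZMod.Basic

/-!
# Lifting a class killed modulo `p` by a map to a class in its kernel
-/

set_option autoImplicit false

open Polynomial

namespace Fermat.Agent.LevelRaise

variable {A B : Type*} [AddCommGroup A] [AddCommGroup B]

theorem aeval_intertwine (h : A →ₗ[ℤ] B) {f : Module.End ℤ A} {g : Module.End ℤ B}
    (hh : ∀ x, h (f x) = g (h x)) (P : ℤ[X]) (x : A) : h (aeval f P x) = aeval g P (h x) := by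
  induction P using Polynomial.induction_on' generalizing x with
  | add P Q hP hQ => simp [hP, hQ]
  | monomial n a =>
    simp only [aeval_monomial, Module.End.mul_apply, Module.algebraMap_end_apply, map_smul]
    congr 1
    induction n generalizing x with
    | zero => simp
    | succ n ih => rw [pow_succ', pow_succ', Module.End.mul_apply, Module.End.mul_apply, hh, ih]

theorem aeval_apply_eigen {f : Module.End ℤ A} {a : ℤ} {x : A} (h : f x = a • x) (P : ℤ[X]) :
    aeval f P x = P.eval a • x := by
  induction P using Polynomial.induction_on' with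
  | add P Q hP hQ => simp [hP, hQ, add_smul]
  | monomial n b =>
    simp only [aeval_monomial, Module.End.mul_apply, Module.algebraMap_end_apply, eval_monomial,
      mul_smul]
    congr 1
    induction n with
    | zero => simp
    | succ n ih => rw [pow_succ', Module.End.mul_apply, ih, map_smul, h, smul_smul, pow_succ]

theorem aeval_mem {f : Module.End ℤ A} {S : Submodule ℤ A} (hS : ∀ x ∈ S, f x ∈ S) (P : ℤ[X])
    {x : A} (hx : x ∈ S) : aeval f P x ∈ S := by
  have := aeval_intertwine S.subtype (f := f.restrict hS) (g := f) (fun _ => rfl) P ⟨x, hx⟩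
  simp only [Submodule.subtype_apply] at this
  rw [← this]
  exact Submodule.coe_mem _

/-- If an operator `F` maps a finitely generated module `L` into `I + p L`, then some monic
polynomial in it, congruent to a power of `X` modulo `p`, maps `L` into `I`. -/
theorem exists_monic_aeval_mem {L : Submodule ℤ A} (hfg : L.FG) {I : Submodule ℤ A}
    {F : Module.End ℤ A} (hL : ∀ x ∈ L, F x ∈ L) (hI : ∀ x ∈ I, F x ∈ I) (p : ℕ)
    (h : ∀ x ∈ L, ∃ y ∈ L, F x - (p : ℤ) • y ∈ I) :
    ∃ P : ℤ[X], (∀ a : ℤ, ((P.eval a : ℤ) : ZMod p) = (a : ZMod p) ^ P.natDegree) ∧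
      ∀ x ∈ L, aeval F P x ∈ I := by
  have : Module.Finite ℤ L := Module.Finite.iff_fg.2 hfg
  let f : Module.End ℤ (L ⧸ I.comap L.subtype) :=
    Submodule.mapQ _ _ (F.restrict hL) fun x hx => hI _ hx
  have hf : LinearMap.range f ≤ Ideal.span {(p : ℤ)} • (⊤ : Submodule ℤ _) := by
    rintro _ ⟨x, rfl⟩
    obtain ⟨⟨x, hx⟩, rfl⟩ := Submodule.mkQ_surjective _ x
    obtain ⟨y, hy, hxy⟩ := h x hx
    have : f (Submodule.mkQ _ ⟨x, hx⟩) = (p : ℤ) • Submodule.mkQ _ ⟨y, hy⟩ := by
      rw [← map_smul]
      exact (Submodule.Quotient.eq _).2 hxy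
    rw [this]
    exact Submodule.smul_mem_smul (Ideal.subset_span rfl) Submodule.mem_top
  obtain ⟨P, hmon, hdeg, hcoeff, hzero⟩ :=
    LinearMap.exists_monic_and_natDegree_eq_and_coeff_mem_pow_and_aeval_eq_zero ℤ f _ hf
  refine ⟨P, fun a => ?_, fun x hx => ?_⟩
  · have hmap : P.map (Int.castRingHom (ZMod p)) = X ^ P.natDegree := by
      ext k
      rw [coeff_map, coeff_X_pow]
      split_ifs with hk
      · rw [hk, hmon.coeff_natDegree, map_one]
      · rcases lt_or_gt_of_ne hk with hlt | hlt
        · have hk' := Ideal.pow_le_self (by omega) (hcoeff k)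
          rw [Ideal.mem_span_singleton] at hk'
          exact (ZMod.intCast_zmod_eq_zero_iff_dvd _ p).2 hk'
        · rw [coeff_eq_zero_of_natDegree_lt hlt, map_zero]
    have := congrArg (Polynomial.eval (Int.castRingHom (ZMod p) a)) hmap
    rw [eval_map, eval₂_at_apply, eval_pow, eval_X] at this
    exact this
  · have h1 := aeval_intertwine (I.comap L.subtype).mkQ (f := F.restrict hL) (g := f)
      (fun _ => rfl) P ⟨x, hx⟩
    rw [hzero, LinearMap.zero_apply, Submodule.mkQ_apply, Submodule.Quotient.mk_eq_zero] at h1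
    have h2 := aeval_intertwine L.subtype (f := F.restrict hL) (g := F) (fun _ => rfl) P ⟨x, hx⟩
    rw [Submodule.subtype_apply] at h2
    exact h2 ▸ h1

end Fermat.Agent.LevelRaise
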