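import Fermat.Agent.Periods.Defs
import Fermat.Agent.LevelRaise.Crossing.Side
import Mathlib.Algebra.BigOperators.Finprod
import Mathlib.Data.ZMod.Basic
import Mathlib.Algebra.Field.ZMod
import Mathlib.LinearAlgebra.Matrix.FixedDetMatrices
import Mathlib.GroupTheory.DoubleCoset

/-!
# Intersection numbers of geodesics between cusps with loops

For `r t : ℤ²` representing cusps `r₀/r₁`, `t₀/t₁` and `z ∈ ℍ`, `side r t z ∈ {-1, 0, 1}` tells on
which side of the geodesic from `r` to `t` the point `z` lies. `crossHom Γ r t γ` is the algebraic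
number of intersections of the `Γ`-translates of that geodesic with a path from `z` to `γ z`.

`crossHom N r t` kills elliptic elements but in general not the parabolic ones (it is the map
`H₁(X, cusps) → H¹(Y)`).
-/

set_option autoImplicit false

noncomputable section

open CongruenceSubgroup ModularCurve.Period UpperHalfPlane
open Fermat.Agent.Periods
open scoped MatrixGroups ComplexConjugate

namespace Fermat.Agent.LevelRaise

variable (N : ℕ)

/-- The signed number of crossings of the translates of the geodesic with a path `z → w`. -/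
def crossSum (r t : Vec) (z w : ℍ) : ℤ :=
  ∑ᶠ g : Gamma0 N, cross (slVec g r) (slVec g t) z w

theorem finite_support_cross_Gamma0 (r t : Vec) (z w : ℍ) :
    (Function.support fun g : Gamma0 N => cross (slVec g r) (slVec g t) z w).Finite :=
  (finite_support_cross_SL r t z w).preimage Subtype.val_injective.injOn

theorem crossSum_self (r t : Vec) (z : ℍ) : crossSum N r t z z = 0 := by
  simp [crossSum, cross]

theorem crossSum_trans (r t : Vec) (x y z : ℍ) :
    crossSum N r t x z = crossSum N r t x y + crossSum N r t y z := by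
  rw [crossSum, crossSum, crossSum, ← finsum_add_distrib (finite_support_cross_Gamma0 N r t x y)
    (finite_support_cross_Gamma0 N r t y z)]
  exact finsum_congr fun g => by simp only [cross]; ring

theorem crossSum_smul (r t : Vec) (γ : Gamma0 N) (z w : ℍ) :
    crossSum N r t ((γ : SL(2, ℤ)) • z) ((γ : SL(2, ℤ)) • w) = crossSum N r t z w := by
  rw [crossSum, crossSum, ← finsum_comp_equiv (Equiv.mulLeft γ)]
  refine finsum_congr fun g => ?_
  simp only [Equiv.coe_mulLeft, Subgroup.coe_mul, cross, slVec_mul_apply, side_equivariant]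

theorem crossSum_loop_mul (r t : Vec) (z : ℍ) (γ δ : Gamma0 N) :
    crossSum N r t z (((γ * δ : Gamma0 N) : SL(2, ℤ)) • z) =
      crossSum N r t z ((γ : SL(2, ℤ)) • z) + crossSum N r t z ((δ : SL(2, ℤ)) • z) := by
  rw [← crossSum_smul N r t γ z ((δ : SL(2, ℤ)) • z), ← crossSum_trans, ← mul_smul,
    Subgroup.coe_mul]

/-- The intersection homomorphism of the geodesic from `r` to `t`. -/
def crossHom (r t : Vec) : Additive (Gamma0 N) →+ ℤ :=
  AddMonoidHom.mk'
    (fun γ => crossSum N r t UpperHalfPlane.I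
      (((Additive.toMul γ : Gamma0 N) : SL(2, ℤ)) • UpperHalfPlane.I))
    (fun γ δ => crossSum_loop_mul N r t UpperHalfPlane.I (Additive.toMul γ) (Additive.toMul δ))

theorem crossHom_ofMul (r t : Vec) (γ : Gamma0 N) :
    crossHom N r t (Additive.ofMul γ) =
      crossSum N r t UpperHalfPlane.I ((γ : SL(2, ℤ)) • UpperHalfPlane.I) := rfl

variable [NeZero N]

theorem finite_support_cross (r t : Vec) (z w : ℍ) :
    (Function.support fun g : Gamma0 N => cross (slVec g r) (slVec g t) z w).Finite :=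
  finite_support_cross_Gamma0 N r t z w

omit [NeZero N] in
/-- The base point does not matter. -/
theorem crossHom_apply (r t : Vec) (γ : Gamma0 N) (z : ℍ) :
    crossHom N r t (Additive.ofMul γ) = crossSum N r t z ((γ : SL(2, ℤ)) • z) := by
  rw [crossHom_ofMul]
  have h1 := crossSum_trans N r t UpperHalfPlane.I z ((γ : SL(2, ℤ)) • UpperHalfPlane.I)
  have h2 := crossSum_trans N r t z ((γ : SL(2, ℤ)) • z) ((γ : SL(2, ℤ)) • UpperHalfPlane.I)
  rw [crossSum_smul] at h2
  have h3 := crossSum_trans N r t UpperHalfPlane.I z UpperHalfPlane.I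
  rw [crossSum_self] at h3
  omega

omit [NeZero N] in
theorem crossHom_congr_side {r t r' t' : Vec}
    (h : ∀ (g : SL(2, ℤ)) (z : ℍ),
      side (slVec g r) (slVec g t) z = side (slVec g r') (slVec g t') z) :
    crossHom N r t = crossHom N r' t' := by
  refine AddMonoidHom.ext fun γ => ?_
  exact finsum_congr fun g => by simp only [cross, h]

omit [NeZero N] in
theorem crossHom_eq_zero_of_vecDet {r t : Vec} (h : vecDet r t = 0) : crossHom N r t = 0 := by
  refine AddMonoidHom.ext fun γ => ?_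
  show crossSum N r t _ _ = 0
  refine finsum_eq_zero_of_forall_eq_zero fun g => ?_
  simp only [cross, side_eq_zero_of_vecDet (show vecDet (slVec g r) (slVec g t) = 0 by
    rw [vecDet_slVec, h]), sub_self]

omit [NeZero N] in
theorem crossHom_swap (r t : Vec) : crossHom N t r = -crossHom N r t := by
  refine AddMonoidHom.ext fun γ => ?_
  show crossSum N t r _ _ = -crossSum N r t _ _
  rw [crossSum, crossSum, ← finsum_neg_distrib]
  exact finsum_congr fun g => by simp only [cross, side_swap (slVec g r) (slVec g t)]; ring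

omit [NeZero N] in
theorem crossHom_slVec (g : Gamma0 N) (r t : Vec) :
    crossHom N (slVec g r) (slVec g t) = crossHom N r t := by
  refine AddMonoidHom.ext fun γ => ?_
  show crossSum N (slVec g r) (slVec g t) _ _ = crossSum N r t _ _
  rw [crossSum, crossSum]
  conv_rhs => rw [← finsum_comp_equiv (Equiv.mulRight g)]
  refine finsum_congr fun h => ?_
  simp [slVec_mul_apply]

omit [NeZero N] in
theorem crossHom_zsmul_left {c : ℤ} (hc : c ≠ 0) (r t : Vec) :
    crossHom N (c • r) t = crossHom N r t :=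
  crossHom_congr_side N fun g z => by rw [slVec_smul, side_zsmul_left hc]

omit [NeZero N] in
theorem crossHom_zsmul_right {c : ℤ} (hc : c ≠ 0) (r t : Vec) :
    crossHom N r (c • t) = crossHom N r t :=
  crossHom_congr_side N fun g z => by rw [slVec_smul, side_zsmul_right hc]

theorem exists_zsmul_eq_of_vecDet {r t : Vec} (hr : r ≠ 0) (ht : t ≠ 0) (h : vecDet r t = 0) :
    ∃ k l : ℤ, k ≠ 0 ∧ l ≠ 0 ∧ k • r = l • t := by
  unfold vecDet at h
  by_cases h0 : r 0 = 0
  · have h1 : r 1 ≠ 0 := fun h1 => hr (funext fun i => by fin_cases i <;> simp [h0, h1])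
    rw [h0, zero_mul, zero_sub, neg_eq_zero] at h
    have t0 : t 0 = 0 := (mul_eq_zero.mp h).resolve_left h1
    have t1 : t 1 ≠ 0 := fun t1 => ht (funext fun i => by fin_cases i <;> simp [t0, t1])
    refine ⟨t 1, r 1, t1, h1, funext fun i => ?_⟩
    fin_cases i
    · simp [h0, t0]
    · simp; ring
  · have t0 : t 0 ≠ 0 := by
      intro t0
      rw [t0, mul_zero, sub_zero] at h
      exact ht (funext fun i => by
        fin_cases i
        · exact t0
        · exact (mul_eq_zero.mp h).resolve_left h0)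
    refine ⟨t 0, r 0, t0, h0, funext fun i => ?_⟩
    fin_cases i
    · simp; ring
    · simp; linear_combination (-1 : ℤ) * h

/-- Outside the finitely many translates of a triangle containing `z`, the sum of the three
sides is constant. -/
theorem exists_triangle_const {r t u : Vec} (hD1 : vecDet r t ≠ 0) (hD2 : vecDet t u ≠ 0)
    (hD3 : vecDet u r ≠ 0) (z : ℍ) :
    (Function.support fun g : SL(2, ℤ) =>
      side (slVec g r) (slVec g t) z + side (slVec g t) (slVec g u) z + side (slVec g u) (slVec g r) z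
        + (SignType.sign ((vecDet r t * vecDet t u * vecDet u r : ℤ) : ℝ) : ℤ)).Finite := by
  obtain ⟨c₀, hc₀, hlow⟩ := Crossing.exists_lower_bound z.im_pos
  set P : ℝ := (vecDet t u : ℝ) * vecDet u r * vecDet r t * z.im with hP
  set B : ℝ := 8 * P ^ 2 / c₀ with hB
  have hS : {v : Vec | Complex.normSq (lineForm v z) ≤ B}.Finite := by
    refine (finite_bounded_lineForm (m := z.im) (R := z.im ^ 2 + z.re ^ 2) (B := B)
      z.im_pos).subset ?_
    exact fun v hv => ⟨z, le_rfl, le_rfl, hv⟩
  refine (finite_slVec_mem hD1 hS).subset fun g hg => ?_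
  rw [Function.mem_support] at hg
  set a := slVec g r with ha
  set b := slVec g t with hb
  set c := slVec g u with hc
  have e1 : vecDet a b = vecDet r t := vecDet_slVec g r t
  have e2 : vecDet b c = vecDet t u := vecDet_slVec g t u
  have e3 : vecDet c a = vecDet u r := vecDet_slVec g u r
  set α : ℂ := ((vecDet t u : ℝ) : ℂ) * lineForm a z with hα
  set β : ℂ := ((vecDet u r : ℝ) : ℂ) * lineForm b z with hβ
  set γ : ℂ := ((vecDet r t : ℝ) : ℂ) * lineForm c z with hγ
  have hrel : α + β + γ = 0 := by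
    rw [hα, hβ, hγ, ← e1, ← e2, ← e3]
    simp [lineForm, vecDet]
    ring
  have key : ∀ (D : ℤ) (v : Vec), D ≠ 0 → v ≠ 0 →
      c₀ ≤ Complex.normSq (((D : ℝ) : ℂ) * lineForm v z) ∧
      Complex.normSq (lineForm v z) ≤ Complex.normSq (((D : ℝ) : ℂ) * lineForm v z) := by
    intro D v hD hv
    have h1 : (1 : ℝ) ≤ (D : ℝ) * D := by
      exact_mod_cast (show (1 : ℤ) ≤ D * D by nlinarith [Int.one_le_abs hD, abs_mul_abs_self D])
    have h2 : c₀ ≤ Complex.normSq (lineForm v z) := hlow (v 0) (v 1) (by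
      intro h
      simp only [Prod.mk.injEq] at h
      exact hv (funext fun i => by fin_cases i <;> simp [h.1, h.2]))
    rw [map_mul, Complex.normSq_ofReal]
    constructor <;> nlinarith [Complex.normSq_nonneg (lineForm v z)]
  have ha0 : a ≠ 0 := by
    intro h; rw [ha, slVec_eq_zero_iff] at h; subst h; exact hD1 (by simp [vecDet])
  have hb0 : b ≠ 0 := by
    intro h; rw [hb, slVec_eq_zero_iff] at h; subst h; exact hD1 (by simp [vecDet])
  have hc0 : c ≠ 0 := by
    intro h; rw [hc, slVec_eq_zero_iff] at h; subst h; exact hD2 (by simp [vecDet])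
  set E : ℤ := vecDet r t * vecDet t u * vecDet u r with hE
  have hside : ∀ (x y : Vec) (X Y : ℤ),
      vecDet x y * X * Y = E → X ≠ 0 → Y ≠ 0 →
      side x y z = (SignType.sign (E : ℝ) : ℤ) *
        (SignType.sign ((((X : ℝ) : ℂ) * lineForm x z) *
          conj (((Y : ℝ) : ℂ) * lineForm y z)).re : ℤ) := by
    intro x y X Y hXY hX hY
    have hre : ((((X : ℝ) : ℂ) * lineForm x z) * conj (((Y : ℝ) : ℂ) * lineForm y z)).re
        = (X : ℝ) * Y * (conj (lineForm x z) * lineForm y z).re := by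
      simp [Complex.mul_re]; ring
    rw [hre, ← hXY, side_def, ← SignType.coe_mul, ← sign_mul]
    congr 1
    rw [Int.cast_mul, Int.cast_mul,
      show (vecDet x y : ℝ) * X * Y * ((X : ℝ) * Y * (conj (lineForm x z) * lineForm y z).re)
        = ((X : ℝ) * Y) ^ 2 * ((vecDet x y : ℝ) * (conj (lineForm x z) * lineForm y z).re) by ring,
      sign_mul (((X : ℝ) * Y) ^ 2),
      sign_pos (sq_pos_of_ne_zero (mul_ne_zero (by exact_mod_cast hX) (by exact_mod_cast hY))),
      one_mul]
  rcases Crossing.sign_sum_or_bound hrel hc₀ (key _ a hD2 ha0).1 (key _ b hD3 hb0).1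
      (key _ c hD1 hc0).1 with hsum | ⟨hba, hbb, -⟩
  · refine absurd ?_ hg
    rw [hside a b _ _ (by rw [e1, hE]) hD2 hD3,
      hside b c _ _ (by rw [e2, hE]; ring) hD3 hD1,
      hside c a _ _ (by rw [e3, hE]; ring) hD1 hD2, ← mul_add, ← mul_add]
    rw [hα, hβ, hγ] at hsum
    rw [hsum]
    ring
  · have him : (α * conj β).im ^ 2 = P ^ 2 := by
      have h1 : (α * conj β).im =
          -((vecDet t u : ℝ) * vecDet u r * (conj (lineForm a z) * lineForm b z).im) := by
        simp [hα, hβ]; ring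
      rw [h1, neg_sq, mul_pow, conj_lineForm_mul_im_sq, e1, hP]
      ring
    rw [him] at hba hbb
    exact ⟨(key _ a hD2 ha0).2.trans hba, (key _ b hD3 hb0).2.trans hbb⟩

omit [NeZero N] in
theorem crossHom_add {r t u : Vec} (hr : r ≠ 0) (ht : t ≠ 0) (hu : u ≠ 0) :
    crossHom N r t + crossHom N t u = crossHom N r u := by
  by_cases hD1 : vecDet r t = 0
  · obtain ⟨k, l, hk, hl, hkl⟩ := exists_zsmul_eq_of_vecDet hr ht hD1
    rw [crossHom_eq_zero_of_vecDet N hD1, zero_add, ← crossHom_zsmul_left N hl, ← hkl,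
      crossHom_zsmul_left N hk]
  by_cases hD2 : vecDet t u = 0
  · obtain ⟨k, l, hk, hl, hkl⟩ := exists_zsmul_eq_of_vecDet ht hu hD2
    rw [crossHom_eq_zero_of_vecDet N hD2, add_zero, ← crossHom_zsmul_right N hk r t, hkl,
      crossHom_zsmul_right N hl]
  by_cases hD3 : vecDet u r = 0
  · obtain ⟨k, l, hk, hl, hkl⟩ := exists_zsmul_eq_of_vecDet hu hr hD3
    rw [crossHom_eq_zero_of_vecDet N (r := r) (t := u)
        (by simp only [vecDet] at hD3 ⊢; linear_combination -hD3),
      ← crossHom_zsmul_right N hk t u, hkl, crossHom_zsmul_right N hl, crossHom_swap N r t]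
    exact add_neg_cancel _
  refine AddMonoidHom.ext fun γ => ?_
  obtain ⟨γ, rfl⟩ := Additive.ofMul.surjective γ
  set z := UpperHalfPlane.I
  set E : ℤ := (SignType.sign ((vecDet r t * vecDet t u * vecDet u r : ℤ) : ℝ) : ℤ) with hE
  set w := (γ : SL(2, ℤ)) • z
  let G : ℍ → Gamma0 N → ℤ := fun x g =>
    side (slVec g r) (slVec g t) x + side (slVec g t) (slVec g u) x
      + side (slVec g u) (slVec g r) x + E
  have hfin : ∀ x, (Function.support (G x)).Finite := fun x =>
    (exists_triangle_const hD1 hD2 hD3 x).preimage Subtype.val_injective.injOn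
  have hsw : ∑ᶠ g, G w g = ∑ᶠ g, G z g := by
    rw [← finsum_comp_equiv (Equiv.mulLeft γ)]
    refine finsum_congr fun g => ?_
    simp only [Equiv.coe_mulLeft, Subgroup.coe_mul, G, w, slVec_mul_apply, side_equivariant]
  have hdiff : ∑ᶠ g : Gamma0 N, (cross (slVec g r) (slVec g t) z w + cross (slVec g t) (slVec g u) z w
      + cross (slVec g u) (slVec g r) z w) = (0 : ℤ) := by
    rw [show (fun g : Gamma0 N => cross (slVec g r) (slVec g t) z w
        + cross (slVec g t) (slVec g u) z w + cross (slVec g u) (slVec g r) z w)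
        = fun g => G w g - G z g from funext fun g => by simp only [cross, G]; ring,
      finsum_sub_distrib (hfin w) (hfin z), hsw, sub_self]
  have h1 := finite_support_cross_Gamma0 N r t z w
  have h2 := finite_support_cross_Gamma0 N t u z w
  have h3 := finite_support_cross_Gamma0 N u r z w
  have h12 : (Function.support fun g : Gamma0 N =>
      cross (slVec g r) (slVec g t) z w + cross (slVec g t) (slVec g u) z w).Finite :=
    (h1.union h2).subset (Function.support_add _ _)
  rw [finsum_add_distrib h12 h3, finsum_add_distrib h1 h2] at hdiff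
  rw [AddMonoidHom.add_apply, crossHom_swap N u r, AddMonoidHom.neg_apply,
    crossHom_ofMul, crossHom_ofMul, crossHom_ofMul]
  unfold crossSum
  linarith

omit [NeZero N] in
theorem sq_eq_trace_smul_sub_one (x : SL(2, ℤ)) :
    (x : Matrix (Fin 2) (Fin 2) ℤ) * x =
      (x : Matrix (Fin 2) (Fin 2) ℤ).trace • (x : Matrix (Fin 2) (Fin 2) ℤ) - 1 := by
  have h := x.2
  rw [Matrix.det_fin_two] at h
  ext i j
  fin_cases i <;> fin_cases j <;>
    simp [Matrix.mul_apply, Fin.sum_univ_two, Matrix.trace_fin_two, Matrix.smul_apply,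
      -zsmul_eq_mul] <;> linarith [h]

omit [NeZero N] in
/-- An element of `SL(2, ℤ)` of trace `-1, 0, 1` has order dividing `12`. -/
theorem pow_twelve_eq_one_of_trace (x : SL(2, ℤ))
    (h : (x : Matrix (Fin 2) (Fin 2) ℤ).trace ^ 2 < 4) : x ^ 12 = 1 := by
  apply Subtype.ext
  rw [Matrix.SpecialLinearGroup.coe_pow, Matrix.SpecialLinearGroup.coe_one]
  have hsq := sq_eq_trace_smul_sub_one x
  generalize (x : Matrix (Fin 2) (Fin 2) ℤ) = X at hsq h ⊢
  have h1 : X.trace ≤ 1 := by nlinarith
  have h2 : -1 ≤ X.trace := by nlinarith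
  rcases (show X.trace = -1 ∨ X.trace = 0 ∨ X.trace = 1 by omega) with ht | ht | ht <;>
    rw [ht] at hsq
  · have h3 : X ^ 3 = 1 := by
      rw [pow_succ, sq, hsq, sub_mul, one_mul, smul_mul_assoc, hsq]; simp
    rw [show 12 = 3 * 4 from rfl, pow_mul, h3, one_pow]
  · have h3 : X ^ 2 = -1 := by rw [sq, hsq]; simp
    rw [show 12 = 2 * 6 from rfl, pow_mul, h3]; simp [neg_one_pow_eq_pow_mod_two]
  · have h3 : X ^ 3 = -1 := by
      rw [pow_succ, sq, hsq, sub_mul, one_mul, smul_mul_assoc, hsq]; simp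
    rw [show 12 = 3 * 4 from rfl, pow_mul, h3]; simp [neg_one_pow_eq_pow_mod_two]

omit [NeZero N] in
/-- The intersection homomorphisms kill the elliptic elements. -/
theorem crossHom_apply_eq_zero_of_trace_sq_lt (r t : Vec) (γ : Gamma0 N)
    (h : ((γ : SL(2, ℤ)) : Matrix (Fin 2) (Fin 2) ℤ).trace ^ 2 < 4) :
    crossHom N r t (Additive.ofMul γ) = 0 := by
  have h12 : γ ^ 12 = 1 := Subtype.ext (by
    rw [SubgroupClass.coe_pow]; exact pow_twelve_eq_one_of_trace _ h)
  have := congrArg (fun x => crossHom N r t (Additive.ofMul x)) h12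
  simpa [ofMul_pow] using this

omit [NeZero N] in
theorem crossHom_neg_one (r t : Vec) (γ : Gamma0 N) (h : (γ : SL(2, ℤ)) = -1) :
    crossHom N r t (Additive.ofMul γ) = 0 := by
  rw [crossHom_ofMul, h, ModularGroup.SL_neg_smul, one_smul, crossSum_self]

section Surjectivity

open ModularGroup

omit [NeZero N] in
theorem SL_trace_zpow_TS (k : ℤ) :
    ((((T * S) ^ k : SL(2, ℤ))) : Matrix (Fin 2) (Fin 2) ℤ).trace ^ 2 ≤ 4 := by
  have h6 : (T * S) ^ 6 = 1 := by decide
  rw [← Int.emod_add_mul_ediv k 6, zpow_add, zpow_mul]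
  rw [show (T * S) ^ (6 : ℤ) = 1 from h6, one_zpow, mul_one]
  have h0 := Int.emod_nonneg k (show (6 : ℤ) ≠ 0 by norm_num)
  have h1 := Int.emod_lt_of_pos k (show (0 : ℤ) < 6 by norm_num)
  interval_cases (k % 6) <;> decide

variable {A : Type*} [AddCommGroup A]

omit [NeZero N] in
/-- A function on `SL(2, ℤ)` transforming by `φ` on the left and invariant on the right under
`U = T S`. -/
theorem exists_potential {φ : Additive (Gamma0 N) →+ A} (hφ : IsCuspidalHom φ) :
    ∃ F : SL(2, ℤ) → A, (∀ (γ : Gamma0 N) g, F ((γ : SL(2, ℤ)) * g) = φ (Additive.ofMul γ) + F g)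
      ∧ ∀ g, F (g * (T * S)) = F g := by
  classical
  let U : SL(2, ℤ) := T * S
  let rep : SL(2, ℤ) → SL(2, ℤ) := fun g =>
    Quotient.out (Quotient.mk (DoubleCoset.setoid ((Gamma0 N : Subgroup SL(2, ℤ)) : Set SL(2, ℤ))
      ((Subgroup.zpowers U : Subgroup SL(2, ℤ)) : Set SL(2, ℤ))) g)
  have hrep : ∀ g, ∃ γ : Gamma0 N, ∃ k : ℤ, g = (γ : SL(2, ℤ)) * rep g * U ^ k := by
    intro g
    obtain ⟨a, ha, b, hb, hab⟩ := DoubleCoset.rel_iff.mp (Quotient.mk_out (s := DoubleCoset.setoid
      ((Gamma0 N : Subgroup SL(2, ℤ)) : Set SL(2, ℤ))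
      ((Subgroup.zpowers U : Subgroup SL(2, ℤ)) : Set SL(2, ℤ))) g)
    obtain ⟨k, rfl⟩ := Subgroup.mem_zpowers_iff.mp hb
    exact ⟨⟨a, ha⟩, k, hab⟩
  choose γ k hk using hrep
  refine ⟨fun g => φ (Additive.ofMul (γ g)), ?_⟩
  have huniq : ∀ g (δ : Gamma0 N) (l : ℤ), g = (δ : SL(2, ℤ)) * rep g * U ^ l →
      φ (Additive.ofMul (γ g)) = φ (Additive.ofMul δ) := by
    intro g δ l hl
    have e : ((δ⁻¹ * γ g : Gamma0 N) : SL(2, ℤ)) = rep g * U ^ (l - k g) * (rep g)⁻¹ := by
      have h1 := (hk g).symm.trans hl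
      rw [Subgroup.coe_mul, Subgroup.coe_inv, inv_mul_eq_iff_eq_mul, zpow_sub]
      calc ((γ g : Gamma0 N) : SL(2, ℤ))
          = ((γ g : SL(2, ℤ)) * rep g * U ^ k g) * (U ^ k g)⁻¹ * (rep g)⁻¹ := by group
        _ = _ := by rw [h1]; group
    have h0 := hφ (δ⁻¹ * γ g) (by
      rw [e, Matrix.SpecialLinearGroup.coe_mul, Matrix.trace_mul_comm,
        ← Matrix.SpecialLinearGroup.coe_mul, inv_mul_cancel_left]
      exact SL_trace_zpow_TS _)
    rw [ofMul_mul, map_add, ofMul_inv, map_neg, neg_add_eq_zero] at h0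
    exact h0.symm
  constructor
  · intro δ g
    have hr : rep ((δ : SL(2, ℤ)) * g) = rep g := by
      show Quotient.out _ = Quotient.out _
      congr 1
      exact Quotient.sound (DoubleCoset.rel_iff.mpr
        ⟨((δ⁻¹ : Gamma0 N) : SL(2, ℤ)), (δ⁻¹).2, 1, one_mem _, by simp⟩)
    show φ _ = φ _ + φ _
    rw [huniq _ (δ * γ g) (k g) (by
      rw [hr, Subgroup.coe_mul]; conv_lhs => rw [hk g]
      group), ofMul_mul, map_add]
  · intro g
    have hr : rep (g * U) = rep g := by
      show Quotient.out _ = Quotient.out _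
      congr 1
      exact Quotient.sound (DoubleCoset.rel_iff.mpr
        ⟨1, one_mem _, U⁻¹, inv_mem (Subgroup.mem_zpowers U), by simp⟩)
    exact huniq (g * U) (γ g) (k g + 1) (by
      rw [hr, zpow_add, zpow_one]; conv_lhs => rw [hk g]
      group)

/-- The edge `∞ → 0`. -/
def e₀ (g : SL(2, ℤ)) (z w : ℍ) : ℤ := cross (slVec g ![1, 0]) (slVec g ![0, 1]) z w

omit [NeZero N] in
theorem e₀_smul (h g : SL(2, ℤ)) (z w : ℍ) : e₀ (h * g) (h • z) (h • w) = e₀ g z w := by
  simp only [e₀, cross, slVec_mul_apply, side_equivariant]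

omit [NeZero N] in
theorem finite_e₀ (z w : ℍ) : (Function.support fun g => e₀ g z w).Finite :=
  finite_support_cross_SL _ _ z w

omit [NeZero N] in
theorem e₀_eq (g : SL(2, ℤ)) (z : ℍ) :
    side (slVec g ![1, 0]) (slVec g ![0, 1]) z =
      (SignType.sign ((g 1 0 : ℝ) * g 1 1 * (z.re ^ 2 + z.im ^ 2)
        - ((g 0 0 : ℝ) * g 1 1 + g 0 1 * g 1 0) * z.re + g 0 0 * g 0 1) : ℤ) := by
  rw [side_def, vecDet_slVec]
  have : (vecDet ![1, 0] ![0, 1] : ℝ) = 1 := by simp [vecDet]
  rw [this, one_mul]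
  congr 2
  simp [lineForm, slVec_zero_apply, slVec_one_apply]
  ring

omit [NeZero N] in
/-- Only eight translates of the edge `∞ → 0` meet the segment from `i` to `1 + i`. -/
theorem mem_eight (g : SL(2, ℤ)) (h : e₀ g UpperHalfPlane.I (T • UpperHalfPlane.I) ≠ 0) :
    g ∈ ({1, -1, S, -S, T, -T, T * S, -(T * S)} : Finset SL(2, ℤ)) := by
  obtain ⟨τ, h0, h1, h2⟩ := exists_re_eq_zero (r := slVec g ![1, 0]) (t := slVec g ![0, 1])
    (by rw [vecDet_slVec]; simp [vecDet]) h
  have hdet : g 0 0 * g 1 1 - g 0 1 * g 1 0 = 1 := by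
    have := g.2; rwa [Matrix.det_fin_two] at this
  have hI2 : (T • UpperHalfPlane.I).re = 1 ∧ (T • UpperHalfPlane.I).im = 1 := by
    rw [modular_T_smul]; simp
  rw [hI2.2, UpperHalfPlane.I_im, min_self] at h1
  rw [hI2.2, hI2.1, UpperHalfPlane.I_im, UpperHalfPlane.I_re] at h2
  have hprod : Complex.normSq (lineForm (slVec g ![1, 0]) τ)
      * Complex.normSq (lineForm (slVec g ![0, 1]) τ) = τ.im ^ 2 := by
    rw [← Complex.normSq_conj (lineForm (slVec g ![1, 0]) τ), ← map_mul, Complex.normSq_apply, h0,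
      mul_zero, zero_add, ← sq, conj_lineForm_mul_im_sq, vecDet_slVec]
    simp [vecDet]
  rw [normSq_lineForm, normSq_lineForm] at hprod
  simp only [slVec_zero_apply, slVec_one_apply, Matrix.cons_val_zero, Matrix.cons_val_one,
    mul_one, mul_zero, add_zero, zero_add] at hprod
  set a := g 0 0
  set b := g 0 1
  set c := g 1 0
  set d := g 1 1
  have him : 0 < τ.im := τ.im_pos
  have hx0 : τ.re ^ 2 ≤ 2 := by nlinarith
  have hcase : c = 0 ∨ d = 0 := by
    by_contra hh
    push Not at hh
    have hc : (1 : ℝ) ≤ (c : ℝ) ^ 2 := by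
      exact_mod_cast (show (1 : ℤ) ≤ c ^ 2 by nlinarith [Int.one_le_abs hh.1, sq_abs c])
    have hd : (1 : ℝ) ≤ (d : ℝ) ^ 2 := by
      exact_mod_cast (show (1 : ℤ) ≤ d ^ 2 by nlinarith [Int.one_le_abs hh.2, sq_abs d])
    set X := ((c : ℝ) * τ.re - a) ^ 2 with hX
    set Y := ((d : ℝ) * τ.re - b) ^ 2 with hY
    set P := ((c : ℝ) * τ.im) ^ 2 with hP
    set Q := ((d : ℝ) * τ.im) ^ 2 with hQ
    have hX0 : 0 ≤ X := sq_nonneg _
    have hY0 : 0 ≤ Y := sq_nonneg _
    have hP1 : τ.im ^ 2 ≤ P := by rw [hP, mul_pow]; nlinarith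
    have hQ1 : τ.im ^ 2 ≤ Q := by rw [hQ, mul_pow]; nlinarith
    have ht1 : 1 ≤ τ.im ^ 2 := by nlinarith
    have hXz : X = 0 := by nlinarith [mul_nonneg hX0 hY0]
    have hYz : Y = 0 := by nlinarith [mul_nonneg hX0 hY0]
    have hPc : (c : ℝ) ^ 2 = 1 := by
      have h4 : P * Q = τ.im ^ 2 := by rw [hXz, hYz] at hprod; linarith
      have h5 : (c : ℝ) ^ 2 * (d : ℝ) ^ 2 * τ.im ^ 2 = 1 := by
        have : ((c : ℝ) ^ 2 * (d : ℝ) ^ 2 * τ.im ^ 2 - 1) * τ.im ^ 2 = 0 := by
          rw [hP, hQ] at h4; linear_combination h4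
        rcases mul_eq_zero.1 this with h6 | h6 <;> nlinarith
      have hcd : 1 ≤ (c : ℝ) ^ 2 * (d : ℝ) ^ 2 := one_le_mul_of_one_le_of_one_le hc hd
      nlinarith
    rw [hX, sq_eq_zero_iff, sub_eq_zero] at hXz
    rw [hY, sq_eq_zero_iff, sub_eq_zero] at hYz
    have : ((a * d - b * c : ℤ) : ℝ) = 0 := by push_cast; rw [← hXz, ← hYz]; ring
    rw [hdet] at this
    norm_num at this
  have fin : ∀ n : ℤ, (n : ℝ) = τ.re → n = 0 ∨ n = 1 ∨ n = -1 := by
    intro n hn
    rw [← hn] at hx0
    have : n ^ 2 ≤ 2 := by exact_mod_cast hx0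
    have h3 : n ≤ 1 := by nlinarith
    have h4 : -1 ≤ n := by nlinarith
    omega
  have key : ∀ p q u v : ℤ, p * q = 1 → q = p →
      ((0 : ℤ) * τ.re - p) ^ 2 * (((u : ℝ) * τ.re - v) ^ 2 + ((u : ℝ) * τ.im) ^ 2) = τ.im ^ 2 →
      u * u = 1 → (v : ℝ) = u * τ.re := by
    intro p q u v hpq hqp h hu
    rw [hqp] at hpq
    have hp' : (p : ℝ) ^ 2 = 1 := by exact_mod_cast (by rw [sq]; exact hpq : p ^ 2 = 1)
    have hu' : (u : ℝ) ^ 2 = 1 := by exact_mod_cast (by rw [sq]; exact hu : u ^ 2 = 1)
    push_cast at h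
    have : ((u : ℝ) * τ.re - v) ^ 2 = 0 := by
      linear_combination h - (((u : ℝ) * τ.re - v) ^ 2 + ((u : ℝ) * τ.im) ^ 2) * hp' -
        τ.im ^ 2 * hu'
    rw [sq_eq_zero_iff, sub_eq_zero] at this
    exact this.symm
  have hint : ∀ u v : ℤ, u * u = 1 → (v : ℝ) = u * τ.re → ((u * v : ℤ) : ℝ) = τ.re := by
    intro u v hu hv
    have hu' : (u : ℝ) * u = 1 := by exact_mod_cast hu
    push_cast
    rw [hv]
    linear_combination τ.re * hu'
  have hIT : cross (slVec g ![1, 0]) (slVec g ![0, 1]) UpperHalfPlane.I (T • UpperHalfPlane.I)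
      ≠ 0 := h
  have hG : ∀ m : SL(2, ℤ), a = m 0 0 → b = m 0 1 → c = m 1 0 → d = m 1 1 → g = m := by
    intro m e1 e2 e3 e4
    apply Subtype.ext
    ext i j
    fin_cases i <;> fin_cases j <;> assumption
  simp only [Finset.mem_insert, Finset.mem_singleton]
  rcases hcase with hc | hd
  · rw [hc, mul_zero, sub_zero] at hdet
    rw [hc] at hprod
    have hda : d = a := by
      rcases Int.eq_one_or_neg_one_of_mul_eq_one' hdet with ⟨h5, h6⟩ | ⟨h5, h6⟩ <;> omega
    have hdd : d * d = 1 := by rw [← hdet, hda]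
    have hb : (b : ℝ) = d * τ.re := key a d d b hdet hda
      (by push_cast at hprod ⊢; linear_combination hprod) hdd
    have hne : d * b ≠ -1 := by
      intro he
      apply hIT
      rw [cross, e₀_eq, e₀_eq, hI2.1, hI2.2, UpperHalfPlane.I_re, UpperHalfPlane.I_im]
      have hab : (a : ℝ) * b = -1 := by
        rw [← hda]; exact_mod_cast he
      have had : (a : ℝ) * d = 1 := by exact_mod_cast hdet
      show (SignType.sign ((c : ℝ) * d * (1 ^ 2 + 1 ^ 2) - ((a : ℝ) * d + b * c) * 1 + a * b) : ℤ)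
        - SignType.sign ((c : ℝ) * d * (0 ^ 2 + 1 ^ 2) - ((a : ℝ) * d + b * c) * 0 + a * b) = 0
      rw [hc, hab]
      push_cast
      rw [had, sign_neg (by norm_num), sign_neg (by norm_num), sub_self]
    rcases Int.eq_one_or_neg_one_of_mul_eq_one' hdet with ⟨ha1, hd1⟩ | ⟨ha1, hd1⟩ <;>
      rw [hd1] at hne hb <;> rcases fin (d * b) (hint d b hdd (by rw [hd1]; exact hb)) with
      hb' | hb' | hb' <;> rw [hd1] at hb'
    · left; exact hG 1 (by simpa using ha1) (by simp; omega) (by simpa using hc) (by simpa using hd1)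
    · right; right; right; right; left
      exact hG T (by simpa [coe_T] using ha1) (by simp [coe_T]; omega)
        (by simpa [coe_T] using hc) (by simpa [coe_T] using hd1)
    · omega
    · right; left
      exact hG (-1) (by simpa using ha1) (by simp; omega) (by simpa using hc) (by simpa using hd1)
    · right; right; right; right; right; left
      exact hG (-T) (by simpa [coe_T] using ha1) (by simp [coe_T]; omega)
        (by simpa [coe_T] using hc) (by simpa [coe_T] using hd1)
    · omega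
  · rw [hd, mul_zero, zero_sub, neg_eq_iff_eq_neg] at hdet
    rw [hd] at hprod
    have hbc : b = -c := by
      rcases Int.eq_one_or_neg_one_of_mul_eq_neg_one' hdet with ⟨h5, h6⟩ | ⟨h5, h6⟩ <;> omega
    have hcc : c * c = 1 := by rw [hbc, neg_mul] at hdet; omega
    have ha : (a : ℝ) = c * τ.re := key (-b) c c a (by rw [hbc, neg_neg]; exact hcc) (by omega)
      (by push_cast at hprod ⊢; linear_combination hprod) hcc
    have hne : c * a ≠ -1 := by
      intro he
      apply hIT
      rw [cross, e₀_eq, e₀_eq, hI2.1, hI2.2, UpperHalfPlane.I_re, UpperHalfPlane.I_im]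
      have hab : (a : ℝ) * b = 1 := by
        exact_mod_cast (show a * b = 1 by rw [hbc, mul_neg, mul_comm]; omega)
      have hbc' : (b : ℝ) * c = -1 := by exact_mod_cast hdet
      show (SignType.sign ((c : ℝ) * d * (1 ^ 2 + 1 ^ 2) - ((a : ℝ) * d + b * c) * 1 + a * b) : ℤ)
        - SignType.sign ((c : ℝ) * d * (0 ^ 2 + 1 ^ 2) - ((a : ℝ) * d + b * c) * 0 + a * b) = 0
      rw [hd, hab]
      push_cast
      rw [hbc', sign_pos (by norm_num), sign_pos (by norm_num), sub_self]
    rcases Int.eq_one_or_neg_one_of_mul_eq_neg_one' hdet with ⟨hb1, hc1⟩ | ⟨hb1, hc1⟩ <;>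
      rcases fin (c * a) (hint c a hcc ha) with ha' | ha' | ha' <;> rw [hc1] at ha' hne
    · right; right; right; left
      exact hG (-S) (by simp [coe_S]; omega) (by simpa [coe_S] using hb1)
        (by simpa [coe_S] using hc1) (by simpa [coe_S] using hd)
    · right; right; right; right; right; right; right
      exact hG (-(T * S)) (by simp [coe_T, coe_S]; omega) (by simpa [coe_T, coe_S] using hb1)
        (by simpa [coe_T, coe_S] using hc1) (by simpa [coe_T, coe_S] using hd)
    · omega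
    · right; right; left
      exact hG S (by simp [coe_S]; omega) (by simpa [coe_S] using hb1)
        (by simpa [coe_S] using hc1) (by simpa [coe_S] using hd)
    · right; right; right; right; right; right; left
      exact hG (T * S) (by simp [coe_T, coe_S]; omega) (by simpa [coe_T, coe_S] using hb1)
        (by simpa [coe_T, coe_S] using hc1) (by simpa [coe_T, coe_S] using hd)
    · omega

variable {p : ℕ} [Fact p.Prime]

omit [NeZero N] in
/-- The weighted crossing sum over all translates of the edge `∞ → 0`, along `i → h i`. -/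
theorem weightedSum_eq (hp2 : p ≠ 2) (c P : SL(2, ℤ) → ZMod p)
    (hc : ∀ g, c (-g) = c g) (hS : ∀ g, P (g * S) = P g)
    (hT : ∀ g, P (g * T) - P g
      = 2 * (c (g * S) - c g + c (g * (T * S)) - c (g * T))) (h : SL(2, ℤ)) :
    ∑ᶠ g, c g * (e₀ g UpperHalfPlane.I (h • UpperHalfPlane.I) : ZMod p) = P h - P 1 := by
  have _ := hp2
  set Φ : SL(2, ℤ) → ZMod p :=
    fun h => ∑ᶠ g, c g * (e₀ g UpperHalfPlane.I (h • UpperHalfPlane.I) : ZMod p) with hΦdef
  have hfin : ∀ z w, (Function.support fun g => c g * (e₀ g z w : ZMod p)).Finite := fun z w =>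
    (finite_e₀ z w).subset fun g hg hz => by simp [hz] at hg
  have hstep : ∀ h x, Φ (h * x) - Φ h
      = ∑ᶠ g, c (h * g) * (e₀ g UpperHalfPlane.I (x • UpperHalfPlane.I) : ZMod p) := by
    intro h x
    simp only [hΦdef]
    rw [← finsum_sub_distrib (hfin _ _) (hfin _ _)]
    conv_lhs => rw [← finsum_comp_equiv (Equiv.mulLeft h)]
    refine finsum_congr fun g => ?_
    simp only [Equiv.coe_mulLeft]
    rw [← mul_sub, ← e₀_smul h g UpperHalfPlane.I (x • UpperHalfPlane.I), ← mul_smul]
    simp [e₀, cross]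
  let H : Subgroup SL(2, ℤ) :=
    { carrier := {x | ∀ h, Φ (h * x) - Φ h = P (h * x) - P h}
      one_mem' := fun h => by simp
      mul_mem' := fun {x y} hx hy h => by
        have h1 := hx h
        have h2 := hy (h * x)
        rw [← mul_assoc]
        linear_combination h1 + h2
      inv_mem' := fun {x} hx h => by
        have h1 := hx (h * x⁻¹)
        rw [inv_mul_cancel_right] at h1
        linear_combination -h1 }
  have hSmem : S ∈ H := by
    intro h
    rw [hstep, hS, sub_self, show (S : SL(2, ℤ)) • UpperHalfPlane.I = UpperHalfPlane.I from ?_]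
    · simp [e₀, cross]
    · rw [modular_S_smul]
      apply UpperHalfPlane.ext
      simp
  have hTmem : T ∈ H := by
    intro h
    rw [hstep, hT, finsum_eq_sum_of_support_subset _ (s := {1, -1, S, -S, T, -T, T * S, -(T * S)})
      (fun g hg => Finset.mem_coe.2 (mem_eight g fun hz => by
        rw [Function.mem_support, hz] at hg; simp at hg))]
    have hI2 : (T • UpperHalfPlane.I).re = 1 ∧ (T • UpperHalfPlane.I).im = 1 := by
      rw [modular_T_smul]; simp
    rw [Finset.sum_insert (by decide), Finset.sum_insert (by decide), Finset.sum_insert (by decide),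
      Finset.sum_insert (by decide), Finset.sum_insert (by decide), Finset.sum_insert (by decide),
      Finset.sum_insert (by decide), Finset.sum_singleton]
    have v1 : e₀ 1 UpperHalfPlane.I (T • UpperHalfPlane.I) = -1 := by
      rw [e₀, cross, e₀_eq, e₀_eq, hI2.1, hI2.2, UpperHalfPlane.I_re, UpperHalfPlane.I_im]
      norm_num [Matrix.SpecialLinearGroup.coe_mul, Matrix.SpecialLinearGroup.coe_one, Matrix.mul_apply,
        Fin.sum_univ_two]
    have v2 : e₀ S UpperHalfPlane.I (T • UpperHalfPlane.I) = 1 := by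
      rw [e₀, cross, e₀_eq, e₀_eq, hI2.1, hI2.2, UpperHalfPlane.I_re, UpperHalfPlane.I_im]
      norm_num [Matrix.SpecialLinearGroup.coe_mul, Matrix.SpecialLinearGroup.coe_one, Matrix.mul_apply,
        Fin.sum_univ_two, coe_S]
    have v3 : e₀ T UpperHalfPlane.I (T • UpperHalfPlane.I) = -1 := by
      rw [e₀, cross, e₀_eq, e₀_eq, hI2.1, hI2.2, UpperHalfPlane.I_re, UpperHalfPlane.I_im]
      norm_num [Matrix.SpecialLinearGroup.coe_mul, Matrix.SpecialLinearGroup.coe_one, Matrix.mul_apply,
        Fin.sum_univ_two, coe_T]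
    have v4 : e₀ (T * S) UpperHalfPlane.I (T • UpperHalfPlane.I) = 1 := by
      rw [e₀, cross, e₀_eq, e₀_eq, hI2.1, hI2.2, UpperHalfPlane.I_re, UpperHalfPlane.I_im]
      norm_num [Matrix.SpecialLinearGroup.coe_mul, Matrix.SpecialLinearGroup.coe_one, Matrix.mul_apply,
        Fin.sum_univ_two, coe_T, coe_S]
    have vneg : ∀ g, e₀ (-g) UpperHalfPlane.I (T • UpperHalfPlane.I)
        = e₀ g UpperHalfPlane.I (T • UpperHalfPlane.I) := by
      intro g
      simp only [e₀, cross, slVec_neg]
      rw [← neg_one_smul ℤ (slVec g ![1, 0]), ← neg_one_smul ℤ (slVec g ![0, 1]),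
        side_zsmul_left (by norm_num), side_zsmul_right (by norm_num),
        side_zsmul_left (by norm_num), side_zsmul_right (by norm_num)]
    rw [vneg, vneg, vneg, vneg, v1, v2, v3, v4, mul_one, mul_neg h 1, mul_one,
      mul_neg h S, mul_neg h T, mul_neg h (T * S), hc, hc, hc, hc]
    push_cast
    ring
  have htop : H = ⊤ := top_le_iff.mp <| by
    rw [← SpecialLinearGroup.SL2Z_generators, Subgroup.closure_le]
    rintro x (rfl | rfl)
    · exact hSmem
    · exact hTmem
  have := (show h ∈ H by rw [htop]; trivial) 1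
  rw [one_mul] at this
  have h0 : Φ 1 = 0 := by simp [hΦdef, e₀, cross]
  rwa [h0, sub_zero] at this

omit [Fact p.Prime] in
/-- The intersection homomorphisms of the edges of the Farey tessellation span the cuspidal
homomorphisms modulo an odd prime. -/
theorem span_crossHom_eq_cuspidalHoms {p : ℕ} (hp : p.Prime) (hp2 : p ≠ 2) :
    cuspidalHoms ℤ (Gamma0 N) (ZMod p) ≤
      Submodule.span ℤ (Set.range fun g : SL(2, ℤ) =>
        (Int.castAddHom (ZMod p)).comp (crossHom N (slVec g ![1, 0]) (slVec g ![0, 1]))) := by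
  intro φ hφ
  have := Fact.mk hp
  obtain ⟨Q, hQ, hQU⟩ := exists_potential N (φ := φ) hφ
  have hmem : (-1 : SL(2, ℤ)) ∈ Gamma0 N := by simp [Gamma0_mem]
  have hQneg : ∀ g, Q (-g) = Q g := by
    intro g
    rw [show -g = ((⟨-1, hmem⟩ : Gamma0 N) : SL(2, ℤ)) * g from (neg_one_mul g).symm, hQ,
      hφ ⟨-1, hmem⟩ (by simp), zero_add]
  have hU3 : ∀ g : SL(2, ℤ), g * (T * S) = g * T * S := fun g => (mul_assoc _ _ _).symm
  have hS2 : ∀ g : SL(2, ℤ), g * S * S = -g := fun g => by
    rw [mul_assoc, show S * S = (-1 : SL(2, ℤ)) by decide, mul_neg, mul_one]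
  have h8 : (8 : ZMod p) ≠ 0 := by
    intro h
    have h2 : ((2 ^ 3 : ℕ) : ZMod p) = 0 := by push_cast; linear_combination h
    rw [ZMod.natCast_eq_zero_iff] at h2
    exact hp2 ((Nat.prime_dvd_prime_iff_eq hp Nat.prime_two).mp (hp.dvd_of_dvd_pow h2))
  have h2 : (2 : ZMod p) ≠ 0 := fun h => h8 (by linear_combination 4 * h)
  set c : SL(2, ℤ) → ZMod p := fun g => (Q (g * S) - Q g) * 8⁻¹ with hcdef
  set P : SL(2, ℤ) → ZMod p := fun g => (Q g + Q (g * S)) * 2⁻¹ with hPdef
  have hcneg : ∀ g, c (-g) = c g := fun g => by simp [hcdef, neg_mul, hQneg]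
  have hPS : ∀ g, P (g * S) = P g := fun g => by simp [hPdef, hS2, hQneg, add_comm]
  have hPT : ∀ g, P (g * T) - P g
      = 2 * (c (g * S) - c g + c (g * (T * S)) - c (g * T)) := by
    intro g
    simp only [hcdef, hPdef, hU3, hS2, hQneg]
    rw [show Q (g * T * S) = Q g by rw [← hU3]; exact hQU g]
    field_simp
    ring
  classical
  set R := SL(2, ℤ) ⧸ Gamma0 N
  have hout : ∀ g : SL(2, ℤ), (Quotient.out (g : R))⁻¹ * g ∈ Gamma0 N := fun g =>
    QuotientGroup.eq.mp (QuotientGroup.out_eq' _)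
  let e : R × Gamma0 N ≃ SL(2, ℤ) :=
    { toFun := fun xh => (Quotient.out xh.1 * (xh.2 : SL(2, ℤ)))⁻¹
      invFun := fun g => ((g⁻¹ : SL(2, ℤ)), ⟨_, hout g⁻¹⟩)
      left_inv := fun xh => by
        have h1 : ((Quotient.out xh.1 * (xh.2 : SL(2, ℤ)) : SL(2, ℤ)) : R) = xh.1 := by
          rw [QuotientGroup.mk_mul_of_mem _ xh.2.2]; exact QuotientGroup.out_eq' _
        refine Prod.ext ?_ (Subtype.ext ?_)
        · simp only [inv_inv]; exact h1
        · simp only [inv_inv, h1, inv_mul_cancel_left]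
      right_inv := fun g => by simp }
  let base : R → SL(2, ℤ) := fun x => e (x, 1)
  have he : ∀ x h, e (x, h) = ((h⁻¹ : Gamma0 N) : SL(2, ℤ)) * base x := by
    intro x h
    simp [base, e, mul_inv_rev]
  have hfinite : Finite R := inferInstance
  have : Fintype R := Fintype.ofFinite R
  have hcinv : ∀ (γ : Gamma0 N) g, c ((γ : SL(2, ℤ)) * g) = c g := by
    intro γ g
    simp only [hcdef, mul_assoc, hQ]
    ring
  have hval : φ = ∑ x : R, ((c (base x)).val : ℤ) •
      (Int.castAddHom (ZMod p)).comp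
        (crossHom N (slVec (base x) ![1, 0]) (slVec (base x) ![0, 1])) := by
    refine AddMonoidHom.ext fun γ => ?_
    obtain ⟨γ, rfl⟩ := Additive.ofMul.surjective γ
    have hw := weightedSum_eq hp2 c P hcneg hPS hPT (γ : SL(2, ℤ))
    have hP : P (γ : SL(2, ℤ)) - P 1 = φ (Additive.ofMul γ) := by
      have hg := hQ γ 1
      rw [mul_one] at hg
      simp only [hPdef, one_mul, hQ, hg]
      field_simp
      ring
    rw [hP] at hw
    rw [← hw, ← finsum_comp_equiv e, finsum_curry _ (by
      refine ((finite_e₀ UpperHalfPlane.I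
        ((γ : SL(2, ℤ)) • UpperHalfPlane.I)).preimage e.injective.injOn).subset fun x hx => ?_
      simp only [Set.mem_preimage, Function.mem_support] at hx ⊢
      intro hz
      exact hx (by rw [hz, Int.cast_zero, mul_zero])), finsum_eq_sum_of_fintype, AddMonoidHom.finsetSum_apply]
    refine Finset.sum_congr rfl fun x _ => ?_
    rw [AddMonoidHom.smul_apply, AddMonoidHom.comp_apply, crossHom_ofMul, zsmul_eq_mul]
    unfold crossSum
    rw [AddMonoidHom.map_finsum _ (finite_support_cross_Gamma0 N _ _ _ _),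
      ← finsum_comp_equiv (Equiv.inv (Gamma0 N)), mul_finsum]
    refine finsum_congr fun h => ?_
    simp only [Equiv.inv_apply, he, hcinv, e₀, cross, slVec_mul_apply]
    simp
  rw [hval]
  exact Submodule.sum_mem _ fun x _ =>
    Submodule.smul_mem _ _ (Submodule.subset_span ⟨base x, rfl⟩)

end Surjectivity

end Fermat.Agent.LevelRaise
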