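import Fermat.Agent.Periods.Hecke
import Mathlib.NumberTheory.ModularForms.Cusps

/-!
# The Hecke representatives at a prime `ℓ ≡ 1 (mod N)` fix the cusp classes of `Γ₀(N)`
-/

set_option autoImplicit false

open CongruenceSubgroup Matrix
open Fermat.Agent.Periods
open scoped MatrixGroups

namespace Fermat.Agent.LevelRaise

/-- Two primitive vectors congruent modulo `N` differ by an element of `Γ(N)`. -/
theorem exists_Gamma_mulVec_eq {N : ℕ} {a c a' c' : ℤ} (h : IsCoprime a c) (h' : IsCoprime a' c')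
    (ha : (a' : ZMod N) = a) (hc : (c' : ZMod N) = c) :
    ∃ g : SL(2, ℤ), g ∈ Gamma N ∧ (g : Matrix (Fin 2) (Fin 2) ℤ) *ᵥ ![a, c] = ![a', c'] := by
  obtain ⟨k, hk0, hk1⟩ := h.exists_SL2_col 0
  have hdet := k.2
  rw [Matrix.det_fin_two, hk0, hk1] at hdet
  set b := (k : Matrix (Fin 2) (Fin 2) ℤ) 0 1 with hb
  set d := (k : Matrix (Fin 2) (Fin 2) ℤ) 1 1 with hd
  -- `k⁻¹ (a', c')`
  set x := d * a' - b * c' with hx
  set y := a * c' - c * a' with hy
  have hdetN : (a : ZMod N) * d - b * c = 1 := by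
    exact_mod_cast congrArg (Int.cast : ℤ → ZMod N) hdet
  have hxN : (x : ZMod N) = 1 := by
    rw [hx]; push_cast [ha, hc]; linear_combination hdetN
  have hyN : (y : ZMod N) = 0 := by
    rw [hy]; push_cast [ha, hc]; ring
  obtain ⟨u, v, huv⟩ := h'
  -- a second column completing `(x, y)`
  set b₀ := -(u * b + v * d) with hb₀
  set d₀ := u * a + v * c with hd₀
  have hxy : x * d₀ - b₀ * y = 1 := by
    rw [hx, hy, hb₀, hd₀]; linear_combination (a' * u + c' * v) * hdet + huv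
  have hdet' : (!![x, b₀ - b₀ * x; y, d₀ - b₀ * y]).det = 1 := by
    rw [Matrix.det_fin_two_of]; linear_combination hxy
  obtain ⟨m, hm⟩ : ∃ m : SL(2, ℤ), (m : Matrix (Fin 2) (Fin 2) ℤ) =
      !![x, b₀ - b₀ * x; y, d₀ - b₀ * y] := ⟨⟨_, hdet'⟩, rfl⟩
  refine ⟨k * m * k⁻¹, ?_, ?_⟩
  · refine (Gamma_normal (N := N)).conj_mem _ ?_ k
    refine Gamma_mem.2 ?_
    have h00 : ((b₀ - b₀ * x : ℤ) : ZMod N) = 0 := by push_cast [hxN]; ring
    have h11 : ((d₀ - b₀ * y : ℤ) : ZMod N) = 1 := by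
      have := congrArg (Int.cast : ℤ → ZMod N) hxy
      push_cast [hxN, hyN] at this ⊢
      linear_combination this
    simp only [hm]
    exact ⟨hxN, h00, hyN, h11⟩
  · rw [Matrix.SpecialLinearGroup.coe_mul, Matrix.SpecialLinearGroup.coe_mul,
      ← Matrix.mulVec_mulVec, ← Matrix.mulVec_mulVec, Matrix.SpecialLinearGroup.coe_inv,
      Matrix.adjugate_fin_two, hm, hk0, hk1, ← hb, ← hd,
      (k : Matrix (Fin 2) (Fin 2) ℤ).eta_fin_two, hk0, hk1, ← hb, ← hd]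
    ext i
    fin_cases i <;>
      simp [Matrix.mulVec, dotProduct, Fin.sum_univ_two, hx, hy]
    · linear_combination a' * (a * d - b * c + 1) * hdet
    · linear_combination c' * (a * d - b * c + 1) * hdet

/-- For a prime `ℓ ≡ 1 (mod N)` a representative `M` of `T_ℓ` maps every cusp into its class. -/
theorem exists_gamma0_heckeMat_mulVec {N ℓ : ℕ} (hℓ : ℓ.Prime) (hℓ1 : (ℓ : ZMod N) = 1)
    (i : HeckeIdx N ℓ) (r : Fin 2 → ℤ) (hr : r ≠ 0) :
    ∃ (g : Gamma0 N) (c c' : ℤ), c ≠ 0 ∧ c' ≠ 0 ∧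
      c • (heckeMat N ℓ i *ᵥ r) = c' • (((g : SL(2, ℤ)) : Matrix (Fin 2) (Fin 2) ℤ) *ᵥ r) := by
  have hr' : r 0 ≠ 0 ∨ r 1 ≠ 0 := by
    by_contra h
    push Not at h
    exact hr (funext fun i => by fin_cases i <;> simp [h.1, h.2])
  obtain ⟨a, ha⟩ := Int.gcd_dvd_left (r 0) (r 1)
  obtain ⟨c, hc⟩ := Int.gcd_dvd_right (r 0) (r 1)
  set d := (Int.gcd (r 0) (r 1) : ℤ) with hd
  have hd0 : d ≠ 0 := by
    rcases hr' with h | h
    · intro h0; exact h (by rw [ha, h0, zero_mul])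
    · intro h0; exact h (by rw [hc, h0, zero_mul])
  have hac : IsCoprime a c := by
    have h := Int.gcd_eq_gcd_ab (r 0) (r 1)
    rw [← hd] at h
    refine ⟨Int.gcdA (r 0) (r 1), Int.gcdB (r 0) (r 1), mul_left_cancel₀ hd0 ?_⟩
    linear_combination -h - Int.gcdA (r 0) (r 1) * ha - Int.gcdB (r 0) (r 1) * hc
  have hr2 : r = d • ![a, c] := funext fun i => by fin_cases i <;> simp [← ha, ← hc]
  obtain ⟨s, t, e, j, he, hst, hv, hsN, htN⟩ : ∃ s t e j : ℤ, e ≠ 0 ∧ IsCoprime s t ∧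
      heckeMat N ℓ i *ᵥ ![a, c] = e • ![s, t] ∧
      (s : ZMod N) = ((a + j * c : ℤ) : ZMod N) ∧ (t : ZMod N) = (c : ZMod N) := by
    obtain ⟨_ | j, hi⟩ := i
    · by_cases hd : (ℓ : ℤ) ∣ c
      · obtain ⟨m, hm⟩ := hd
        refine ⟨a, m, ℓ, 0, by exact_mod_cast hℓ.ne_zero, ?_, ?_, by simp, ?_⟩
        · exact (hm ▸ hac).of_mul_right_right
        · ext k; fin_cases k <;> simp [heckeMat, hm, mul_comm]
        · subst hm; push_cast [hℓ1]; ring
      · refine ⟨ℓ * a, c, 1, 0, one_ne_zero, ?_, ?_, ?_, rfl⟩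
        · exact (((Nat.prime_iff_prime_int.1 hℓ).coprime_iff_not_dvd).2 hd).mul_left hac
        · ext k; fin_cases k <;> simp [heckeMat, mul_comm]
        · push_cast [hℓ1]; ring
    · by_cases hd : (ℓ : ℤ) ∣ a + (j : ℕ) * c
      · obtain ⟨m, hm⟩ := hd
        refine ⟨m, c, ℓ, ((j : ℕ) : ℤ), by exact_mod_cast hℓ.ne_zero, ?_, ?_, ?_, rfl⟩
        · have : IsCoprime (a + (j : ℕ) * c) c := IsCoprime.add_mul_right_left hac _
          exact (hm ▸ this).of_mul_left_right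
        · ext k; fin_cases k
          · simp [heckeMat, ← hm, mul_comm]
          · simp [heckeMat, mul_comm]
        · rw [hm]; push_cast [hℓ1]; ring
      · refine ⟨a + (j : ℕ) * c, ℓ * c, 1, ((j : ℕ) : ℤ), one_ne_zero, ?_, ?_, rfl, ?_⟩
        · exact IsCoprime.mul_right ((Nat.prime_iff_prime_int.1 hℓ).coprime_iff_not_dvd.2 hd).symm
            (IsCoprime.add_mul_right_left hac _)
        · ext k; fin_cases k <;> simp [heckeMat, mul_comm]
        · push_cast [hℓ1]; ring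
  have hjc : IsCoprime (a + j * c) c := IsCoprime.add_mul_right_left hac _
  obtain ⟨g, hg, hgv⟩ := exists_Gamma_mulVec_eq hjc hst hsN htN
  let T : SL(2, ℤ) := ⟨!![1, j; 0, 1], by simp [Matrix.det_fin_two_of]⟩
  have hgT : g * T ∈ Gamma0 N := by
    refine (Gamma0 N).mul_mem ?_ (by rw [Gamma0_mem]; simp [T])
    rw [Gamma0_mem]; exact (Gamma_mem.1 hg).2.2.1
  refine ⟨⟨g * T, hgT⟩, 1, e, one_ne_zero, he, ?_⟩
  have hT : (T : Matrix (Fin 2) (Fin 2) ℤ) *ᵥ ![a, c] = ![a + j * c, c] := by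
    ext k; fin_cases k <;> simp [T, mul_comm]
  rw [one_smul, hr2, Matrix.mulVec_smul, Matrix.mulVec_smul, hv, Matrix.SpecialLinearGroup.coe_mul,
    ← Matrix.mulVec_mulVec, hT, hgv, smul_comm]

end Fermat.Agent.LevelRaise
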