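import Mathlib.LinearAlgebra.Determinant
import Mathlib.LinearAlgebra.Trace
import Mathlib.LinearAlgebra.FiniteDimensional.Lemmas
import Mathlib.LinearAlgebra.Matrix.Trace
import Mathlib.GroupTheory.Commutator.Basic

/-!
# Two-dimensional representations in which a normal subgroup fixes a vector elementwise
-/

set_option autoImplicit false

noncomputable section

open Module

namespace Fermat.Agent.LevelRaise

variable {k V G : Type*} [Field k] [AddCommGroup V] [Module k V] [Group G]

theorem det_sub_one_of_finrank_two (hV : finrank k V = 2) (f : Module.End k V) :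
    LinearMap.det (f - 1) = LinearMap.det f - LinearMap.trace k V f + 1 := by
  have : Module.Finite k V := Module.finite_of_finrank_eq_succ hV
  let b := Module.finBasisOfFinrankEq k V hV
  rw [← LinearMap.det_toMatrix b, ← LinearMap.det_toMatrix b f,
    LinearMap.trace_eq_matrix_trace k b f, map_sub,
    show LinearMap.toMatrix b b (1 : Module.End k V) = 1 from LinearMap.toMatrix_one b]
  rw [Matrix.det_fin_two, Matrix.det_fin_two, Matrix.trace_fin_two]
  simp
  ring

/-- If every element of `H` has eigenvalue `1` and `H` is not trivial on `V`, then either `H` fixes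
a common nonzero vector or moves everything into a common line. -/
theorem fixed_vector_or_line (hV : finrank k V = 2) (ρ : G →* Module.End k V) (H : Subgroup G)
    (h1 : ∀ h ∈ H, LinearMap.det (ρ h - 1) = 0) (hne : ∃ h ∈ H, ρ h ≠ 1) :
    ∃ v : V, v ≠ 0 ∧ ((∀ h ∈ H, ρ h v = v) ∨
      ∀ h ∈ H, ∀ x, ρ h x - x ∈ Submodule.span k {v}) := by
  have : Module.Finite k V := Module.finite_of_finrank_eq_succ hV
  -- an element to start with: unipotent if possible, else `H` acts commutatively
  obtain ⟨x, hxH, hx1, hx⟩ : ∃ x ∈ H, ρ x ≠ 1 ∧ (LinearMap.det (ρ x) = 1 ∨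
      ∀ g ∈ H, ρ g * ρ x = ρ x * ρ g) := by
    by_cases hu : ∃ x ∈ H, ρ x ≠ 1 ∧ LinearMap.det (ρ x) = 1
    · obtain ⟨x, a, b, c⟩ := hu
      exact ⟨x, a, b, Or.inl c⟩
    · obtain ⟨x, hxH, hx1⟩ := hne
      refine ⟨x, hxH, hx1, Or.inr fun g hg => ?_⟩
      have hcomm : ρ (g * x * g⁻¹ * x⁻¹) = 1 := by
        by_contra hc
        refine hu ⟨_, H.mul_mem (H.mul_mem (H.mul_mem hg hxH) (H.inv_mem hg)) (H.inv_mem hxH), hc,
          ?_⟩
        have e : ∀ y, LinearMap.det (ρ y) * LinearMap.det (ρ y⁻¹) = 1 := fun y => by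
          rw [← map_mul, ← map_mul, mul_inv_cancel, map_one, map_one]
        simp only [map_mul]
        linear_combination (LinearMap.det (ρ x) * LinearMap.det (ρ x⁻¹)) * e g + e x
      calc ρ g * ρ x = ρ (g * x * g⁻¹ * x⁻¹) * (ρ x * ρ g) := by
            rw [← map_mul, ← map_mul, ← map_mul]; congr 1; group
        _ = ρ x * ρ g := by rw [hcomm, one_mul]
  obtain ⟨v, hv, hv0⟩ := Submodule.exists_mem_ne_zero_of_ne_bot
    (show LinearMap.ker (ρ x - 1) ≠ ⊥ from
      (LinearMap.bot_lt_ker_of_det_eq_zero (h1 x hxH)).ne')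
  rw [LinearMap.mem_ker, LinearMap.sub_apply, Module.End.one_apply, sub_eq_zero] at hv
  obtain ⟨w, hli⟩ := exists_linearIndependent_pair_of_one_lt_finrank (R := k) (by omega) hv0
  let b : Basis (Fin 2) k V := basisOfLinearIndependentOfCardEqFinrank hli (by simp [hV])
  have hb : ⇑b = ![v, w] := coe_basisOfLinearIndependentOfCardEqFinrank hli _
  let m : G → Matrix (Fin 2) (Fin 2) k := fun g => LinearMap.toMatrix b b (ρ g)
  have hm : ∀ g g', m (g * g') = m g * m g' := fun g g' => by
    simp only [m, map_mul]; exact LinearMap.toMatrix_mul b _ _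
  have hdet : ∀ g, LinearMap.det (ρ g) = (m g).det := fun g => (LinearMap.det_toMatrix b _).symm
  have hdet1 : ∀ g ∈ H, (m g 0 0 - 1) * (m g 1 1 - 1) - m g 0 1 * m g 1 0 = 0 := by
    intro g hg
    have := h1 g hg
    rw [← LinearMap.det_toMatrix b, map_sub,
      show LinearMap.toMatrix b b (1 : Module.End k V) = 1 from LinearMap.toMatrix_one b,
      Matrix.det_fin_two] at this
    simpa [m] using this
  have hcol : ∀ g, ρ g v = m g 0 0 • v + m g 1 0 • w := by
    intro g
    conv_lhs => rw [← b.sum_repr (ρ g v), Fin.sum_univ_two, hb]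
    simp [m, LinearMap.toMatrix_apply, hb]
  have hcol1 : ∀ g, ρ g w = m g 0 1 • v + m g 1 1 • w := by
    intro g
    conv_lhs => rw [← b.sum_repr (ρ g w), Fin.sum_univ_two, hb]
    simp [m, LinearMap.toMatrix_apply, hb]
  have hx00 : m x 0 0 = 1 ∧ m x 1 0 = 0 := by
    have h0 : b 0 = v := by simp [hb]
    have e : ∀ i, m x i 0 = b.repr v i := fun i => by
      simp [m, LinearMap.toMatrix_apply, h0, hv]
    rw [e, e, ← h0, b.repr_self]
    simp
  have hxne : m x 1 1 = 1 → m x 0 1 ≠ 0 := by
    intro h11 h01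
    refine hx1 ((LinearMap.toMatrix b b).injective ?_)
    rw [LinearMap.toMatrix_one]
    ext i j
    fin_cases i <;> fin_cases j
    · simpa [m] using hx00.1
    · simpa [m] using h01
    · simpa [m] using hx00.2
    · simpa [m] using h11
  have hc : ∀ g ∈ H, m g 1 0 = 0 := by
    intro g hg
    rcases hx with hx | hx
    · have h11 : m x 1 1 = 1 := by
        rw [hdet, Matrix.det_fin_two, hx00.1, hx00.2] at hx
        simpa using hx
      have h2 := hdet1 (g * x) (H.mul_mem hg hxH)
      simp only [hm, Matrix.mul_apply, Fin.sum_univ_two, hx00.1, hx00.2, h11] at h2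
      have h3 : m x 0 1 * m g 1 0 = 0 := by linear_combination -h2 + hdet1 g hg
      exact (mul_eq_zero.1 h3).resolve_left (hxne h11)
    · have h2 : m g * m x = m x * m g := by
        simp only [m, ← LinearMap.toMatrix_mul, hx g hg]
      have e10 := congrFun (congrFun h2 1) 0
      have e00 := congrFun (congrFun h2 0) 0
      simp only [Matrix.mul_apply, Fin.sum_univ_two, hx00.1, hx00.2] at e10 e00
      by_cases h11 : m x 1 1 = 1
      · have h3 : m x 0 1 * m g 1 0 = 0 := by linear_combination -e00
        exact (mul_eq_zero.1 h3).resolve_left (hxne h11)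
      · have h3 : (1 - m x 1 1) * m g 1 0 = 0 := by linear_combination e10
        exact (mul_eq_zero.1 h3).resolve_left (sub_ne_zero.2 (Ne.symm h11))
  refine ⟨v, hv0, ?_⟩
  by_cases hA : ∀ g ∈ H, m g 0 0 = 1
  · exact Or.inl fun g hg => by rw [hcol, hA g hg, hc g hg, one_smul, zero_smul, add_zero]
  · push Not at hA
    obtain ⟨g₀, hg₀, hg₀a⟩ := hA
    have hor : ∀ g ∈ H, m g 0 0 = 1 ∨ m g 1 1 = 1 := by
      intro g hg
      have h2 : (m g 0 0 - 1) * (m g 1 1 - 1) = 0 := by
        linear_combination hdet1 g hg + m g 0 1 * hc g hg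
      rcases mul_eq_zero.1 h2 with h | h
      · exact Or.inl (sub_eq_zero.1 h)
      · exact Or.inr (sub_eq_zero.1 h)
    have hd₀ : m g₀ 1 1 = 1 := (hor g₀ hg₀).resolve_left hg₀a
    have hD : ∀ g ∈ H, m g 1 1 = 1 := by
      intro g hg
      by_contra hne
      have ha : m g 0 0 = 1 := (hor g hg).resolve_right hne
      rcases hor _ (H.mul_mem hg hg₀) with h | h <;>
        simp [hm, Matrix.mul_apply, Fin.sum_univ_two, hc g hg, hc g₀ hg₀, hd₀, ha] at h
      · exact hg₀a h
      · exact hne h
    refine Or.inr fun g hg y => Submodule.mem_span_singleton.2 ?_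
    refine ⟨b.repr y 0 * (m g 0 0 - 1) + b.repr y 1 * m g 0 1, ?_⟩
    have hy : y = b.repr y 0 • v + b.repr y 1 • w := by
      conv_lhs => rw [← b.sum_repr y, Fin.sum_univ_two, hb]
      simp
    conv_rhs => rw [hy]
    rw [map_add, map_smul, map_smul, hcol, hcol1, hc g hg, hD g hg]
    module

/-- An irreducible representation with an involution of determinant `-1` is not trivial on a normal
subgroup with abelian quotient on which all elements have eigenvalue `1`. -/
theorem exists_det_sub_one_ne_zero (h2 : (2 : k) ≠ 0) (hV : finrank k V = 2)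
    (ρ : G →* Module.End k V)
    (hirr : ∀ W : Submodule k V, (∀ g, ∀ x ∈ W, ρ g x ∈ W) → W = ⊥ ∨ W = ⊤)
    {c : G} (hc : c * c = 1) (hcdet : LinearMap.det (ρ c) = -1)
    (H : Subgroup G) [H.Normal] (hab : ∀ g g' : G, g * g' * g⁻¹ * g'⁻¹ ∈ H) :
    ∃ h ∈ H, LinearMap.det (ρ h - 1) ≠ 0 := by
  by_contra hall
  push Not at hall
  have : Module.Finite k V := Module.finite_of_finrank_eq_succ hV
  have htriv : ∀ h ∈ H, ρ h = 1 := by
    by_contra hne
    push Not at hne
    obtain ⟨h₀, hh₀, hne₀⟩ := hne
    obtain ⟨v, hv, hor⟩ := fixed_vector_or_line hV ρ H hall ⟨h₀, hh₀, hne₀⟩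
    rcases hor with hfix | hline
    · let W : Submodule k V :=
        { carrier := {x | ∀ h ∈ H, ρ h x = x}
          zero_mem' := fun h _ => map_zero _
          add_mem' := fun ha hb h hh => by rw [map_add, ha h hh, hb h hh]
          smul_mem' := fun a x hx h hh => by rw [map_smul, hx h hh] }
      have hW : ∀ g, ∀ x ∈ W, ρ g x ∈ W := by
        intro g x hx h hh
        have hh' : g⁻¹ * h * g ∈ H := by simpa using ‹H.Normal›.conj_mem h hh g⁻¹
        rw [← Module.End.mul_apply, ← map_mul, show h * g = g * (g⁻¹ * h * g) by group, map_mul,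
          Module.End.mul_apply, hx _ hh']
      rcases hirr W hW with h | h
      · exact hv ((Submodule.eq_bot_iff W).1 h v hfix)
      · exact hne₀ (LinearMap.ext fun x =>
          (show x ∈ W by rw [h]; exact Submodule.mem_top) h₀ hh₀)
    · let W : Submodule k V := Submodule.span k {y | ∃ h ∈ H, ∃ x, ρ h x - x = y}
      have hW : ∀ g, ∀ x ∈ W, ρ g x ∈ W := by
        intro g
        suffices W ≤ W.comap (ρ g) from fun x hx => this hx
        refine Submodule.span_le.2 ?_
        rintro _ ⟨h, hh, x, rfl⟩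
        refine Submodule.subset_span ⟨g * h * g⁻¹, ‹H.Normal›.conj_mem h hh g, ρ g x, ?_⟩
        rw [map_sub, ← Module.End.mul_apply, ← Module.End.mul_apply, ← map_mul, ← map_mul,
          inv_mul_cancel_right]
      have hle : W ≤ Submodule.span k {v} := Submodule.span_le.2 fun y ⟨h, hh, x, hy⟩ =>
        hy ▸ hline h hh x
      rcases hirr W hW with h | h
      · exact hne₀ (LinearMap.ext fun x => sub_eq_zero.1
          ((Submodule.eq_bot_iff W).1 h _ (Submodule.subset_span ⟨h₀, hh₀, x, rfl⟩)))
      · have hle' := Submodule.finrank_mono hle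
        rw [h, finrank_top, hV, finrank_span_singleton hv] at hle'
        omega
  -- the image is abelian, so the eigenspaces of `c` are stable
  have hcc : ∀ x, ρ c (ρ c x) = x := fun x => by
    rw [← Module.End.mul_apply, ← map_mul, hc, map_one, Module.End.one_apply]
  have hcomm : ∀ g, ∀ x, ρ c (ρ g x) = ρ g (ρ c x) := by
    intro g x
    rw [← Module.End.mul_apply, ← Module.End.mul_apply, ← map_mul, ← map_mul,
      show c * g = (c * g * c⁻¹ * g⁻¹) * (g * c) by group, map_mul, htriv _ (hab c g), one_mul]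
  let W : Submodule k V := LinearMap.ker (ρ c - 1)
  have hmem : ∀ x, x ∈ W ↔ ρ c x = x := fun x => by simp [W, sub_eq_zero]
  rcases hirr W (fun g x hx => (hmem _).2 (by rw [hcomm, (hmem x).1 hx])) with h | h
  · have hneg : ρ c = (-1 : k) • LinearMap.id := by
      refine LinearMap.ext fun x => ?_
      have h0 : x + ρ c x ∈ W := (hmem _).2 (by rw [map_add, hcc, add_comm])
      rw [h, Submodule.mem_bot] at h0
      simpa using eq_neg_of_add_eq_zero_right h0
    rw [hneg, LinearMap.det_smul, hV, LinearMap.det_id] at hcdet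
    exact h2 (by linear_combination hcdet)
  · have hone : ρ c = 1 := LinearMap.ext fun x => (hmem x).1 (by rw [h]; exact Submodule.mem_top)
    rw [hone, map_one] at hcdet
    exact h2 (by linear_combination hcdet)

end Fermat.Agent.LevelRaise
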